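import Fermat.Agent.ExtVanishing.EulerIdeal
import Mathlib.Analysis.PSeries

/-!
# A density criterion for the triviality of a class group character

If every prime of degree one (outside a finite set) either is killed by `χ` or splits
completely in an extension `M` in the sense of having `p ≥ 3` primes of the same norm,
then `χ = 1`.
-/

set_option autoImplicit false

namespace Fermat.Agent.ExtVanishing

open NumberField IsDedekindDomain Module
open scoped nonZeroDivisors Classical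

noncomputable section

variable (K : Type*) [Field K] [NumberField K]

/-- The term `N(P)^(-s)` at a prime. -/
def primeTerm (s : ℝ) (P : HeightOneSpectrum (𝓞 K)) : ℝ :=
  (Ideal.absNorm P.asIdeal : ℝ) ^ (-s)

lemma primeTerm_nonneg (s : ℝ) (P : HeightOneSpectrum (𝓞 K)) : 0 ≤ primeTerm K s P :=
  Real.rpow_nonneg (Nat.cast_nonneg _) _

lemma two_le_absNorm (P : HeightOneSpectrum (𝓞 K)) : 2 ≤ Ideal.absNorm P.asIdeal := by
  have h0 : Ideal.absNorm P.asIdeal ≠ 0 := by rw [ne_eq, Ideal.absNorm_eq_zero_iff]; exact P.ne_bot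
  have h1 : Ideal.absNorm P.asIdeal ≠ 1 := by
    rw [ne_eq, Ideal.absNorm_eq_one_iff]; exact P.isPrime.ne_top
  omega

lemma absNorm_prime_pow (P : HeightOneSpectrum (𝓞 K)) :
    ∃ ℓ f : ℕ, ℓ.Prime ∧ 0 < f ∧ Ideal.absNorm P.asIdeal = ℓ ^ f ∧ (ℓ : 𝓞 K) ∈ P.asIdeal := by
  set N := Ideal.absNorm P.asIdeal with hN
  have hNmem : (N : 𝓞 K) ∈ P.asIdeal := Ideal.absNorm_mem P.asIdeal
  have hN0 : N ≠ 0 := by have := two_le_absNorm K P; omega
  rw [← Nat.prod_primeFactorsList hN0, ← Nat.coe_castRingHom, map_list_prod, Nat.coe_castRingHom] at hNmem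
  obtain ⟨ℓ', hmem, hℓP⟩ :=
    ((Ideal.IsPrime.multiset_prod_mem_iff_exists_mem P.isPrime
      (((N.primeFactorsList).map (Nat.cast : ℕ → 𝓞 K)) : Multiset (𝓞 K))).mp (by simpa using hNmem))
  obtain ⟨ℓ, hℓ, rfl⟩ := List.mem_map.mp (Multiset.mem_coe.mp hmem)
  have hp := Nat.prime_of_mem_primeFactorsList hℓ
  have hdvd : N ∣ ℓ ^ finrank ℤ (𝓞 K) := by
    have := Ideal.absNorm_dvd_absNorm_of_le
      (show Ideal.span {(ℓ : 𝓞 K)} ≤ P.asIdeal by rwa [Ideal.span_singleton_le_iff_mem])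
    rwa [Ideal.absNorm_span_singleton, ← hN, show ((ℓ : 𝓞 K)) = algebraMap ℤ (𝓞 K) ℓ by simp,
      Algebra.norm_algebraMap, Int.natAbs_pow, Int.natAbs_natCast] at this
  obtain ⟨f, -, hf⟩ := (Nat.dvd_prime_pow hp).mp hdvd
  refine ⟨ℓ, f, hp, Nat.pos_of_ne_zero fun h ↦ ?_, hf, hℓP⟩
  have := two_le_absNorm K P
  rw [← hN, hf, h, pow_zero] at this
  omega

lemma card_primes_over_le (ℓ : ℕ) (hℓ : 2 ≤ ℓ) (S : Finset (HeightOneSpectrum (𝓞 K)))
    (hS : ∀ P ∈ S, ℓ ∣ Ideal.absNorm P.asIdeal ∧ (ℓ : 𝓞 K) ∈ P.asIdeal) :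
    S.card ≤ finrank ℚ K := by
  have hdvd : ∏ P ∈ S, P.asIdeal ∣ Ideal.span {(ℓ : 𝓞 K)} := by
    have h := Finset.prod_primes_dvd (Ideal.span {(ℓ : 𝓞 K)})
      (s := S.image HeightOneSpectrum.asIdeal)
      (fun a ha ↦ by
        obtain ⟨P, -, rfl⟩ := Finset.mem_image.mp ha
        exact Ideal.prime_of_isPrime P.ne_bot P.isPrime)
      (fun a ha ↦ by
        obtain ⟨P, hP, rfl⟩ := Finset.mem_image.mp ha
        exact Ideal.dvd_span_singleton.mpr (hS P hP).2)
    rwa [Finset.prod_image (fun a _ b _ hab ↦ HeightOneSpectrum.ext hab)] at h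
  have h2 := map_dvd Ideal.absNorm hdvd
  rw [map_prod, Ideal.absNorm_span_singleton, show ((ℓ : 𝓞 K)) = algebraMap ℤ (𝓞 K) ℓ by simp,
    Algebra.norm_algebraMap, Int.natAbs_pow, Int.natAbs_natCast, RingOfIntegers.rank] at h2
  have h3 : ℓ ^ S.card ∣ ℓ ^ finrank ℚ K := by
    rw [← Finset.prod_const]
    exact (Finset.prod_dvd_prod_of_dvd _ _ fun P hP ↦ (hS P hP).1).trans h2
  exact (Nat.pow_dvd_pow_iff_le_right hℓ).mp h3

/-- The primes of non-prime norm have bounded total weight, uniformly in `s ≥ 1`. -/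
theorem exists_nonPrimeNorm_bound :
    ∃ B, ∀ s : ℝ, 1 ≤ s → ∀ S : Finset (HeightOneSpectrum (𝓞 K)),
      (∀ P ∈ S, ¬ (Ideal.absNorm P.asIdeal).Prime) → ∑ P ∈ S, primeTerm K s P ≤ B := by
  choose ℓ f hℓ hf hN hmem using absNorm_prime_pow K
  have hsum : Summable fun k : ℕ ↦ (finrank ℚ K : ℝ) * (1 / (k : ℝ) ^ 2) :=
    (Real.summable_one_div_nat_pow.mpr one_lt_two).mul_left _
  refine ⟨∑' k : ℕ, (finrank ℚ K : ℝ) * (1 / (k : ℝ) ^ 2), fun s hs S hS ↦ ?_⟩
  have hterm : ∀ P ∈ S, primeTerm K s P ≤ 1 / (ℓ P : ℝ) ^ 2 := by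
    intro P hP
    have h2 : 2 ≤ f P := by
      by_contra h
      have : f P = 1 := by have := hf P; omega
      exact hS P hP (by rw [hN P, this, pow_one]; exact hℓ P)
    have h1 : (1 : ℝ) ≤ ℓ P := by exact_mod_cast (hℓ P).one_le
    rw [primeTerm, hN P, Nat.cast_pow, Real.rpow_neg (by positivity), one_div]
    refine inv_anti₀ (by positivity) ?_
    calc (ℓ P : ℝ) ^ 2 ≤ (ℓ P : ℝ) ^ f P := pow_le_pow_right₀ h1 h2
      _ ≤ _ := Real.self_le_rpow_of_one_le (one_le_pow₀ h1) hs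
  refine (Finset.sum_le_sum hterm).trans ?_
  rw [← Finset.sum_fiberwise_of_maps_to (t := S.image ℓ) (g := ℓ)
    (fun P hP ↦ Finset.mem_image_of_mem _ hP)]
  refine le_trans (Finset.sum_le_sum fun k hk ↦ ?_) (hsum.sum_le_tsum _ fun _ _ ↦ by positivity)
  rw [Finset.sum_congr rfl fun P hP ↦ by rw [(Finset.mem_filter.mp hP).2], Finset.sum_const,
    nsmul_eq_mul]
  refine mul_le_mul_of_nonneg_right (Nat.cast_le.mpr ?_) (by positivity)
  obtain ⟨P₀, -, rfl⟩ := Finset.mem_image.mp hk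
  refine card_primes_over_le K (ℓ P₀) (hℓ P₀).two_le _ fun P hP ↦ ?_
  rw [← (Finset.mem_filter.mp hP).2]
  exact ⟨hN P ▸ dvd_pow_self _ (hf P).ne', hmem P⟩

variable {K}

lemma idealTerm_primeNZ (s : ℝ) (P : HeightOneSpectrum (𝓞 K)) :
    idealTerm K s (primeNZ K P) = primeTerm K s P := rfl

/-- The ideal term as a monoid homomorphism. -/
def idealTermHom (s : ℝ) : (Ideal (𝓞 K))⁰ →* ℝ where
  toFun := idealTerm K s
  map_one' := by simp [idealTerm]
  map_mul' I J := by
    simp only [idealTerm, Submonoid.coe_mul, map_mul, Nat.cast_mul]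
    exact Real.mul_rpow (Nat.cast_nonneg _) (Nat.cast_nonneg _)

lemma primeTerm_le_half {s : ℝ} (hs : 1 ≤ s) (P : HeightOneSpectrum (𝓞 K)) :
    primeTerm K s P ≤ 1 / 2 := by
  have h : (2 : ℝ) ≤ (Ideal.absNorm P.asIdeal : ℝ) := by exact_mod_cast two_le_absNorm K P
  rw [primeTerm, Real.rpow_neg (Nat.cast_nonneg _), one_div]
  exact inv_anti₀ two_pos (h.trans (Real.self_le_rpow_of_one_le (by linarith) hs))

lemma summable_primeTerm {s : ℝ} (hs : 1 < s) : Summable (primeTerm K s) :=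
  (summable_idealTerm K hs).comp_injective (i := primeNZ K) fun _ _ h ↦
    HeightOneSpectrum.ext (congrArg (fun I : (Ideal (𝓞 K))⁰ ↦ (I : Ideal (𝓞 K))) h)

lemma tsum_primeTerm_sq_le {s : ℝ} (hs : 1 < s) :
    Summable (fun P ↦ primeTerm K s P ^ 2) ∧ ∑' P, primeTerm K s P ^ 2 ≤ idealZeta K 2 := by
  have h1 : Summable (primeTerm K 2) := summable_primeTerm one_lt_two
  have hle : ∀ P, primeTerm K s P ^ 2 ≤ primeTerm K 2 P := by
    intro P
    have h : (1 : ℝ) ≤ (Ideal.absNorm P.asIdeal : ℝ) := by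
      exact_mod_cast le_trans (by norm_num) (two_le_absNorm K P)
    rw [primeTerm, primeTerm, ← Real.rpow_natCast, ← Real.rpow_mul (Nat.cast_nonneg _)]
    refine Real.rpow_le_rpow_of_exponent_le h ?_
    push_cast
    linarith
  have h2 := h1.of_nonneg_of_le (fun P ↦ sq_nonneg _) hle
  refine ⟨h2, (h2.tsum_le_tsum hle h1).trans ?_⟩
  exact Summable.tsum_le_tsum_of_inj (primeNZ K) (fun _ _ h ↦
    HeightOneSpectrum.ext (congrArg (fun I : (Ideal (𝓞 K))⁰ ↦ (I : Ideal (𝓞 K))) h))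
    (fun I _ ↦ idealTerm_nonneg _ _ _) (fun P ↦ le_of_eq (idealTerm_primeNZ _ P).symm) h1
    (summable_idealTerm K one_lt_two)

lemma idealZeta_euler_bounds {s : ℝ} (hs : 1 < s) :
    Real.exp (∑' P, primeTerm K s P) ≤ idealZeta K s ∧
      idealZeta K s ≤ Real.exp ((∑' P, primeTerm K s P) + 2 * idealZeta K 2) := by
  have hsum : Summable fun I ↦ ‖idealTermHom (K := K) s I‖ := (summable_idealTerm K hs).norm
  have h := tsum_powProd_bounds (x := fun P ↦ idealTermHom (K := K) s (primeNZ K P))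
    (summable_powProd_monoidHom _ hsum) (fun P ↦ idealTerm_nonneg _ _ _)
  rw [tsum_powProd_monoidHom] at h
  refine ⟨h.1, (h.2 fun P ↦ primeTerm_le_half hs.le P).trans (Real.exp_le_exp.mpr ?_)⟩
  exact add_le_add le_rfl (mul_le_mul_of_nonneg_left (tsum_primeTerm_sq_le hs).2 two_pos.le)

lemma mul_tsum_indicator_le {ι κ : Type*} (S : Set ι) (p : ℕ) (x : ι → ℝ) (y : κ → ℝ)
    (Q : S → Fin p → κ) (hQ : Function.Injective fun a : S × Fin p ↦ Q a.1 a.2)
    (hx : ∀ i, 0 ≤ x i) (hy : ∀ k, 0 ≤ y k) (hxy : ∀ i j, y (Q i j) = x i.1)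
    (hsx : Summable x) (hsy : Summable y) :
    (p : ℝ) * ∑' i, Set.indicator S x i ≤ ∑' k, y k := by
  have hsub : Summable fun i : S ↦ x i.1 := hsx.subtype S
  have hprod : Summable fun a : S × Fin p ↦ x a.1.1 :=
    (summable_prod_of_nonneg (f := fun a : S × Fin p ↦ x a.1.1) (fun a ↦ hx a.1.1)).mpr
      ⟨fun _ ↦ .of_finite, by simpa [tsum_fintype] using hsub.mul_left (p : ℝ)⟩
  have h : (p : ℝ) * ∑' i, Set.indicator S x i = ∑' a : S × Fin p, x a.1.1 := by
    rw [hprod.tsum_prod, ← tsum_subtype, ← tsum_mul_left]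
    exact tsum_congr fun i ↦ by simp [tsum_fintype]
  rw [h]
  exact Summable.tsum_le_tsum_of_inj _ hQ (fun k _ ↦ hy k) (fun a ↦ le_of_eq (hxy _ _).symm)
    hprod hsy

/-- The density criterion. -/
theorem char_eq_one_of_kills_inert {M : Type*} [Field M] [NumberField M] {p : ℕ} (hp : 3 ≤ p)
    (χ : ClassGroup (𝓞 K) →* ℂ) (hχ : ∀ c, ‖χ c‖ = 1) (T : Finset (HeightOneSpectrum (𝓞 K)))
    (Sp : Set (HeightOneSpectrum (𝓞 K))) (Q : Sp → Fin p → HeightOneSpectrum (𝓞 M))
    (hQinj : Function.Injective (fun x : Sp × Fin p ↦ Q x.1 x.2))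
    (hQnorm : ∀ P i, Ideal.absNorm (Q P i).asIdeal = Ideal.absNorm P.1.asIdeal)
    (h : ∀ P, (Ideal.absNorm P.asIdeal).Prime → P ∉ T → P ∈ Sp ∨
      χ (ClassGroup.mk0 (primeNZ K P)) = 1) :
    χ = 1 := by
  by_contra hne
  obtain ⟨BL, hBL⟩ := exists_classLSeries_bound K χ hne
  obtain ⟨cK, CK, hcK, -, hζK⟩ := exists_idealZeta_bounds K
  obtain ⟨cM, CM, -, hCM, hζM⟩ := exists_idealZeta_bounds M
  obtain ⟨B0, hB0⟩ := exists_nonPrimeNorm_bound K
  set D : ℝ := B0 + T.card
  set Z2 := idealZeta K 2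
  have key : ∀ s ∈ Set.Ioc (1 : ℝ) 2, ((p : ℝ) - 2) * (-Real.log (s - 1)) ≤
      (p : ℝ) * (-Real.log cK + D + 2 * Z2) + (p : ℝ) * (Real.log (max BL 1) + D + Z2) +
        2 * Real.log CM := by
    intro s hs
    have hs0 : 0 < s - 1 := by linarith [hs.1]
    have hsum := summable_primeTerm (K := K) hs.1
    let good : Set (HeightOneSpectrum (𝓞 K)) :=
      {P | (Ideal.absNorm P.asIdeal).Prime ∧ P ∉ T}
    set X := primeTerm K s
    set A := ∑' P, Set.indicator (good \ Sp) X P with hA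
    set B := ∑' P, Set.indicator (good ∩ Sp) X P with hB
    set E := ∑' P, Set.indicator goodᶜ X P with hE
    have hsplit : ∀ P, X P = Set.indicator (good \ Sp) X P + Set.indicator (good ∩ Sp) X P +
        Set.indicator goodᶜ X P := fun P ↦ by
      by_cases h1 : P ∈ good <;> by_cases h2 : P ∈ Sp <;> simp [h1, h2]
    have iA := hsum.indicator (good \ Sp)
    have iB := hsum.indicator (good ∩ Sp)
    have iE := hsum.indicator goodᶜ
    have hE' : E ≤ D := by
      refine Real.tsum_le_of_sum_le (fun P ↦ Set.indicator_nonneg (fun P _ ↦ primeTerm_nonneg K s P) _)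
        fun S ↦ ?_
      rw [← Finset.sum_filter_add_sum_filter_not S (fun P ↦ P ∈ T)]
      have e1 : ∑ P ∈ S.filter (fun P ↦ P ∈ T), Set.indicator goodᶜ X P ≤ T.card := by
        refine (Finset.sum_le_sum (g := fun _ ↦ (1 : ℝ)) fun P _ ↦ ?_).trans ?_
        · refine (Set.indicator_le_self' (fun P _ ↦ primeTerm_nonneg K s P) P).trans ?_
          exact (primeTerm_le_half hs.1.le P).trans (by norm_num)
        · rw [Finset.sum_const, nsmul_one]
          exact Nat.cast_le.mpr (Finset.card_le_card fun P hP ↦ (Finset.mem_filter.mp hP).2)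
      have e2 : ∑ P ∈ S.filter (fun P ↦ P ∉ T), Set.indicator goodᶜ X P ≤ B0 := by
        rw [Finset.sum_indicator_eq_sum_filter]
        refine hB0 s hs.1.le _ fun P hP hpr ↦ ?_
        simp only [Finset.mem_filter] at hP
        exact hP.2 ⟨hpr, hP.1.2⟩
      linarith
    have htot : ∑' P, X P = A + B + E := by
      rw [hA, hB, hE, ← iA.tsum_add iB, ← (iA.add iB).tsum_add iE]
      exact tsum_congr hsplit
    have h1 : Real.log cK - Real.log (s - 1) ≤ A + B + E + 2 * Z2 := by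
      rw [← Real.log_div hcK.ne' hs0.ne', Real.log_le_iff_le_exp (div_pos hcK hs0), ← htot]
      exact (hζK s hs).1.trans (idealZeta_euler_bounds hs.1).2
    have h2 : (p : ℝ) * B ≤ Real.log CM - Real.log (s - 1) := by
      rw [← Real.log_div hCM.ne' hs0.ne', Real.le_log_iff_exp_le (div_pos hCM hs0)]
      refine le_trans (Real.exp_le_exp.mpr ?_) ((idealZeta_euler_bounds hs.1).1.trans (hζM s hs).2)
      exact mul_tsum_indicator_le (good ∩ Sp) p (primeTerm K s) (primeTerm M s)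
        (fun P i ↦ Q ⟨P.1, P.2.2⟩ i)
        (fun a b hab ↦ by
          have := hQinj (a₁ := (⟨a.1.1, a.1.2.2⟩, a.2)) (a₂ := (⟨b.1.1, b.1.2.2⟩, b.2)) hab
          simp only [Prod.mk.injEq, Subtype.mk.injEq] at this
          exact Prod.ext (Subtype.ext this.1) this.2)
        (primeTerm_nonneg K s) (primeTerm_nonneg M s)
        (fun P i ↦ by simp only [primeTerm, hQnorm]) hsum (summable_primeTerm hs.1)
    let F : (Ideal (𝓞 K))⁰ →* ℂ :=
      (χ.comp ClassGroup.mk0) * ((Complex.ofRealHom.toMonoidHom).comp (idealTermHom (K := K) s))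
    have hFval : ∀ I, F I = χ (ClassGroup.mk0 I) * (idealTerm K s I : ℂ) := fun I ↦ rfl
    have hFn : ∀ I, ‖F I‖ = idealTerm K s I := fun I ↦ by
      rw [hFval, norm_mul, hχ, one_mul, Complex.norm_real, Real.norm_eq_abs,
        abs_of_nonneg (idealTerm_nonneg _ _ _)]
    have hFs : Summable fun I ↦ ‖F I‖ := by simpa only [hFn] using summable_idealTerm K hs.1
    have h3 : A - B - E - Z2 ≤ Real.log (max BL 1) := by
      rw [Real.le_log_iff_exp_le (lt_of_lt_of_le one_pos (le_max_right _ _))]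
      have hb := (exp_le_norm_tsum_powProd (summable_powProd_monoidHom F hFs)).trans
        (le_of_eq (by rw [tsum_powProd_monoidHom F]))
      refine le_trans (le_trans (Real.exp_le_exp.mpr ?_) hb)
        (le_trans (le_of_eq (congrArg _ (tsum_congr hFval))) ((hBL s hs).trans (le_max_left _ _)))
      refine sub_le_sub ?_ ((tsum_congr fun P ↦ ?_).trans_le (tsum_primeTerm_sq_le hs.1).2)
      · rw [hA, hB, hE, ← iA.tsum_sub iB, ← (iA.sub iB).tsum_sub iE]
        refine ((iA.sub iB).sub iE).tsum_le_tsum (fun P ↦ ?_) ?_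
        · have hre : -X P ≤ (F (primeNZ K P)).re := by
            have := (abs_le.mp (Complex.abs_re_le_norm (F (primeNZ K P)))).1
            rwa [hFn, idealTerm_primeNZ] at this
          by_cases h1 : P ∈ good
          · by_cases h2 : P ∈ Sp
            · simpa [h1, h2] using hre
            · have := (h P h1.1 h1.2).resolve_left h2
              simp [h1, h2, hFval, this, idealTerm_primeNZ, X]
          · simpa [h1] using hre
        · refine Summable.of_norm_bounded hsum fun P ↦ ?_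
          exact (Complex.abs_re_le_norm _).trans_eq (by rw [hFn, idealTerm_primeNZ])
      · rw [hFn, idealTerm_primeNZ]
    have hp0 : (3 : ℝ) ≤ p := by exact_mod_cast hp
    nlinarith
  have hp0 : (3 : ℝ) ≤ p := by exact_mod_cast hp
  set R : ℝ := (p : ℝ) * (-Real.log cK + D + 2 * Z2) + (p : ℝ) * (Real.log (max BL 1) + D + Z2) +
    2 * Real.log CM
  have := key (1 + Real.exp (-(|R| + 1)))
    ⟨by linarith [Real.exp_pos (-(|R| + 1))],
      by linarith [Real.exp_le_one_iff.mpr (show -(|R| + 1) ≤ 0 by linarith [abs_nonneg R])]⟩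
  rw [add_sub_cancel_left, Real.log_exp, neg_neg] at this
  nlinarith [le_abs_self R, abs_nonneg R]

end

end Fermat.Agent.ExtVanishing
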