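import Mathlib.RingTheory.ClassGroup.Basic
import Mathlib.NumberTheory.NumberField.ClassNumber
import Mathlib.LinearAlgebra.Dual.Lemmas
import Mathlib.Algebra.Field.ZMod
import Mathlib.Algebra.Module.ZMod
import Mathlib.LinearAlgebra.Basis.VectorSpace

/-!
# Projection to an eigenspace of a finite abelian group

If `(ℤ/p)ˣ` acts on a finite abelian group and `c` is a nontrivial `p`-torsion eigenvector for
the character `w`, then there is a nontrivial eigen-homomorphism to `ℤ/p` for the same character.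
-/

set_option autoImplicit false
set_option linter.unusedSectionVars false
set_option linter.style.haveILetI false

namespace Fermat.Agent.ExtVanishing

open NumberField
open scoped Pointwise nonZeroDivisors Classical

noncomputable section

section Abstract

variable {C : Type*} [CommGroup C]

/-- A congruence of exponents only changes a power by a `p`-th power. -/
lemma exists_pow_eq_pow_mul_pow {p : ℕ} (x : C) {a b : ℕ} (h : (a : ZMod p) = b) :
    ∃ d : C, x ^ a = x ^ b * d ^ p := by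
  obtain ⟨k, hk⟩ : (p : ℤ) ∣ (a : ℤ) - b := (ZMod.intCast_zmod_eq_zero_iff_dvd _ _).mp (by
    push_cast; rw [h, sub_self])
  refine ⟨x ^ k, ?_⟩
  rw [← zpow_natCast, ← zpow_natCast, ← zpow_natCast (x ^ k), ← zpow_mul, ← zpow_add]
  congr 1
  linarith [mul_comm k (p : ℤ)]

/-- The coordinates of a vector space over `ℤ/p` separate its points. -/
lemma exists_addHom_ne_zero {p : ℕ} [Fact p.Prime] {V : Type*} [AddCommGroup V] [Module (ZMod p) V]
    {x : V} (hx : x ≠ 0) : ∃ φ : V →+ ZMod p, φ x ≠ 0 := by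
  let b := Module.Basis.ofVectorSpace (ZMod p) V
  by_contra h
  refine hx (b.ext_elem fun i ↦ ?_)
  rw [map_zero, Finsupp.zero_apply]
  by_contra hi
  exact h ⟨(b.coord i).toAddMonoidHom, hi⟩

/-- Homomorphisms to `ℤ/p` separate the points of a group of exponent `p`. -/
lemma exists_hom_ne_one_of_exponent {p : ℕ} [hp : Fact p.Prime] {G : Type*} [CommGroup G]
    (hG : ∀ x : G, x ^ p = 1) {x : G} (hx : x ≠ 1) :
    ∃ φ : G →* Multiplicative (ZMod p), φ x ≠ 1 := by
  letI : Module (ZMod p) (Additive G) :=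
    AddCommGroup.zmodModule fun u ↦ congrArg Additive.ofMul (hG (Additive.toMul u))
  have hne : Additive.ofMul x ≠ (0 : Additive G) := fun h0 ↦ hx (congrArg Additive.toMul h0)
  obtain ⟨f, hf⟩ := exists_addHom_ne_zero (p := p) hne
  exact ⟨AddMonoidHom.toMultiplicativeRight f,
    fun h ↦ hf (congrArg Multiplicative.toAdd h)⟩

/-- Homomorphisms to `ℤ/p` detect `p`-th powers. -/
lemma exists_pow_of_forall_hom {p : ℕ} [hp : Fact p.Prime] (y : C)
    (h : ∀ φ : C →* Multiplicative (ZMod p), φ y = 1) : ∃ z, y = z ^ p := by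
  by_contra hy
  set R := (powMonoidHom p : C →* C).range
  have hG : ∀ x : C ⧸ R, x ^ p = 1 := by
    intro x
    obtain ⟨u, rfl⟩ := QuotientGroup.mk_surjective x
    rw [← QuotientGroup.mk_pow, QuotientGroup.eq_one_iff]
    exact ⟨u, rfl⟩
  have hne : (QuotientGroup.mk y : C ⧸ R) ≠ 1 := fun h0 ↦ by
    obtain ⟨z, hz⟩ := (QuotientGroup.eq_one_iff y).mp h0
    exact hy ⟨z, hz.symm⟩
  obtain ⟨φ, hφ⟩ := exists_hom_ne_one_of_exponent hG hne
  exact hφ (h (φ.comp (QuotientGroup.mk' R)))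

/-- The weighted projector to an eigenspace. -/
def eigenProj {p : ℕ} [Fact p.Prime] (act : (ZMod p)ˣ →* Monoid.End C)
    (w : (ZMod p)ˣ →* (ZMod p)ˣ) : C →* C where
  toFun y := ∏ a, act a y ^ (((w a)⁻¹ : (ZMod p)ˣ) : ZMod p).val
  map_one' := Finset.prod_eq_one fun a _ ↦ by rw [map_one, one_pow]
  map_mul' x y := by rw [← Finset.prod_mul_distrib]; simp only [map_mul, mul_pow]

lemma eigenProj_apply {p : ℕ} [Fact p.Prime] (act : (ZMod p)ˣ →* Monoid.End C)
    (w : (ZMod p)ˣ →* (ZMod p)ˣ) (y : C) :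
    eigenProj act w y = ∏ a, act a y ^ (((w a)⁻¹ : (ZMod p)ˣ) : ZMod p).val := rfl

/-- A nontrivial `p`-torsion eigenvector yields a nontrivial eigen-homomorphism. -/
theorem eq_one_of_forall_eigenHom [Finite C] {p : ℕ} [hp : Fact p.Prime] (hp3 : 3 ≤ p)
    (act : (ZMod p)ˣ →* Monoid.End C) (w : (ZMod p)ˣ →* (ZMod p)ˣ)
    (h : ∀ f : C →* Multiplicative (ZMod p),
      (∀ a y, (f (act a y)).toAdd = (w a : ZMod p) * (f y).toAdd) → f = 1)
    {c : C} (hc1 : c ^ p = 1) (hc : ∀ a, act a c = c ^ (w a : ZMod p).val) : c = 1 := by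
  set P := eigenProj act w
  have himg : ∀ y, ∃ z, P y = z ^ p := by
    intro y
    refine exists_pow_of_forall_hom _ fun φ ↦ ?_
    have := h (φ.comp P) fun b x ↦ by
      simp only [MonoidHom.comp_apply, P, eigenProj_apply, map_prod, map_pow, toAdd_prod, toAdd_pow,
        nsmul_eq_mul, ZMod.natCast_zmod_val, Finset.mul_sum]
      refine Fintype.sum_equiv (Equiv.mulRight b) _ _ fun a ↦ ?_
      have hact : act (a * b) x = act a (act b x) := by rw [map_mul]; rfl
      rw [Equiv.coe_mulRight, hact, ← mul_assoc, map_mul w, mul_inv_rev, Units.val_mul,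
        ← mul_assoc, Units.mul_inv, one_mul]
    exact DFunLike.congr_fun this y
  have hPc : ∃ e : ℕ, ¬ p ∣ e ∧ P c = c ^ e := by
    refine ⟨∑ a, (w a : ZMod p).val * (((w a)⁻¹ : (ZMod p)ˣ) : ZMod p).val, ?_, ?_⟩
    · rw [← ZMod.natCast_eq_zero_iff, Nat.cast_sum,
        Finset.sum_congr rfl (g := fun _ ↦ (1 : ZMod p)) (fun a _ ↦ by
          rw [Nat.cast_mul, ZMod.natCast_zmod_val, ZMod.natCast_zmod_val, Units.mul_inv]),
        Finset.sum_const, Finset.card_univ, ZMod.card_units, nsmul_eq_mul, mul_one,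
        ZMod.natCast_eq_zero_iff]
      exact fun hd ↦ by have := Nat.le_of_dvd (by omega) hd; omega
    · simp only [P, eigenProj_apply, hc, ← pow_mul, Finset.prod_pow_eq_pow_sum]
  obtain ⟨e, he, hPc⟩ := hPc
  obtain ⟨e', he'⟩ : ∃ e' : ℕ, (c ^ e) ^ e' = c := by
    refine ⟨((e : ZMod p)⁻¹).val, ?_⟩
    rw [← pow_mul]
    have he0 : (e : ZMod p) ≠ 0 := by rwa [ne_eq, ZMod.natCast_eq_zero_iff]
    conv_rhs => rw [← pow_one c]
    rw [pow_eq_pow_iff_modEq]
    refine Nat.ModEq.of_dvd (orderOf_dvd_of_pow_eq_one hc1) ?_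
    rw [← ZMod.natCast_eq_natCast_iff]
    push_cast
    rw [ZMod.natCast_zmod_val, mul_inv_cancel₀ he0]
  have hdiv : ∀ k : ℕ, ∃ z, c = z ^ p ^ k := by
    intro k
    induction k with
    | zero => exact ⟨c, by rw [pow_zero, pow_one]⟩
    | succ k ih =>
      obtain ⟨z, hz⟩ := ih
      obtain ⟨v, hv⟩ := himg z
      refine ⟨v ^ e', ?_⟩
      conv_lhs => rw [← he', ← hPc, hz, map_pow, hv]
      rw [← pow_mul, ← pow_mul, ← pow_mul]
      congr 1
      ring
  obtain ⟨z, hz⟩ := hdiv (Nat.card C)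
  have h1 : orderOf z ∣ p ^ (Nat.card C + 1) := orderOf_dvd_of_pow_eq_one (by
    rw [pow_succ, pow_mul, ← hz, hc1])
  obtain ⟨j, -, hj⟩ := (Nat.dvd_prime_pow hp.out).mp h1
  have h2 : p ^ j ≤ Nat.card C :=
    Nat.le_of_dvd Nat.card_pos (hj ▸ orderOf_dvd_natCard z)
  have h3 : j ≤ Nat.card C := (j.lt_pow_self hp.out.one_lt).le.trans h2
  rw [hz, orderOf_dvd_iff_pow_eq_one.mp (hj ▸ pow_dvd_pow p h3)]

end Abstract

section ClassGroup

variable {K : Type} [Field K] [NumberField K]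

lemma smul_ideal_mul (σ : K ≃ₐ[ℚ] K) (I J : Ideal (𝓞 K)) : σ • (I * J) = σ • I * σ • J :=
  Ideal.map_mul _ _ _

lemma smul_ideal_span (σ : K ≃ₐ[ℚ] K) (x : 𝓞 K) :
    σ • Ideal.span {x} = Ideal.span {σ • x} := by
  rw [Ideal.pointwise_smul_def, Ideal.map_span, Set.image_singleton]
  rfl

lemma smul_mem_nonZeroDivisors (σ : K ≃ₐ[ℚ] K) (I : (Ideal (𝓞 K))⁰) :
    σ • (I : Ideal (𝓞 K)) ∈ (Ideal (𝓞 K))⁰ := by
  refine mem_nonZeroDivisors_of_ne_zero fun h ↦ nonZeroDivisors.coe_ne_zero I ?_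
  have := congrArg (σ⁻¹ • ·) h
  simpa [Submodule.zero_eq_bot] using this

/-- The action of an automorphism on nonzero ideals. -/
def idealMap (σ : K ≃ₐ[ℚ] K) : (Ideal (𝓞 K))⁰ →* (Ideal (𝓞 K))⁰ where
  toFun I := ⟨σ • (I : Ideal (𝓞 K)), smul_mem_nonZeroDivisors σ I⟩
  map_one' := Subtype.ext (by
    simp only [Submonoid.coe_one, Ideal.one_eq_top, Ideal.pointwise_smul_def, Ideal.map_top])
  map_mul' I J := Subtype.ext (smul_ideal_mul σ _ _)

lemma mk0_idealMap_eq {σ : K ≃ₐ[ℚ] K} {I J : (Ideal (𝓞 K))⁰}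
    (h : ClassGroup.mk0 I = ClassGroup.mk0 J) :
    ClassGroup.mk0 (idealMap σ I) = ClassGroup.mk0 (idealMap σ J) := by
  obtain ⟨x, y, hx, hy, hxy⟩ := ClassGroup.mk0_eq_mk0_iff.mp h
  refine ClassGroup.mk0_eq_mk0_iff.mpr
    ⟨σ • x, σ • y, by rwa [smul_ne_zero_iff_ne], by rwa [smul_ne_zero_iff_ne], ?_⟩
  have := congrArg (σ • ·) hxy
  simp only [smul_ideal_mul, smul_ideal_span] at this
  exact this

/-- The action of an automorphism on the class group. -/
def clMap (σ : K ≃ₐ[ℚ] K) : Monoid.End (ClassGroup (𝓞 K)) where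
  toFun c := ClassGroup.mk0 (idealMap σ (Function.surjInv ClassGroup.mk0_surjective c))
  map_one' := (mk0_idealMap_eq (J := 1)
    (by rw [Function.surjInv_eq ClassGroup.mk0_surjective, map_one])).trans (by simp only [map_one])
  map_mul' a b := (mk0_idealMap_eq (J := Function.surjInv ClassGroup.mk0_surjective a *
    Function.surjInv ClassGroup.mk0_surjective b)
    (by simp only [map_mul, Function.surjInv_eq ClassGroup.mk0_surjective])).trans
      (by simp only [map_mul])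

lemma clMap_mk0 (σ : K ≃ₐ[ℚ] K) (I : (Ideal (𝓞 K))⁰) :
    clMap σ (ClassGroup.mk0 I) = ClassGroup.mk0 (idealMap σ I) :=
  mk0_idealMap_eq (Function.surjInv_eq ClassGroup.mk0_surjective _)

variable (K) in
/-- The action of the Galois group on the class group. -/
def clAct : (K ≃ₐ[ℚ] K) →* Monoid.End (ClassGroup (𝓞 K)) where
  toFun := clMap
  map_one' := MonoidHom.ext fun c ↦ by
    obtain ⟨I, rfl⟩ := ClassGroup.mk0_surjective c
    refine (clMap_mk0 1 I).trans ?_
    exact congrArg ClassGroup.mk0 (Subtype.ext (one_smul _ _))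
  map_mul' σ τ := MonoidHom.ext fun c ↦ by
    obtain ⟨I, rfl⟩ := ClassGroup.mk0_surjective c
    refine (clMap_mk0 _ I).trans ?_
    show _ = clMap σ (clMap τ (ClassGroup.mk0 I))
    rw [clMap_mk0, clMap_mk0]
    exact congrArg ClassGroup.mk0 (Subtype.ext (mul_smul _ _ _))

lemma clAct_mk0 (σ : K ≃ₐ[ℚ] K) (I : (Ideal (𝓞 K))⁰) :
    clAct K σ (ClassGroup.mk0 I) = ClassGroup.mk0 (idealMap σ I) := clMap_mk0 σ I

end ClassGroup

end

end Fermat.Agent.ExtVanishing
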