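import Fermat.Agent.ExtVanishing.LatticeCutoff
import Mathlib.NumberTheory.NumberField.DedekindZeta
import Mathlib.RingTheory.Ideal.Quotient.HasFiniteQuotients

/-!
# Partial zeta functions of ideal classes near `s = 1`

The partial zeta functions of two ideal classes differ by a bounded amount on `(1, 2]`.
Consequently the L-series of a nontrivial class group character is bounded there.
-/

set_option autoImplicit false

namespace Fermat.Agent.ExtVanishing

open NumberField NumberField.mixedEmbedding NumberField.Units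
  NumberField.Units.dirichletUnitTheorem Module Filter
open scoped nonZeroDivisors Classical Topology

noncomputable section

variable (K : Type*) [Field K] [NumberField K]

/-- The ring of integers in the mixed space. -/
def emb : 𝓞 K →+ mixedSpace K :=
  ((mixedEmbedding K).comp (algebraMap (𝓞 K) K)).toAddMonoidHom

omit [NumberField K] in
lemma emb_apply (x : 𝓞 K) : emb K x = mixedEmbedding K (x : K) := rfl

lemma emb_injective : Function.Injective (emb K) :=
  (mixedEmbedding_injective K).comp RingOfIntegers.coe_injective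

lemma norm_emb (x : 𝓞 K) :
    mixedEmbedding.norm (emb K x) = (Ideal.absNorm (Ideal.span {x}) : ℝ) := by
  rw [emb_apply, norm_eq_norm, ← Algebra.coe_norm_int, Rat.cast_abs, Rat.cast_intCast,
    Ideal.absNorm_span_singleton, Nat.cast_natAbs, Int.cast_abs]

/-- An element of `𝓞 K` as a point of the integer lattice. -/
def embLattice (x : 𝓞 K) : mixedEmbedding.integerLattice K :=
  ⟨emb K x, ⟨x, rfl⟩⟩

lemma embLattice_injective : Function.Injective (embLattice K) :=
  fun _ _ h ↦ emb_injective K (congrArg Subtype.val h)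

lemma finrank_integerLattice :
    finrank ℤ (mixedEmbedding.integerLattice K) = finrank ℚ K := by
  rw [ZLattice.rank ℝ, mixedEmbedding.finrank]

lemma summable_emb_pow_inv :
    Summable fun x : 𝓞 K ↦ (‖emb K x‖ ^ (finrank ℚ K + 1))⁻¹ := by
  have := (ZLattice.summable_norm_pow_inv (mixedEmbedding.integerLattice K) (finrank ℚ K + 1)
    (by rw [finrank_integerLattice]; omega)).comp_injective (embLattice_injective K)
  refine this.congr fun x ↦ ?_
  simp [embLattice, inv_pow]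

lemma summable_cutoff {s : ℝ} (hs : 1 < s) :
    Summable fun x : 𝓞 K ↦ cutoff K s (emb K x) := by
  obtain ⟨δ, hδ, h⟩ := exists_cutoff_le K
  have hsum := (ZLattice.summable_norm_rpow (mixedEmbedding.integerLattice K)
    (-((finrank ℚ K : ℝ) * s)) (by
      rw [finrank_integerLattice, neg_lt_neg_iff]
      have : (0 : ℝ) < finrank ℚ K := Nat.cast_pos.mpr finrank_pos
      nlinarith)).comp_injective (embLattice_injective K)
  refine Summable.of_nonneg_of_le (fun _ ↦ cutoff_nonneg _ _) (fun x ↦ ?_)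
    (hsum.mul_left (δ ^ (-s)))
  by_cases hx : emb K x = 0
  · rw [hx, cutoff_of_norm_eq_zero (by linarith) (map_zero _)]
    exact mul_nonneg (Real.rpow_nonneg hδ.le _) (Real.rpow_nonneg (norm_nonneg _) _)
  · simpa [embLattice] using h s (by linarith) _ hx

/-- A summable majorant for translation by `d`, uniform in `s ∈ [1, 2]`. -/
lemma exists_translate_majorant (J : Ideal (𝓞 K)) (d : 𝓞 K) :
    ∃ g : J → ℝ, Summable g ∧ ∀ s ∈ Set.Icc (1 : ℝ) 2, ∀ x : J,
      |cutoff K s (emb K (d + (x : 𝓞 K))) - cutoff K s (emb K (x : 𝓞 K))| ≤ g x := by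
  obtain ⟨C, η, hC, hη, h⟩ := exists_translate_bound K
  set n := finrank ℚ K
  let good : J → Prop := fun x ↦ 1 ≤ ‖emb K (x : 𝓞 K)‖ ∧ ‖emb K d‖ ≤ η * ‖emb K (x : 𝓞 K)‖
  let g : J → ℝ := fun x ↦ if good x then C * ‖emb K d‖ * (‖emb K (x : 𝓞 K)‖ ^ (n + 1))⁻¹
    else 2 + mixedEmbedding.norm (emb K (d + (x : 𝓞 K))) ^ (-(2 : ℝ)) +
      mixedEmbedding.norm (emb K (x : 𝓞 K)) ^ (-(2 : ℝ))
  have hsum : Summable (fun x : J ↦ (‖emb K (x : 𝓞 K)‖ ^ (n + 1))⁻¹) :=
    (summable_emb_pow_inv K).comp_injective Subtype.val_injective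
  have hfin : {x : J | ¬ good x}.Finite := by
    set R := max 1 (‖emb K d‖ / η) with hR
    have hR0 : 0 < R := lt_of_lt_of_le one_pos (le_max_left _ _)
    have hev := hsum.tendsto_cofinite_zero.eventually
      (gt_mem_nhds (show (0 : ℝ) < (R ^ (n + 1))⁻¹ by positivity))
    rw [eventually_cofinite] at hev
    refine (hev.union (Set.finite_singleton 0)).subset fun x hx ↦ ?_
    by_cases hx0 : x = 0
    · exact Or.inr hx0
    refine Or.inl ?_
    show ¬ _ < _
    rw [not_lt]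
    have hpos : 0 < ‖emb K (x : 𝓞 K)‖ := norm_pos_iff.mpr fun h0 ↦
      hx0 (Subtype.ext (emb_injective K (h0.trans (map_zero _).symm)))
    have hlt : ‖emb K (x : 𝓞 K)‖ < R := by
      by_contra hge
      rw [not_lt] at hge
      refine hx ⟨(le_max_left _ _).trans hge, ?_⟩
      have := (le_max_right _ _).trans hge
      rw [div_le_iff₀ hη] at this
      linarith
    gcongr
  have hg : Summable g := by
    refine (hsum.mul_left (C * ‖emb K d‖)).congr_cofinite ?_
    rw [EventuallyEq, eventually_cofinite]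
    refine hfin.subset fun x hx hgood ↦ hx ?_
    simp [g, hgood]
  refine ⟨g, hg, fun s hs x ↦ ?_⟩
  simp only [g]
  split_ifs with hgood
  · rw [map_add, add_comm (emb K d)]
    exact h s hs _ _ hgood.1 hgood.2
  · have e1 := cutoff_le_one_add hs (emb K (d + (x : 𝓞 K)))
    have e2 := cutoff_le_one_add hs (emb K (x : 𝓞 K))
    have e3 := cutoff_nonneg s (emb K (d + (x : 𝓞 K)))
    have e4 := cutoff_nonneg s (emb K (x : 𝓞 K))
    rw [abs_le]; constructor <;> linarith

/-- For fixed `x`, the cut-off function is continuous in `s` on the positive reals. -/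
lemma continuousOn_cutoff (x : mixedSpace K) :
    ContinuousOn (fun s : ℝ ↦ cutoff K s x) (Set.Ioi 0) := by
  by_cases hx : mixedEmbedding.norm x = 0
  · exact (continuousOn_const (c := (0 : ℝ))).congr fun s hs ↦ cutoff_of_norm_eq_zero hs hx
  · exact (continuous_const.mul ((Real.continuous_const_rpow hx).comp continuous_neg)).continuousOn

/-- Translating a lattice changes the sum of the cut-off function by a bounded amount. -/
lemma exists_sum_translate_le (J : Ideal (𝓞 K)) (d : 𝓞 K) :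
    ∃ B, ∀ s ∈ Set.Ioc (1 : ℝ) 2,
      |(∑' x : J, cutoff K s (emb K (d + (x : 𝓞 K)))) - ∑' x : J, cutoff K s (emb K (x : 𝓞 K))|
        ≤ B := by
  obtain ⟨g, hg, hb⟩ := exists_translate_majorant K J d
  refine ⟨∑' x, g x, fun s hs ↦ ?_⟩
  have h1 : Summable fun x : J ↦ cutoff K s (emb K (d + (x : 𝓞 K))) :=
    (summable_cutoff K hs.1).comp_injective
      (fun a b hab ↦ Subtype.ext (add_left_cancel hab))
  have h2 : Summable fun x : J ↦ cutoff K s (emb K (x : 𝓞 K)) :=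
    (summable_cutoff K hs.1).comp_injective Subtype.val_injective
  rw [← h1.tsum_sub h2, ← Real.norm_eq_abs]
  exact tsum_of_norm_bounded hg.hasSum fun x ↦ hb s ⟨hs.1.le, hs.2⟩ x

/-- The sum of the cut-off function over an ideal. -/
def idealLatticeSum (J : Ideal (𝓞 K)) (s : ℝ) : ℝ := ∑' x : J, cutoff K s (emb K (x : 𝓞 K))

lemma exists_abs_sum_top_sub_le (J : Ideal (𝓞 K)) (hJ : J ≠ ⊥) :
    ∃ B, ∀ s ∈ Set.Ioc (1 : ℝ) 2,
      |(∑' x : 𝓞 K, cutoff K s (emb K x)) - Ideal.absNorm J * idealLatticeSum K J s| ≤ B := by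
  have : Finite (𝓞 K ⧸ J) := Ring.HasFiniteQuotients.finiteQuotient hJ
  have := Fintype.ofFinite (𝓞 K ⧸ J)
  let out : 𝓞 K ⧸ J → 𝓞 K := fun q ↦ Quotient.out q
  have hout : ∀ q, Ideal.Quotient.mk J (out q) = q := fun q ↦ Quotient.out_eq q
  let e : (𝓞 K ⧸ J) × J → 𝓞 K := fun p ↦ out p.1 + (p.2 : 𝓞 K)
  have hmk : ∀ p, Ideal.Quotient.mk J (e p) = p.1 := fun p ↦ by
    simp [e, map_add, hout, Ideal.Quotient.eq_zero_iff_mem.mpr p.2.2]
  have he : Function.Bijective e := by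
    refine ⟨fun a b hab ↦ ?_, fun x ↦ ?_⟩
    · have h1 : a.1 = b.1 := by rw [← hmk a, ← hmk b, hab]
      refine Prod.ext h1 (Subtype.ext ?_)
      simp only [e, h1] at hab
      exact add_left_cancel hab
    · refine ⟨(Ideal.Quotient.mk J x, ⟨x - out (Ideal.Quotient.mk J x), ?_⟩), by simp [e]⟩
      rw [← Ideal.Quotient.mk_eq_mk_iff_sub_mem]
      exact (hout _).symm
  choose B hB using fun q : 𝓞 K ⧸ J ↦ exists_sum_translate_le K J (out q)
  refine ⟨∑ q, B q, fun s hs ↦ ?_⟩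
  have hsum : Summable fun p : (𝓞 K ⧸ J) × J ↦ cutoff K s (emb K (e p)) :=
    (summable_cutoff K hs.1).comp_injective he.1
  rw [← (Equiv.ofBijective e he).tsum_eq]
  simp only [Equiv.ofBijective_apply]
  rw [hsum.tsum_prod, tsum_fintype, Ideal.absNorm_apply, Submodule.cardQuot_apply,
    Nat.card_eq_fintype_card, ← Finset.card_univ, ← nsmul_eq_mul, ← Finset.sum_const,
    ← Finset.sum_sub_distrib]
  exact (Finset.abs_sum_le_sum_abs _ _).trans (Finset.sum_le_sum fun q _ ↦ hB q s hs)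

/-- The ideals in a class. -/
abbrev ClassIdeals (c : ClassGroup (𝓞 K)) : Type _ :=
  {I : (Ideal (𝓞 K))⁰ // ClassGroup.mk0 I = c}

/-- The term of the Dedekind zeta function. -/
def idealTerm (s : ℝ) (I : (Ideal (𝓞 K))⁰) : ℝ :=
  (Ideal.absNorm (I : Ideal (𝓞 K)) : ℝ) ^ (-s)

lemma idealTerm_nonneg (s : ℝ) (I : (Ideal (𝓞 K))⁰) : 0 ≤ idealTerm K s I :=
  Real.rpow_nonneg (Nat.cast_nonneg _) _

/-- The partial zeta function of a class. -/
def classZeta (c : ClassGroup (𝓞 K)) (s : ℝ) : ℝ := ∑' I : ClassIdeals K c, idealTerm K s I.1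

lemma exists_generator_param {c : ClassGroup (𝓞 K)} {J : (Ideal (𝓞 K))⁰}
    (hJ : ClassGroup.mk0 J = c⁻¹) :
    ∃ (g : ClassIdeals K c → 𝓞 K)
      (Ψ : ClassIdeals K c × (𝓞 K)ˣ ≃ {x : (J : Ideal (𝓞 K)) // x ≠ 0}),
      (∀ I, g I ≠ 0) ∧ (∀ p, ((Ψ p).1 : 𝓞 K) = (p.2 : 𝓞 K) * g p.1) ∧
      ∀ p, Ideal.span {((Ψ p).1 : 𝓞 K)} = (p.1.1 : Ideal (𝓞 K)) * J := by
  have hprin : ∀ I : ClassIdeals K c, ∃ g : 𝓞 K, g ≠ 0 ∧
      ((I.1 : Ideal (𝓞 K)) * (J : Ideal (𝓞 K))) = Ideal.span {g} := by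
    intro I
    have h1 : ClassGroup.mk0 (I.1 * J) = 1 := by rw [map_mul, I.2, hJ, mul_inv_cancel]
    obtain ⟨g, hg⟩ := ((ClassGroup.mk0_eq_one_iff (SetLike.coe_mem (I.1 * J))).mp h1).principal
    refine ⟨g, fun h0 ↦ nonZeroDivisors.coe_ne_zero (I.1 * J) ?_, ?_⟩
    · rw [hg, h0, Submodule.span_zero_singleton]; rfl
    · exact hg
  let g : ClassIdeals K c → 𝓞 K := fun I ↦ (hprin I).choose
  have hg0 : ∀ I, g I ≠ 0 := fun I ↦ (hprin I).choose_spec.1
  have hgI : ∀ I : ClassIdeals K c,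
      (I.1 : Ideal (𝓞 K)) * (J : Ideal (𝓞 K)) = Ideal.span {g I} := fun I ↦ (hprin I).choose_spec.2
  clear_value g
  have hgJ : ∀ I, g I ∈ (J : Ideal (𝓞 K)) := fun I ↦ by
    have h := Ideal.mem_span_singleton_self (g I)
    rw [← hgI I] at h
    have hle : (I.1 : Ideal (𝓞 K)) * (J : Ideal (𝓞 K)) ≤ (J : Ideal (𝓞 K)) := Ideal.mul_le_right
    exact SetLike.le_def.mp hle h
  let Ψ : ClassIdeals K c × (𝓞 K)ˣ → {x : (J : Ideal (𝓞 K)) // x ≠ 0} := fun p ↦
    ⟨⟨(p.2 : 𝓞 K) * g p.1, Ideal.mul_mem_left _ _ (hgJ p.1)⟩,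
      fun h ↦ mul_ne_zero p.2.ne_zero (hg0 p.1) (congrArg Subtype.val h)⟩
  have hspan : ∀ p, Ideal.span {((Ψ p).1 : 𝓞 K)} = (p.1.1 : Ideal (𝓞 K)) * J := fun p ↦ by
    rw [hgI, Ideal.span_singleton_mul_left_unit p.2.isUnit]
  have hΨ : Function.Bijective Ψ := by
    refine ⟨fun a b hab ↦ ?_, fun x ↦ ?_⟩
    · have h1 : a.1 = b.1 := by
        have := hspan a
        rw [hab, hspan b] at this
        exact Subtype.ext (Subtype.ext
          (mul_right_cancel₀ (nonZeroDivisors.coe_ne_zero J) this.symm))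
      have h2 := congrArg (fun y : {x : (J : Ideal (𝓞 K)) // x ≠ 0} ↦ ((y.1 : 𝓞 K))) hab
      simp only [Ψ, h1] at h2
      exact Prod.ext h1 (Units.ext (mul_right_cancel₀ (hg0 b.1) h2))
    · have hx0 : ((x.1 : 𝓞 K)) ≠ 0 := fun h ↦ x.2 (Subtype.ext h)
      obtain ⟨I, hI⟩ : (J : Ideal (𝓞 K)) ∣ Ideal.span {(x.1 : 𝓞 K)} :=
        Ideal.dvd_span_singleton.mpr x.1.2
      have hI0 : I ≠ 0 := fun h ↦ hx0 (by simpa [h] using hI)
      let I' : (Ideal (𝓞 K))⁰ := ⟨I, mem_nonZeroDivisors_of_ne_zero hI0⟩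
      have hmk : ClassGroup.mk0 I' = c := by
        have h1 : ClassGroup.mk0 (J * I') = 1 :=
          (ClassGroup.mk0_eq_one_iff (SetLike.coe_mem (J * I'))).mpr ⟨⟨x.1, hI.symm⟩⟩
        rw [map_mul, hJ, inv_mul_eq_one] at h1
        exact h1.symm
      have h2 : Ideal.span {g ⟨I', hmk⟩} = Ideal.span {(x.1 : 𝓞 K)} := by
        rw [← hgI, hI, mul_comm]
      obtain ⟨u, hu⟩ := Ideal.span_singleton_eq_span_singleton.mp h2
      exact ⟨(⟨I', hmk⟩, u), Subtype.ext (Subtype.ext (by simpa [Ψ, mul_comm] using hu))⟩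
  exact ⟨g, Equiv.ofBijective Ψ hΨ, hg0, fun _ ↦ rfl, hspan⟩

/-- The cut-off function at the generators attached to an ideal and a unit. -/
lemma cutoff_generator_eq {c : ClassGroup (𝓞 K)} {J : (Ideal (𝓞 K))⁰}
    {g : ClassIdeals K c → 𝓞 K}
    (Ψ : ClassIdeals K c × (𝓞 K)ˣ ≃ {x : (J : Ideal (𝓞 K)) // x ≠ 0})
    (hg0 : ∀ I, g I ≠ 0) (hΨg : ∀ p, ((Ψ p).1 : 𝓞 K) = (p.2 : 𝓞 K) * g p.1)
    (hspan : ∀ p, Ideal.span {((Ψ p).1 : 𝓞 K)} = (p.1.1 : Ideal (𝓞 K)) * J)
    (s : ℝ) (p : ClassIdeals K c × (𝓞 K)ˣ) :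
    cutoff K s (emb K ((Ψ p).1 : 𝓞 K)) = phi K (logEmbedding K (Additive.ofMul p.2) +
      logMap (emb K (g p.1))) *
        (idealTerm K s p.1.1 * (Ideal.absNorm (J : Ideal (𝓞 K)) : ℝ) ^ (-s)) := by
  rw [cutoff]
  have hg' : mixedEmbedding.norm (emb K (g p.1)) ≠ 0 := by
    rw [norm_emb, Nat.cast_ne_zero, ne_eq, Ideal.absNorm_eq_zero_iff]
    simpa using hg0 p.1
  congr 1
  · rw [← logMap_unit_smul p.2 hg']
    congr 2
    simp [hΨg, emb_apply, unitSMul_smul]
  · rw [norm_emb, hspan, map_mul, Nat.cast_mul,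
      Real.mul_rpow (Nat.cast_nonneg _) (Nat.cast_nonneg _)]
    rfl

lemma classZeta_identity {c : ClassGroup (𝓞 K)} {J : (Ideal (𝓞 K))⁰}
    (hJ : ClassGroup.mk0 J = c⁻¹) {s : ℝ} (hs : 1 < s) :
    Summable (fun I : ClassIdeals K c ↦ idealTerm K s I.1) ∧
      idealLatticeSum K J s =
        (torsionOrder K : ℝ) * (Ideal.absNorm (J : Ideal (𝓞 K)) : ℝ) ^ (-s) * classZeta K c s := by
  obtain ⟨g, Ψ, hg0, hΨg, hspan⟩ := exists_generator_param K hJ
  set A := (Ideal.absNorm (J : Ideal (𝓞 K)) : ℝ) ^ (-s)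
  have hA : 0 < A := Real.rpow_pos_of_pos
    (Nat.cast_pos.mpr (Ideal.absNorm_pos_of_nonZeroDivisors J)) _
  let f : J.1 → ℝ := fun x ↦ cutoff K s (emb K (x : 𝓞 K))
  have hf : Summable f := (summable_cutoff K hs).comp_injective Subtype.val_injective
  have hval : ∀ p, f (Ψ p).1 = phi K (logEmbedding K (Additive.ofMul p.2) +
      logMap (emb K (g p.1))) * (idealTerm K s p.1.1 * A) :=
    cutoff_generator_eq K Ψ hg0 hΨg hspan s
  have hs1 : Summable fun p ↦ f (Ψ p).1 :=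
    hf.comp_injective (Subtype.val_injective.comp Ψ.injective)
  have hfib : ∀ I, ∑' u, f (Ψ (I, u)).1 = (torsionOrder K : ℝ) * (idealTerm K s I.1 * A) :=
    fun I ↦ by
      simp only [hval]
      rw [tsum_mul_right, (hasSum_phi_units K _).tsum_eq]
  have hsummable : Summable fun I : ClassIdeals K c ↦ idealTerm K s I.1 := by
    have := ((summable_prod_of_nonneg (fun p ↦ cutoff_nonneg _ _)).mp hs1).2
    replace this := (summable_congr hfib).mp this
    rw [summable_mul_left_iff (Nat.cast_ne_zero.mpr (torsionOrder_ne_zero K)),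
      summable_mul_right_iff hA.ne'] at this
    exact this
  refine ⟨hsummable, ?_⟩
  have hsupp : Function.support f ⊆ {x : J.1 | x ≠ 0} := by
    intro x hx h0
    apply hx
    simp only [f, h0, ZeroMemClass.coe_zero, map_zero]
    exact cutoff_of_norm_eq_zero (by linarith) (map_zero _)
  change ∑' x, f x = _
  rw [← tsum_subtype_eq_of_support_subset hsupp]
  change ∑' x : {x : J.1 // x ≠ 0}, f x.1 = _
  rw [← Ψ.tsum_eq]
  change ∑' p, f (Ψ p).1 = _
  rw [hs1.tsum_prod, tsum_congr hfib, tsum_mul_left, tsum_mul_right, classZeta]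
  ring

/-- The class-sum identity with a bounded weight depending only on the ideal. -/
lemma weighted_classZeta_identity {c : ClassGroup (𝓞 K)} {J : (Ideal (𝓞 K))⁰}
    (hJ : ClassGroup.mk0 J = c⁻¹) {s : ℝ} (hs : 1 < s) (W : Ideal (𝓞 K) → ℂ) {B : ℝ}
    (hW : ∀ I, ‖W I‖ ≤ B) :
    Summable (fun x : (J : Ideal (𝓞 K)) ↦
      W (Ideal.span {(x : 𝓞 K)}) * (cutoff K s (emb K (x : 𝓞 K)) : ℂ)) ∧
    ∑' x : (J : Ideal (𝓞 K)), W (Ideal.span {(x : 𝓞 K)}) * (cutoff K s (emb K (x : 𝓞 K)) : ℂ) =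
      (torsionOrder K : ℂ) * (((Ideal.absNorm (J : Ideal (𝓞 K)) : ℝ) ^ (-s) : ℝ) : ℂ) *
        ∑' I : ClassIdeals K c,
          W ((I.1 : Ideal (𝓞 K)) * J) * (idealTerm K s I.1 : ℂ) := by
  obtain ⟨g, Ψ, hg0, hΨg, hspan⟩ := exists_generator_param K hJ
  set A := (Ideal.absNorm (J : Ideal (𝓞 K)) : ℝ) ^ (-s)
  let F : J.1 → ℂ := fun x ↦
    W (Ideal.span {(x : 𝓞 K)}) * (cutoff K s (emb K (x : 𝓞 K)) : ℂ)
  have hF : Summable F := by
    refine Summable.of_norm_bounded
      (((summable_cutoff K hs).comp_injective Subtype.val_injective).mul_left B) fun x ↦ ?_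
    simp only [F, norm_mul, Complex.norm_real, Real.norm_eq_abs, abs_of_nonneg (cutoff_nonneg _ _)]
    exact mul_le_mul_of_nonneg_right (hW _) (cutoff_nonneg _ _)
  refine ⟨hF, ?_⟩
  have hs1 : Summable fun p ↦ F (Ψ p).1 :=
    hF.comp_injective (Subtype.val_injective.comp Ψ.injective)
  have hsupp : Function.support F ⊆ {x : J.1 | x ≠ 0} := by
    intro x hx h0
    apply hx
    simp only [F, h0, ZeroMemClass.coe_zero, map_zero,
      cutoff_of_norm_eq_zero (K := K) (s := s) (by linarith) (map_zero _), Complex.ofReal_zero,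
      mul_zero]
  change ∑' x, F x = _
  rw [← tsum_subtype_eq_of_support_subset hsupp]
  change ∑' x : {x : J.1 // x ≠ 0}, F x.1 = _
  rw [← Ψ.tsum_eq]
  change ∑' p, F (Ψ p).1 = _
  rw [hs1.tsum_prod, ← tsum_mul_left]
  refine tsum_congr fun I ↦ ?_
  simp only [F, hspan, cutoff_generator_eq K Ψ hg0 hΨg hspan s, Complex.ofReal_mul]
  rw [tsum_mul_left, tsum_mul_right, ← Complex.ofReal_tsum, (hasSum_phi_units K _).tsum_eq,
    Complex.ofReal_natCast]
  ring

lemma classZeta_nonneg (c : ClassGroup (𝓞 K)) (s : ℝ) : 0 ≤ classZeta K c s :=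
  tsum_nonneg fun _ ↦ idealTerm_nonneg _ _ _

lemma summable_classIdeals {s : ℝ} (hs : 1 < s) (c : ClassGroup (𝓞 K)) :
    Summable (fun I : ClassIdeals K c ↦ idealTerm K s I.1) := by
  obtain ⟨J, hJ⟩ := ClassGroup.mk0_surjective c⁻¹
  exact (classZeta_identity K hJ hs).1

lemma summable_idealTerm {s : ℝ} (hs : 1 < s) : Summable (idealTerm K s) := by
  rw [← (Equiv.sigmaFiberEquiv (ClassGroup.mk0 (R := 𝓞 K))).summable_iff]
  refine (summable_sigma_of_nonneg fun _ ↦ idealTerm_nonneg _ _ _).mpr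
    ⟨fun c ↦ summable_classIdeals K hs c, .of_finite⟩

/-- The Dedekind zeta function as a sum over ideals. -/
def idealZeta (s : ℝ) : ℝ := ∑' I, idealTerm K s I

lemma idealZeta_eq_sum {s : ℝ} (hs : 1 < s) : idealZeta K s = ∑ c, classZeta K c s := by
  rw [idealZeta, ← (Equiv.sigmaFiberEquiv (ClassGroup.mk0 (R := 𝓞 K))).tsum_eq,
    Summable.tsum_sigma (by
      exact ((Equiv.sigmaFiberEquiv (ClassGroup.mk0 (R := 𝓞 K))).summable_iff).mpr
        (summable_idealTerm K hs)), tsum_fintype]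
  rfl

lemma dedekindZeta_eq_idealZeta {s : ℝ} (hs : 1 < s) :
    dedekindZeta K (s : ℂ) = (idealZeta K s : ℂ) := by
  let N : (Ideal (𝓞 K))⁰ → ℕ := fun I ↦ Ideal.absNorm (I : Ideal (𝓞 K))
  have hsum : Summable ((idealTerm K s) ∘ (Equiv.sigmaFiberEquiv N)) :=
    (Equiv.sigmaFiberEquiv N).summable_iff.mpr (summable_idealTerm K hs)
  rw [idealZeta, ← (Equiv.sigmaFiberEquiv N).tsum_eq]
  change dedekindZeta K (s : ℂ) = ((∑' p, (idealTerm K s ∘ Equiv.sigmaFiberEquiv N) p : ℝ) : ℂ)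
  rw [Summable.tsum_sigma hsum, Complex.ofReal_tsum, dedekindZeta, LSeries]
  refine tsum_congr fun n ↦ ?_
  rw [LSeries.term_def]
  rcases eq_or_ne n 0 with rfl | hn
  · simp only [↓reduceIte]
    have : IsEmpty {I : (Ideal (𝓞 K))⁰ // N I = 0} :=
      ⟨fun I ↦ Ideal.absNorm_ne_zero_of_nonZeroDivisors I.1 I.2⟩
    simp
  · rw [if_neg hn]
    have hfin : Finite {I : Ideal (𝓞 K) // Ideal.absNorm I = n} :=
      (Ideal.finite_setOfPred_absNorm_eq n).to_subtype
    let e : {I : (Ideal (𝓞 K))⁰ // N I = n} ≃ {I : Ideal (𝓞 K) // Ideal.absNorm I = n} :=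
      { toFun := fun I ↦ ⟨I.1, I.2⟩
        invFun := fun I ↦ ⟨⟨I.1, mem_nonZeroDivisors_of_ne_zero fun h ↦ hn (by
          rw [← I.2, h, Ideal.absNorm_eq_zero_iff, Ideal.zero_eq_bot])⟩, I.2⟩
        left_inv := fun I ↦ rfl
        right_inv := fun I ↦ rfl }
    rw [← Nat.card_congr e]
    have : ∀ I : {I : (Ideal (𝓞 K))⁰ // N I = n},
        idealTerm K s (Equiv.sigmaFiberEquiv N ⟨n, I⟩) = (n : ℝ) ^ (-s) := fun I ↦ by
      show (N I.1 : ℝ) ^ (-s) = _
      rw [I.2]
    simp only [Function.comp_apply]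
    rw [tsum_congr this, tsum_const, nsmul_eq_mul, Complex.ofReal_mul, Complex.ofReal_natCast,
      Complex.ofReal_cpow (Nat.cast_nonneg _), Complex.ofReal_natCast, Complex.ofReal_neg,
      Complex.cpow_neg, div_eq_mul_inv]

lemma one_le_idealZeta {s : ℝ} (hs : 1 < s) : 1 ≤ idealZeta K s := by
  have := (summable_idealTerm K hs).le_tsum 1 fun I _ ↦ idealTerm_nonneg _ _ _
  simpa [idealTerm, idealZeta] using this

lemma idealZeta_antitone {s t : ℝ} (hs : 1 < s) (hst : s ≤ t) :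
    idealZeta K t ≤ idealZeta K s :=
  Summable.tsum_le_tsum (fun I ↦ Real.rpow_le_rpow_of_exponent_le
    (by exact_mod_cast Ideal.absNorm_pos_of_nonZeroDivisors I) (by linarith))
    (summable_idealTerm K (hs.trans_le hst)) (summable_idealTerm K hs)

/-- The Dedekind zeta function has a simple pole at `1`. -/
theorem exists_idealZeta_bounds :
    ∃ c C, 0 < c ∧ 0 < C ∧ ∀ s ∈ Set.Ioc (1 : ℝ) 2,
      c / (s - 1) ≤ idealZeta K s ∧ idealZeta K s ≤ C / (s - 1) := by
  set κ := dedekindZeta_residue K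
  have hκ : 0 < κ := dedekindZeta_residue_pos K
  have h : Tendsto (fun s : ℝ ↦ (s - 1) * idealZeta K s) (𝓝[>] 1) (𝓝 κ) := by
    have h1 := (Complex.continuous_re.tendsto _).comp (tendsto_sub_one_mul_dedekindZeta_nhdsGT K)
    refine h1.congr' ?_
    filter_upwards [self_mem_nhdsWithin] with s (hs : 1 < s)
    simp [dedekindZeta_eq_idealZeta K hs, ← Complex.ofReal_one, ← Complex.ofReal_sub]
  have hev := h.eventually (Ioo_mem_nhds (show κ / 2 < κ by linarith) (show κ < 2 * κ by linarith))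
  rw [eventually_nhdsWithin_iff, Metric.eventually_nhds_iff] at hev
  obtain ⟨ε, hε, hb⟩ := hev
  set t := 1 + min (ε / 2) 1 with ht
  have ht1 : 1 < t := by
    have : 0 < min (ε / 2) 1 := lt_min (by linarith) one_pos
    linarith
  refine ⟨min (κ / 2) (min (ε / 2) 1), max (2 * κ) (idealZeta K t),
    lt_min (by linarith) (lt_min (by linarith) one_pos),
    lt_of_lt_of_le (by linarith) (le_max_left _ _), fun s hs ↦ ?_⟩
  have hs0 : 0 < s - 1 := by linarith [hs.1]
  rw [div_le_iff₀ hs0, le_div_iff₀ hs0]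
  by_cases hst : s ≤ t
  · have hd : dist s 1 < ε := by
      rw [Real.dist_eq, abs_of_pos hs0]
      have := min_le_left (ε / 2) 1
      simp only [t] at hst
      linarith
    obtain ⟨h1, h2⟩ := hb hd hs.1
    rw [mul_comm (idealZeta K s)]
    exact ⟨(min_le_left _ _).trans h1.le, h2.le.trans (le_max_left _ _)⟩
  · rw [not_le] at hst
    have h1 := one_le_idealZeta K hs.1
    have h2 := idealZeta_antitone K ht1 hst.le
    have h3 : min (κ / 2) (min (ε / 2) 1) ≤ s - 1 :=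
      (min_le_right _ _).trans (by simp only [t] at hst; linarith)
    refine ⟨h3.trans (le_mul_of_one_le_left hs0.le h1), ?_⟩
    calc idealZeta K s * (s - 1) ≤ idealZeta K s * 1 :=
          mul_le_mul_of_nonneg_left (by linarith [hs.2]) (by linarith)
      _ ≤ _ := by rw [mul_one]; exact h2.trans (le_max_right _ _)

/-- Two partial zeta functions differ by a bounded amount near `1`. -/
theorem exists_abs_classZeta_sub_le (c : ClassGroup (𝓞 K)) :
    ∃ B, ∀ s ∈ Set.Ioc (1 : ℝ) 2, |classZeta K c s - classZeta K 1 s| ≤ B := by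
  obtain ⟨J, hJ⟩ := ClassGroup.mk0_surjective c⁻¹
  obtain ⟨B, hB⟩ := exists_abs_sum_top_sub_le K J (nonZeroDivisors.coe_ne_zero J)
  obtain ⟨_, C, -, hC, hζ⟩ := exists_idealZeta_bounds K
  set m : ℝ := (Ideal.absNorm (J : Ideal (𝓞 K)) : ℝ)
  have hm : 1 ≤ m := Nat.one_le_cast.mpr (Ideal.absNorm_pos_of_nonZeroDivisors J)
  have hw : (0 : ℝ) < torsionOrder K := Nat.cast_pos.mpr (torsionOrder_pos K)
  refine ⟨m * (B / torsionOrder K) + Real.log m * m * C, fun s hs ↦ ?_⟩
  have h1 := (classZeta_identity K hJ hs.1).2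
  have h0 : ClassGroup.mk0 (1 : (Ideal (𝓞 K))⁰) = (1 : ClassGroup (𝓞 K))⁻¹ := by simp
  have h2 := (classZeta_identity K h0 hs.1).2
  rw [OneMemClass.coe_one, map_one, Nat.cast_one, Real.one_rpow, mul_one] at h2
  have h3 : (∑' x : 𝓞 K, cutoff K s (emb K x)) = idealLatticeSum K 1 s := by
    have hmem : ∀ x : 𝓞 K, x ∈ (1 : Ideal (𝓞 K)) := fun x ↦ by simp
    exact ((Equiv.subtypeUnivEquiv hmem).tsum_eq fun x ↦ cutoff K s (emb K x)).symm
  have hb := hB s hs
  rw [h3, h2, h1] at hb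
  set Z := classZeta K c s
  set Z₁ := classZeta K 1 s
  have hw' : |Z₁ - m * m ^ (-s) * Z| ≤ B / torsionOrder K := by
    rw [le_div_iff₀ hw, ← abs_of_pos hw, ← abs_mul]
    refine le_trans (le_of_eq ?_) hb
    simp only [m]
    ring_nf
  set r := m ^ (s - 1)
  have hr : r * (m * m ^ (-s)) = 1 := by
    rw [← Real.rpow_one_add' (by linarith) (by linarith [hs.1]), ← Real.rpow_add (by linarith),
      show s - 1 + (1 + -s) = 0 by ring, Real.rpow_zero]
  have hr1 : 1 ≤ r := Real.one_le_rpow hm (by linarith [hs.1])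
  have hrm : r ≤ m := by
    conv_rhs => rw [← Real.rpow_one m]
    exact Real.rpow_le_rpow_of_exponent_le hm (by linarith [hs.2])
  have hrl : r - 1 ≤ (s - 1) * Real.log m * m := by
    have hE : r = Real.exp ((s - 1) * Real.log m) := by
      simp only [r]
      rw [Real.rpow_def_of_pos (by linarith), mul_comm]
    have key := Real.add_one_le_exp (-((s - 1) * Real.log m))
    have hl : 0 ≤ (s - 1) * Real.log m := mul_nonneg (by linarith [hs.1]) (Real.log_nonneg hm)
    rw [Real.exp_neg, ← hE] at key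
    have h4 : (1 - (s - 1) * Real.log m) * r ≤ 1 := by
      calc _ ≤ r⁻¹ * r := mul_le_mul_of_nonneg_right (by linarith) (by linarith)
        _ = 1 := inv_mul_cancel₀ (by linarith)
    nlinarith
  have hZ1 : Z₁ ≤ C / (s - 1) := by
    refine le_trans ?_ (hζ s hs).2
    rw [idealZeta_eq_sum K hs.1]
    exact Finset.single_le_sum (fun c _ ↦ classZeta_nonneg K c s) (Finset.mem_univ 1)
  have hs0 : 0 < s - 1 := by linarith [hs.1]
  calc |Z - Z₁| = |r * (m * m ^ (-s) * Z - Z₁) + (r - 1) * Z₁| := by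
        congr 1
        linear_combination (-Z) * hr
    _ ≤ r * |Z₁ - m * m ^ (-s) * Z| + (r - 1) * Z₁ := by
        refine (abs_add_le _ _).trans (le_of_eq ?_)
        rw [abs_mul, abs_mul, abs_of_nonneg (by linarith : (0:ℝ) ≤ r), abs_sub_comm,
          abs_of_nonneg (by linarith : (0:ℝ) ≤ r - 1), abs_of_nonneg (classZeta_nonneg K 1 s)]
    _ ≤ m * (B / torsionOrder K) + (s - 1) * Real.log m * m * (C / (s - 1)) := by
        refine add_le_add (mul_le_mul hrm hw' (abs_nonneg _) (by linarith))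
          (mul_le_mul hrl hZ1 (classZeta_nonneg K 1 s) ?_)
        exact mul_nonneg (mul_nonneg hs0.le (Real.log_nonneg hm)) (by linarith)
    _ = _ := by field_simp

/-- The L-series of a nontrivial class group character is bounded near `1`. -/
theorem exists_classLSeries_bound (χ : ClassGroup (𝓞 K) →* ℂ) (hχ : χ ≠ 1) :
    ∃ B, ∀ s ∈ Set.Ioc (1 : ℝ) 2,
      ‖∑' I : (Ideal (𝓞 K))⁰, χ (ClassGroup.mk0 I) * (idealTerm K s I : ℂ)‖ ≤ B := by
  choose B hB using exists_abs_classZeta_sub_le K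
  have hsum0 : ∑ c, χ c = 0 := by
    obtain ⟨a, ha⟩ : ∃ a, χ a ≠ 1 := by
      by_contra! h
      exact hχ (MonoidHom.ext h)
    have h1 : ∑ c, χ (a * c) = ∑ c, χ c := Equiv.sum_comp (Equiv.mulLeft a) χ
    simp only [map_mul, ← Finset.mul_sum] at h1
    have h2 : (χ a - 1) * ∑ c, χ c = 0 := by rw [sub_mul, h1, one_mul, sub_self]
    exact (mul_eq_zero.mp h2).resolve_left (sub_ne_zero.mpr ha)
  refine ⟨∑ c, ‖χ c‖ * B c, fun s hs ↦ ?_⟩
  have hsum : Summable fun I : (Ideal (𝓞 K))⁰ ↦ χ (ClassGroup.mk0 I) * (idealTerm K s I : ℂ) := by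
    refine Summable.of_norm_bounded ((summable_idealTerm K hs.1).mul_left (∑ c, ‖χ c‖))
      fun I ↦ ?_
    rw [norm_mul, Complex.norm_real, Real.norm_eq_abs, abs_of_nonneg (idealTerm_nonneg _ _ _)]
    exact mul_le_mul_of_nonneg_right
      (Finset.single_le_sum (f := fun c ↦ ‖χ c‖) (fun c _ ↦ norm_nonneg _) (Finset.mem_univ _))
      (idealTerm_nonneg _ _ _)
  rw [← (Equiv.sigmaFiberEquiv (ClassGroup.mk0 (R := 𝓞 K))).tsum_eq,
    Summable.tsum_sigma (by
      exact ((Equiv.sigmaFiberEquiv (ClassGroup.mk0 (R := 𝓞 K))).summable_iff).mpr hsum),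
    tsum_fintype]
  have hrw : ∀ c, (∑' I : ClassIdeals K c,
      χ (ClassGroup.mk0 I.1) * (idealTerm K s I.1 : ℂ)) = χ c * (classZeta K c s : ℂ) := fun c ↦ by
    rw [classZeta, Complex.ofReal_tsum, ← tsum_mul_left]
    exact tsum_congr fun I ↦ by rw [I.2]
  simp only [Equiv.sigmaFiberEquiv_apply, hrw]
  have : ∑ c, χ c * (classZeta K c s : ℂ) =
      ∑ c, χ c * ((classZeta K c s - classZeta K 1 s : ℝ) : ℂ) := by
    simp [mul_sub, Finset.sum_sub_distrib, ← Finset.sum_mul, hsum0]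
  rw [this]
  refine (norm_sum_le _ _).trans (Finset.sum_le_sum fun c _ ↦ ?_)
  rw [norm_mul, Complex.norm_real, Real.norm_eq_abs]
  exact mul_le_mul_of_nonneg_left (hB c s hs) (norm_nonneg _)

end

end Fermat.Agent.ExtVanishing
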