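import Mathlib.NumberTheory.NumberField.Cyclotomic.Basic
import Mathlib.NumberTheory.Cyclotomic.Gal

/-!
# The Galois group of the `p`-th cyclotomic field
-/

set_option autoImplicit false
set_option linter.style.haveILetI false
set_option linter.unusedSectionVars false

namespace Fermat.Agent.ExtVanishing

open NumberField

noncomputable section

variable {K : Type} [Field K] [NumberField K] {p : ℕ} [hp : Fact p.Prime]
  [IsCyclotomicExtension {p} ℚ K] {z : K} (hz : IsPrimitiveRoot z p)

/-- The cyclotomic character of `Gal(K/ℚ)`. -/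
def chiK : (K ≃ₐ[ℚ] K) →* (ZMod p)ˣ :=
  haveI : NeZero p := ⟨hp.out.ne_zero⟩
  hz.autToPow ℚ

lemma apply_eq_pow_chiK (σ : K ≃ₐ[ℚ] K) : σ z = z ^ (chiK hz σ : ZMod p).val :=
  (hz.autToPow_spec ℚ σ).symm

lemma smul_toInteger_eq_pow (σ : K ≃ₐ[ℚ] K) :
    σ • hz.toInteger = hz.toInteger ^ (chiK hz σ : ZMod p).val :=
  RingOfIntegers.ext (by
    show σ (hz.toInteger : K) = _
    rw [show (hz.toInteger : K) = z from rfl, apply_eq_pow_chiK hz σ]
    rfl)

lemma chiK_bijective : Function.Bijective (chiK hz) := by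
  haveI : NeZero p := ⟨hp.out.ne_zero⟩
  haveI : IsGalois ℚ K := IsCyclotomicExtension.isGalois {p} ℚ K
  refine (Nat.bijective_iff_injective_and_card _).mpr ⟨hz.autToPow_injective (K := ℚ), ?_⟩
  rw [IsGalois.card_aut_eq_finrank, IsCyclotomicExtension.Rat.finrank p K,
    Nat.card_eq_fintype_card, ZMod.card_units_eq_totient]

omit hp in
lemma isGalois_cyclo [NeZero p] : IsGalois ℚ K := IsCyclotomicExtension.isGalois {p} ℚ K

end

end Fermat.Agent.ExtVanishing
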