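import Mathlib.NumberTheory.NumberField.Basic
import Mathlib.NumberTheory.RamificationInertia.Ramification
import Mathlib.RingTheory.RamificationInertia.Ramification
import Mathlib.RingTheory.RamificationInertia.Basic
import Mathlib.RingTheory.ClassGroup.Basic

/-!
# Multiplicities of primes in ideals of Dedekind domains
-/

set_option autoImplicit false

namespace Fermat.Agent.ExtVanishing

open UniqueFactorizationMonoid
open scoped nonZeroDivisors Classical

noncomputable section

variable {R : Type*} [CommRing R] [IsDedekindDomain R]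

/-- The multiplicity of `P` in `I`. -/
def cnt (P I : Ideal R) : ℕ := (normalizedFactors I).count P

variable {P : Ideal R}

lemma cnt_mul {I J : Ideal R} (hI : I ≠ ⊥) (hJ : J ≠ ⊥) :
    cnt P (I * J) = cnt P I + cnt P J := by
  rw [cnt, normalizedFactors_mul hI hJ, Multiset.count_add, cnt, cnt]

lemma cnt_pow (I : Ideal R) (n : ℕ) : cnt P (I ^ n) = n * cnt P I := by
  rw [cnt, normalizedFactors_pow, Multiset.count_nsmul, cnt]

lemma cnt_top : cnt P (⊤ : Ideal R) = 0 := by
  simp [cnt, ← Ideal.one_eq_top, normalizedFactors_one]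

lemma cnt_prod {ι : Type*} (s : Finset ι) (f : ι → Ideal R) (hf : ∀ i ∈ s, f i ≠ ⊥) :
    cnt P (∏ i ∈ s, f i) = ∑ i ∈ s, cnt P (f i) := by
  induction s using Finset.induction_on with
  | empty => rw [Finset.prod_empty, Finset.sum_empty, Ideal.one_eq_top, cnt_top]
  | @insert a s ha ih =>
    have hs : ∀ i ∈ s, f i ≠ ⊥ := fun i hi ↦ hf i (Finset.mem_insert_of_mem hi)
    rw [Finset.prod_insert ha, Finset.sum_insert ha, cnt_mul (hf a (Finset.mem_insert_self a s))
      (Finset.prod_ne_zero_iff.mpr hs), ih hs]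

lemma cnt_self (hP : P.IsPrime) (hP0 : P ≠ ⊥) : cnt P P = 1 := by
  rw [cnt, normalizedFactors_irreducible (Ideal.prime_of_isPrime hP0 hP).irreducible, normalize_eq,
    Multiset.count_singleton_self]

lemma le_pow_iff_cnt (hP : P.IsPrime) (hP0 : P ≠ ⊥) {I : Ideal R} (hI : I ≠ ⊥) {k : ℕ} :
    I ≤ P ^ k ↔ k ≤ cnt P I := by
  have hirr : Irreducible P := (Ideal.prime_of_isPrime hP0 hP).irreducible
  rw [← Ideal.dvd_iff_le, pow_dvd_iff_le_emultiplicity,
    emultiplicity_eq_count_normalizedFactors hirr hI, normalize_eq, Nat.cast_le, cnt]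

lemma mem_pow_iff_cnt (hP : P.IsPrime) (hP0 : P ≠ ⊥) {x : R} (hx : x ≠ 0) {k : ℕ} :
    x ∈ P ^ k ↔ k ≤ cnt P (Ideal.span {x}) := by
  rw [← le_pow_iff_cnt hP hP0 (by simpa using hx), Ideal.span_singleton_le_iff_mem]

lemma mem_iff_cnt_pos (hP : P.IsPrime) (hP0 : P ≠ ⊥) {x : R} (hx : x ≠ 0) :
    x ∈ P ↔ 0 < cnt P (Ideal.span {x}) := by
  have := mem_pow_iff_cnt hP hP0 hx (k := 1)
  rwa [pow_one] at this

lemma cnt_span_mul {x y : R} (hx : x ≠ 0) (hy : y ≠ 0) :
    cnt P (Ideal.span {x * y}) = cnt P (Ideal.span {x}) + cnt P (Ideal.span {y}) := by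
  rw [← Ideal.span_singleton_mul_span_singleton, cnt_mul (by simpa using hx) (by simpa using hy)]

lemma cnt_span_pow (x : R) (n : ℕ) :
    cnt P (Ideal.span {x ^ n}) = n * cnt P (Ideal.span {x}) := by
  rw [← Ideal.span_singleton_pow, cnt_pow]

lemma cnt_eq_zero_of_not_mem {Q : Ideal R} {I : Ideal R} {x : R} (hx : x ∈ I) (hxQ : x ∉ Q) :
    cnt Q I = 0 := by
  rw [cnt, Multiset.count_eq_zero]
  exact fun h ↦ hxQ (Ideal.le_of_dvd (dvd_of_mem_normalizedFactors h) hx)

/-- Multiplicity in an extended ideal. -/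
lemma cnt_map {S : Type*} [CommRing S] [IsDedekindDomain S] [Algebra R S] [FaithfulSMul R S]
    {v : Ideal R} {w : Ideal S} [w.LiesOver v] (hv : v.IsPrime) (hv0 : v ≠ ⊥)
    (hw : w.IsPrime) {I : Ideal R} (hI : I ≠ ⊥) :
    cnt w (I.map (algebraMap R S)) = w.ramificationIdx R * cnt v I := by
  have hvi : Irreducible v := (Ideal.prime_of_isPrime hv0 hv).irreducible
  have hmv : v.map (algebraMap R S) ≠ ⊥ := Ideal.map_ne_bot_of_ne_bot hv0
  have hw0 : w ≠ ⊥ := ne_bot_of_le_ne_bot hmv (Ideal.map_le_of_le_comap (w.over_def v).le)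
  have hwi : Irreducible w := (Ideal.prime_of_isPrime hw0 hw).irreducible
  have h := Ideal.IsDedekindDomain.emultiplicity_map_eq_ramificationIdx'_mul (S := S) (w := w)
    hI hvi hwi hw0
  rw [emultiplicity_eq_count_normalizedFactors hwi (Ideal.map_ne_bot_of_ne_bot hI), normalize_eq,
    emultiplicity_eq_count_normalizedFactors hvi hI, normalize_eq,
    Ideal.ramificationIdx'_eq_ramificationIdx' v w hmv] at h
  exact_mod_cast h

/-- A homomorphism on the class group evaluated through the prime factorisation. -/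
lemma classHom_eq_prod {M : Type*} [CommMonoid M] (φ : ClassGroup R →* M) (I : (Ideal R)⁰)
    (T : Finset (Ideal R)) (hT : ∀ P ∈ normalizedFactors (I : Ideal R), P ∈ T)
    (f : Ideal R → (Ideal R)⁰) (hf : ∀ P ∈ T, (f P : Ideal R) = P) :
    φ (ClassGroup.mk0 I) = ∏ P ∈ T, φ (ClassGroup.mk0 (f P)) ^ cnt P I := by
  simp only [← map_pow, ← map_prod]
  congr 2
  refine Subtype.ext ?_
  rw [Submonoid.coe_finsetProd]
  have hI : (I : Ideal R) ≠ ⊥ := nonZeroDivisors.coe_ne_zero I
  calc (I : Ideal R) = (normalizedFactors (I : Ideal R)).prod :=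
        (Ideal.prod_normalizedFactors_eq_self hI).symm
    _ = ∏ P ∈ T, P ^ cnt P I := by
        rw [Finset.prod_multiset_count]
        refine (Finset.prod_subset (fun P hP ↦ hT P (Multiset.mem_toFinset.mp hP))
          fun P _ hP ↦ ?_).trans rfl
        rw [Multiset.count_eq_zero.mpr (fun h ↦ hP (Multiset.mem_toFinset.mpr h)), pow_zero]
    _ = _ := Finset.prod_congr rfl fun P hP ↦ by rw [SubmonoidClass.coe_pow, hf P hP]

end

end Fermat.Agent.ExtVanishing
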