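import Mathlib.NumberTheory.NumberField.Cyclotomic.Ideal
import Mathlib.RingTheory.RootsOfUnity.CyclotomicUnits
import Mathlib.FieldTheory.Finite.Basic
import Mathlib.Algebra.CharP.Lemmas

/-!
# The cyclotomic unit `∏ u_b ^ (b⁻²)` modulo `(ζ - 1)³`

Modulo `(ζ - 1)³` it is `const * (1 - (ζ - 1)² / 24)`, so no power of it prime to `p` is a local
`p`-th power.
-/

set_option autoImplicit false
set_option linter.style.haveILetI false

namespace Fermat.Agent.ExtVanishing

open NumberField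
open scoped Classical

noncomputable section

variable {K : Type} [Field K] [NumberField K] {p : ℕ} [hp : Fact p.Prime]

/-- The exponent `b⁻²` attached to `b`. -/
def expo (b : (ZMod p)ˣ) : ℕ := (((b⁻¹ : (ZMod p)ˣ) : ZMod p) ^ 2).val

variable (p) in
/-- The cyclotomic unit in the `ω²` eigenspace. -/
def cycUnit (ζ : 𝓞 K) : 𝓞 K :=
  ∏ b : (ZMod p)ˣ, (∑ i ∈ Finset.range (b : ZMod p).val, ζ ^ i) ^ expo b

omit [NumberField K] in
lemma isUnit_cycUnit {ζ : 𝓞 K} (hζ : IsPrimitiveRoot ζ p) : IsUnit (cycUnit p ζ) :=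
  IsUnit.prod_iff.mpr fun b _ ↦
    (hζ.geom_sum_isUnit hp.out.two_le (ZMod.val_coe_unit_coprime b)).pow _

lemma sum_units_pow_eq (i : ℕ) (hi : ¬ (p - 1) ∣ i) :
    ∑ b : (ZMod p)ˣ, ((b⁻¹ : (ZMod p)ˣ) : ZMod p) ^ i = 0 := by
  rw [← Equiv.sum_comp (Equiv.inv (ZMod p)ˣ)]
  have h := FiniteField.sum_pow_units (ZMod p) i
  rw [ZMod.card, if_neg hi] at h
  simpa using h

section Ring

variable {R : Type*} [CommRing R] (f : ZMod p →+* R) (x : R)

/-- The truncated exponential `exp (a x) * (1 + b x²)` modulo `x³`. -/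
def truncExp (a b : ZMod p) : R := 1 + f a * x + f (b + a ^ 2 * (2 : ZMod p)⁻¹) * x ^ 2

lemma truncExp_zero : truncExp f x 0 0 = 1 := by simp [truncExp]

variable {f x}

lemma truncExp_mul (hp5 : 5 ≤ p) (hx : x ^ 3 = 0) (a b a' b' : ZMod p) :
    truncExp f x a b * truncExp f x a' b' = truncExp f x (a + a') (b + b') := by
  have h2 : (2 : ZMod p) ≠ 0 := by
    have : ((2 : ℕ) : ZMod p) ≠ 0 := by
      rw [ne_eq, ZMod.natCast_eq_zero_iff]
      exact fun h ↦ by have := Nat.le_of_dvd two_pos h; omega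
    simpa using this
  have key : b + b' + (a + a') ^ 2 * (2 : ZMod p)⁻¹ =
      (b + a ^ 2 * (2 : ZMod p)⁻¹) + (b' + a' ^ 2 * (2 : ZMod p)⁻¹) + a * a' := by
    field_simp
    ring
  simp only [truncExp]
  rw [key]
  set X := b + a ^ 2 * (2 : ZMod p)⁻¹
  set Y := b' + a' ^ 2 * (2 : ZMod p)⁻¹
  rw [map_add f (X + Y), map_add f X Y, map_mul f a a', map_add f a a']
  linear_combination (f a * f Y + f a' * f X + x * f X * f Y) * hx

lemma truncExp_pow (hp5 : 5 ≤ p) (hx : x ^ 3 = 0) (a b : ZMod p) (n : ℕ) :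
    truncExp f x a b ^ n = truncExp f x (n * a) (n * b) := by
  induction n with
  | zero => simp [truncExp_zero]
  | succ n ih => rw [pow_succ, ih, truncExp_mul hp5 hx]; push_cast; ring_nf

lemma truncExp_prod (hp5 : 5 ≤ p) (hx : x ^ 3 = 0) {ι : Type*} (s : Finset ι)
    (a b : ι → ZMod p) :
    ∏ i ∈ s, truncExp f x (a i) (b i) = truncExp f x (∑ i ∈ s, a i) (∑ i ∈ s, b i) := by
  induction s using Finset.induction_on with
  | empty => simp [truncExp_zero]
  | @insert j s hj ih =>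
    rw [Finset.prod_insert hj, ih, Finset.sum_insert hj, Finset.sum_insert hj, truncExp_mul hp5 hx]

lemma pow_one_add (hx : x ^ 3 = 0) (n : ℕ) :
    (1 + x) ^ n = 1 + (n : R) * x + (n.choose 2 : R) * x ^ 2 := by
  induction n with
  | zero => simp
  | succ n ih =>
    rw [pow_succ, ih, Nat.choose_succ_succ', Nat.choose_one_right]
    push_cast
    linear_combination (n.choose 2 : R) * hx

lemma geom_sum_one_add (hx : x ^ 3 = 0) (n : ℕ) :
    ∑ i ∈ Finset.range n, (1 + x) ^ i =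
      (n : R) + (n.choose 2 : R) * x + (n.choose 3 : R) * x ^ 2 := by
  induction n with
  | zero => simp
  | succ n ih =>
    rw [Finset.sum_range_succ, ih, pow_one_add hx, Nat.choose_succ_succ' n 2,
      Nat.choose_succ_succ' n 1, Nat.choose_one_right]
    push_cast
    ring

/-- `u_b = b * truncExp ((b-1)/2) ((b-1)(b-5)/24)`. -/
lemma geom_sum_eq_truncExp (hp5 : 5 ≤ p) (hx : x ^ 3 = 0) (b : ZMod p) :
    ∑ i ∈ Finset.range b.val, (1 + x) ^ i =
      f b * truncExp f x ((b - 1) / 2) ((b - 1) * (b - 5) / 24) := by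
  have hne : ∀ k : ℕ, 0 < k → k < p → (k : ZMod p) ≠ 0 := fun k h1 h2 ↦ by
    rw [ne_eq, ZMod.natCast_eq_zero_iff]
    exact fun h ↦ absurd (Nat.le_of_dvd h1 h) (by omega)
  have h2 : (2 : ZMod p) ≠ 0 := by exact_mod_cast hne 2 (by norm_num) (by omega)
  have h3 : (3 : ZMod p) ≠ 0 := by exact_mod_cast hne 3 (by norm_num) (by omega)
  have h24 : (24 : ZMod p) ≠ 0 := by
    rw [show (24 : ZMod p) = 2 ^ 3 * 3 by norm_num]
    exact mul_ne_zero (pow_ne_zero _ h2) h3
  rw [geom_sum_one_add hx]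
  set n := b.val
  have hb : (n : ZMod p) = b := ZMod.natCast_zmod_val b
  have c2 : ∀ m : ℕ, 2 * (m.choose 2 : ZMod p) = m * (m - 1) := fun m ↦ by
    induction m with
    | zero => simp
    | succ m ih =>
      rw [Nat.choose_succ_succ', Nat.choose_one_right]
      push_cast
      linear_combination ih
  have c3 : ∀ m : ℕ, 6 * (m.choose 3 : ZMod p) = m * (m - 1) * (m - 2) := fun m ↦ by
    induction m with
    | zero => simp
    | succ m ih =>
      rw [Nat.choose_succ_succ']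
      push_cast
      linear_combination ih + 3 * c2 m
  have e2 : b * ((b - 1) / 2) = (n.choose 2 : ZMod p) := by
    have := c2 n
    rw [hb] at this
    field_simp
    linear_combination -this
  have e3 : b * ((b - 1) * (b - 5) / 24 + ((b - 1) / 2) ^ 2 * (2 : ZMod p)⁻¹) =
      (n.choose 3 : ZMod p) := by
    have := c3 n
    rw [hb] at this
    field_simp
    linear_combination (-32 : ZMod p) * this
  rw [truncExp, mul_add, mul_add, mul_one, ← mul_assoc, ← map_mul, e2, map_natCast, ← mul_assoc,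
    ← map_mul, e3, map_natCast]
  congr 2
  rw [← hb, map_natCast]

/-- The product defining the cyclotomic unit, in the truncated ring. -/
lemma prod_geom_sum_eq (hp5 : 5 ≤ p) (hx : x ^ 3 = 0) :
    ∏ b : (ZMod p)ˣ, (∑ i ∈ Finset.range (b : ZMod p).val, (1 + x) ^ i) ^ expo b =
      f (∏ b : (ZMod p)ˣ, (b : ZMod p) ^ expo b) * truncExp f x 0 (-(24 : ZMod p)⁻¹) := by
  have hne : ∀ k : ℕ, 0 < k → k < p → (k : ZMod p) ≠ 0 := fun k h1 h2 ↦ by
    rw [ne_eq, ZMod.natCast_eq_zero_iff]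
    exact fun h ↦ absurd (Nat.le_of_dvd h1 h) (by omega)
  have s1 := sum_units_pow_eq (p := p) 1 (fun h ↦ by have := Nat.le_of_dvd one_pos h; omega)
  have s2 := sum_units_pow_eq (p := p) 2 (fun h ↦ by have := Nat.le_of_dvd two_pos h; omega)
  simp only [pow_one] at s1
  simp only [geom_sum_eq_truncExp (f := f) hp5 hx, mul_pow, truncExp_pow hp5 hx,
    Finset.prod_mul_distrib, truncExp_prod hp5 hx, map_prod, map_pow]
  have hm : ∀ b : (ZMod p)ˣ, (expo b : ZMod p) = ((b⁻¹ : (ZMod p)ˣ) : ZMod p) ^ 2 := fun b ↦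
    ZMod.natCast_zmod_val _
  have hbb : ∀ b : (ZMod p)ˣ, ((b⁻¹ : (ZMod p)ˣ) : ZMod p) * (b : ZMod p) = 1 := fun b ↦ b.inv_mul
  congr 2
  · rw [Finset.sum_congr rfl fun b _ ↦ show (expo b : ZMod p) * (((b : ZMod p) - 1) / 2) =
        (((b⁻¹ : (ZMod p)ˣ) : ZMod p) - ((b⁻¹ : (ZMod p)ˣ) : ZMod p) ^ 2) / 2 by
      rw [hm, mul_div_assoc']; congr 1; linear_combination ((b⁻¹ : (ZMod p)ˣ) : ZMod p) * hbb b,
      ← Finset.sum_div, Finset.sum_sub_distrib, s1, s2, sub_zero, zero_div]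
  · rw [Finset.sum_congr rfl fun b _ ↦ show
        (expo b : ZMod p) * (((b : ZMod p) - 1) * ((b : ZMod p) - 5) / 24) =
        (1 - 6 * ((b⁻¹ : (ZMod p)ˣ) : ZMod p) + 5 * ((b⁻¹ : (ZMod p)ˣ) : ZMod p) ^ 2) / 24 by
      rw [hm, mul_div_assoc']; congr 1
      linear_combination (((b⁻¹ : (ZMod p)ˣ) : ZMod p) * (b : ZMod p) + 1
        - 6 * ((b⁻¹ : (ZMod p)ˣ) : ZMod p)) * hbb b,
      ← Finset.sum_div, Finset.sum_add_distrib, Finset.sum_sub_distrib, ← Finset.mul_sum,
      ← Finset.mul_sum, s1, s2, mul_zero, mul_zero, sub_zero, add_zero, Finset.sum_const,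
      Finset.card_univ, ZMod.card_units, nsmul_one]
    rw [Nat.cast_sub hp.out.one_le, ZMod.natCast_self, Nat.cast_one, zero_sub, neg_div, one_div]

end Ring

section Field

variable [IsCyclotomicExtension {p} ℚ K] {z : K} (hz : IsPrimitiveRoot z p)
include hz

lemma exists_natCast_sub_mem (y : 𝓞 K) :
    ∃ k : ℕ, y - k ∈ Ideal.span {hz.toInteger - 1} := by
  set I := Ideal.span {hz.toInteger - 1}
  have hcard : Nat.card (𝓞 K ⧸ I) = p := by
    rw [← Submodule.cardQuot_apply, ← Ideal.absNorm_apply]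
    exact IsCyclotomicExtension.Rat.absNorm_span_zeta_sub_one p 0
      (K := K) (hK := by rwa [zero_add, pow_one]) (by rwa [zero_add, pow_one])
  haveI : Finite (𝓞 K ⧸ I) := Nat.finite_of_card_ne_zero (by rw [hcard]; exact hp.out.ne_zero)
  have hpI : (p : 𝓞 K ⧸ I) = 0 := by
    have hmem : (p : 𝓞 K) ∈ I := by
      have h := Ideal.absNorm_mem I
      rwa [Ideal.absNorm_apply, Submodule.cardQuot_apply, hcard] at h
    rw [← map_natCast (Ideal.Quotient.mk I), Ideal.Quotient.eq_zero_iff_mem]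
    exact hmem
  haveI : Nontrivial (𝓞 K ⧸ I) := Finite.one_lt_card_iff_nontrivial.mp (hcard ▸ hp.out.one_lt)
  haveI : CharP (𝓞 K ⧸ I) p := (CharP.charP_iff_prime_eq_zero hp.out).mpr hpI
  haveI := Fintype.ofFinite (𝓞 K ⧸ I)
  obtain ⟨k, hk⟩ := ((ZMod.castHom (dvd_refl p) (𝓞 K ⧸ I)).injective.bijective_of_nat_card_le
        (by rw [hcard, Nat.card_zmod])).2 (Ideal.Quotient.mk I y)
  refine ⟨k.val, ?_⟩
  rw [← Ideal.Quotient.eq, map_natCast, ← hk]
  conv_lhs => rw [← ZMod.natCast_zmod_val k]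
  rw [map_natCast]

/-- No power prime to `p` of the cyclotomic unit is a `p`-th power modulo `(ζ - 1)³`. -/
theorem dvd_of_cycUnit_pow_sub_mem (hp5 : 5 ≤ p) {i : ℕ} {y : 𝓞 K}
    (h : cycUnit p hz.toInteger ^ i - y ^ p ∈ Ideal.span {(hz.toInteger - 1) ^ 3}) : p ∣ i := by
  set π := hz.toInteger - 1 with hπ
  have hπprime : Prime π := hz.zeta_sub_one_prime'
  have hp3 : π ^ 3 ∣ (p : 𝓞 K) :=
    (pow_dvd_pow π (by omega : 3 ≤ p - 1)).trans
      (IsCyclotomicExtension.Rat.associated_zeta_sub_one_pow_prime p hz).dvd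
  set I := Ideal.span {π ^ 3}
  haveI : Nontrivial (𝓞 K ⧸ I) := by
    rw [Ideal.Quotient.nontrivial_iff, ne_eq, Ideal.span_singleton_eq_top,
      isUnit_pow_iff (by norm_num)]
    exact hπprime.not_isUnit
  haveI : CharP (𝓞 K ⧸ I) p := (CharP.charP_iff_prime_eq_zero hp.out).mpr (by
    rw [← map_natCast (Ideal.Quotient.mk I), Ideal.Quotient.eq_zero_iff_mem]
    exact Ideal.mem_span_singleton.mpr hp3)
  let f : ZMod p →+* 𝓞 K ⧸ I := ZMod.castHom (dvd_refl p) _
  set x := Ideal.Quotient.mk I π with hxdef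
  have hx : x ^ 3 = 0 := by
    rw [hxdef, ← map_pow, Ideal.Quotient.eq_zero_iff_mem]
    exact Ideal.mem_span_singleton_self _
  have hζ : Ideal.Quotient.mk I hz.toInteger = 1 + x := by
    rw [hxdef, hπ, map_sub, map_one]; ring
  obtain ⟨k, hk⟩ := exists_natCast_sub_mem hz y
  obtain ⟨t, ht⟩ := Ideal.mem_span_singleton.mp hk
  have hy : Ideal.Quotient.mk I (y ^ p) = f (k ^ p) := by
    rw [show y = (k : 𝓞 K) + π * t by linear_combination ht, map_pow, map_add, map_mul,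
      map_natCast, add_pow_char, mul_pow, map_pow, map_natCast]
    rw [show x ^ p = 0 from pow_eq_zero_of_le (by omega) hx, zero_mul, add_zero]
  rw [← Ideal.Quotient.eq, hy, map_pow, cycUnit, map_prod] at h
  simp only [map_pow, map_sum, hζ] at h
  rw [prod_geom_sum_eq (f := f) hp5 hx, mul_pow, ← map_pow, truncExp_pow hp5 hx, mul_zero,
    truncExp, zero_pow two_ne_zero, zero_mul, add_zero, map_zero, zero_mul, add_zero, mul_add,
    mul_one, ← mul_assoc, ← map_mul] at h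
  set c := (∏ b : (ZMod p)ˣ, (b : ZMod p) ^ expo b) ^ i
  set d := c * ((i : ZMod p) * -(24 : ZMod p)⁻¹)
  have hlift : ∀ a : ZMod p, f a = Ideal.Quotient.mk I (a.val : 𝓞 K) := fun a ↦ by
    conv_lhs => rw [← ZMod.natCast_zmod_val a]
    rw [map_natCast, map_natCast]
  have hint : ∀ a : ℕ, π ∣ (a : 𝓞 K) → (a : ZMod p) = 0 := fun a ha ↦ by
    rw [ZMod.natCast_eq_zero_iff]
    exact_mod_cast (IsCyclotomicExtension.Rat.zeta_sub_one_dvd_intCast_iff' p hz
      (n := (a : ℤ))).mp (by exact_mod_cast ha)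
  have key : π ^ 3 ∣ ((c - k ^ p).val : 𝓞 K) + (d.val : 𝓞 K) * π ^ 2 := by
    rw [← Ideal.mem_span_singleton, ← Ideal.Quotient.eq_zero_iff_mem, map_add, map_mul, map_pow,
      ← hlift, ← hlift, ← hxdef, map_sub]
    rw [← map_pow f] at h
    linear_combination h
  have h1 : c - k ^ p = 0 := by
    have := hint _ ((dvd_add_left ((dvd_pow_self π two_ne_zero).mul_left _)).mp
      ((dvd_pow_self π three_ne_zero).trans key))
    rwa [ZMod.natCast_zmod_val] at this
  rw [h1, ZMod.val_zero, Nat.cast_zero, zero_add, pow_succ,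
    mul_comm (π ^ 2), mul_dvd_mul_iff_right (pow_ne_zero _ hπprime.ne_zero)] at key
  have hd := hint _ key
  rw [ZMod.natCast_zmod_val] at hd
  have hc : c ≠ 0 := pow_ne_zero _ (Finset.prod_ne_zero_iff.mpr fun b _ ↦ pow_ne_zero _ b.ne_zero)
  have h24 : (24 : ZMod p) ≠ 0 := by
    have h2 : ((2 : ℕ) : ZMod p) ≠ 0 := by
      rw [ne_eq, ZMod.natCast_eq_zero_iff]
      exact fun h ↦ by have := Nat.le_of_dvd two_pos h; omega
    have h3 : ((3 : ℕ) : ZMod p) ≠ 0 := by
      rw [ne_eq, ZMod.natCast_eq_zero_iff]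
      exact fun h ↦ by have := Nat.le_of_dvd three_pos h; omega
    rw [show (24 : ZMod p) = (2 : ℕ) ^ 3 * (3 : ℕ) by norm_num]
    exact mul_ne_zero (pow_ne_zero _ h2) h3
  rw [← ZMod.natCast_eq_zero_iff]
  simpa [d, hc, h24] using hd

end Field

end

end Fermat.Agent.ExtVanishing
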