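import Fermat.Prelude.Def_ExtCitation_AdmissibleExtension
import Fermat.Agent.FreyReducible.InertiaLift
import Fermat.Agent.ExtVanishing.IdealCount
import Fermat.Agent.ExtVanishing.CycloSetup
import Fermat.Agent.ExtVanishing.LocalPi
import Mathlib.NumberTheory.LegendreSymbol.AddCharacter
import Mathlib.LinearAlgebra.LinearIndependent.Basic
import Mathlib.FieldTheory.Galois.Infinite

/-!
# Kummer theory for a cocycle cut out by an admissible extension

A cocycle `c` with values in `𝔽_p(ω⁻¹)`-twists that is unramified outside `p` and split at `p`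
gives an element `α` of `ℚ(ζ)` in the `ω²` eigenspace whose ideal is a `p`-th power and which is
locally a `p`-th power; if every such element is a `p`-th power, `c` vanishes on `ker ω`.
-/

set_option autoImplicit false
set_option linter.style.haveILetI false
set_option linter.unusedSectionVars false

open NumberField
open scoped Pointwise Classical

noncomputable section

namespace Fermat.Agent.ExtVanishing

local notation "Ω" => AlgebraicClosure ℚ
local notation "G_ℚ" => (AlgebraicClosure ℚ) ≃ₐ[ℚ] (AlgebraicClosure ℚ)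

local instance isAlgebraicQbar_ev : Algebra.IsAlgebraic ℚ (AlgebraicClosure ℚ) :=
  AlgebraicClosure.isAlgebraic ℚ
local instance isAlgClosureQbar_ev : IsAlgClosure ℚ (AlgebraicClosure ℚ) :=
  ⟨inferInstance, inferInstance⟩
local instance isGaloisQbar_ev : IsGalois ℚ (AlgebraicClosure ℚ) :=
  have : Normal ℚ (AlgebraicClosure ℚ) := IsAlgClosure.normal ℚ (AlgebraicClosure ℚ)
  have : Algebra.IsSeparable ℚ (AlgebraicClosure ℚ) :=
    Algebra.IsAlgebraic.isSeparable_of_perfectField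
  IsGalois.mk

variable {p : ℕ} [hp : Fact p.Prime]

variable (p) in
/-- The mod `p` cyclotomic character of `G_ℚ`. -/
def omegaU : G_ℚ →* (ZMod p)ˣ :=
  haveI : NeZero p := ⟨hp.out.ne_zero⟩
  { toFun := fun σ ↦ modularCyclotomicCharacter Ω (ExtCitation.card_rootsOfUnity_eq_self p)
      (σ : Ω ≃+* Ω)
    map_one' := map_one _
    map_mul' := fun σ τ ↦ map_mul _ (σ : Ω ≃+* Ω) (τ : Ω ≃+* Ω) }

lemma omegaU_eq_cycloExp (σ : G_ℚ) : ((ExtCitation.cycloExp p σ : ℕ) : ZMod p) = omegaU p σ := by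
  haveI : NeZero p := ⟨hp.out.ne_zero⟩
  rw [ExtCitation.cycloExp, ZMod.natCast_zmod_val]
  rfl

lemma apply_zeta {ζ : Ω} (hζ : IsPrimitiveRoot ζ p) (σ : G_ℚ) :
    σ ζ = ζ ^ (omegaU p σ : ZMod p).val := by
  haveI : NeZero p := ⟨hp.out.ne_zero⟩
  exact modularCyclotomicCharacter.spec Ω (ExtCitation.card_rootsOfUnity_eq_self p) (σ : Ω ≃+* Ω)
    (t := (hζ.isUnit hp.out.ne_zero).unit)
    ((mem_rootsOfUnity p _).mpr (Units.ext hζ.pow_eq_one))

variable (p) in
/-- A cocycle for an extension of `ω` by the trivial character, unramified outside `p`,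
split at `p`. -/
structure SplitCocycle : Type where
  /-- The cocycle. -/
  c : G_ℚ → ZMod p
  map_mul : ∀ σ τ, c (σ * τ) = (omegaU p τ : ZMod p) * c σ + c τ
  isOpen_kernel : IsOpen {σ : G_ℚ | omegaU p σ = 1 ∧ c σ = 0}
  inertia_trivial : ∀ q : ℕ, q.Prime → ∀ A : ValuationSubring Ω, A.LiesOverPrime q →
    ∀ σ ∈ A.inertiaSubgroupIn ℚ, omegaU p σ = 1 → c σ = 0

namespace SplitCocycle

variable (d : SplitCocycle p)

lemma map_one : d.c 1 = 0 := by
  have h := d.map_mul 1 1
  rw [mul_one, _root_.map_one, Units.val_one, one_mul] at h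
  exact left_eq_add.mp h

lemma map_mul_of_eq_one {σ τ : G_ℚ} (hτ : omegaU p τ = 1) : d.c (σ * τ) = d.c σ + d.c τ := by
  rw [d.map_mul, hτ, Units.val_one, one_mul]

/-- The common kernel of `ω` and `c`. -/
def kernel : Subgroup G_ℚ where
  carrier := {σ | omegaU p σ = 1 ∧ d.c σ = 0}
  one_mem' := ⟨_root_.map_one _, d.map_one⟩
  mul_mem' {σ τ} hσ hτ :=
    ⟨by rw [_root_.map_mul, hσ.1, hτ.1, one_mul], by
      rw [d.map_mul_of_eq_one hτ.1, hσ.2, hτ.2, add_zero]⟩
  inv_mem' {σ} hσ := by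
    have h1 : omegaU p σ⁻¹ = 1 := by rw [map_inv, hσ.1, inv_one]
    refine ⟨h1, ?_⟩
    have h := d.map_mul_of_eq_one (σ := σ) h1
    rw [mul_inv_cancel, d.map_one, hσ.2, zero_add] at h
    exact h.symm

lemma conj_formula (g τ : G_ℚ) (hτ : omegaU p τ = 1) :
    d.c (g⁻¹ * τ * g) = (omegaU p g : ZMod p) * d.c τ := by
  have h := d.map_mul g⁻¹ g
  rw [inv_mul_cancel, d.map_one] at h
  rw [d.map_mul, d.map_mul_of_eq_one hτ]
  linear_combination -h

instance normal_kernel : d.kernel.Normal := by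
  refine ⟨fun n hn g ↦ ⟨?_, ?_⟩⟩
  · rw [_root_.map_mul, _root_.map_mul, hn.1, mul_one, map_inv, mul_inv_cancel]
  · have h := d.conj_formula g⁻¹ n hn.1
    rw [inv_inv, hn.2, mul_zero] at h
    exact h

/-- The field cut out by the extension. -/
def field : IntermediateField ℚ Ω := IntermediateField.fixedField d.kernel

lemma finiteDimensional_field : FiniteDimensional ℚ d.field := by
  obtain ⟨F₀, hF₀, hle⟩ := (krullTopology_mem_nhds_one_iff ℚ Ω _).mp
    (d.isOpen_kernel.mem_nhds ⟨_root_.map_one _, d.map_one⟩)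
  have hFle : d.field ≤ F₀ := by
    rw [← InfiniteGalois.fixedField_fixingSubgroup F₀]
    exact IntermediateField.fixedField_antitone hle
  have := hF₀
  exact FiniteDimensional.of_injective (IntermediateField.inclusion hFle).toLinearMap
    (IntermediateField.inclusion_injective hFle)

lemma fixingSubgroup_field : d.field.fixingSubgroup = d.kernel :=
  InfiniteGalois.fixingSubgroup_fixedField
    ⟨d.kernel, d.kernel.isClosed_of_isOpen d.isOpen_kernel⟩

lemma isGalois_field : IsGalois ℚ d.field :=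
  (InfiniteGalois.normal_iff_isGalois d.field).mp (by rw [fixingSubgroup_field]; infer_instance)

lemma agree {σ τ : G_ℚ} (h : ∀ x : d.field, σ (x : Ω) = τ (x : Ω)) :
    omegaU p σ = omegaU p τ ∧ d.c σ = d.c τ := by
  have hmem : σ⁻¹ * τ ∈ d.kernel := by
    rw [← d.fixingSubgroup_field, IntermediateField.mem_fixingSubgroup_iff]
    intro x hx
    rw [AlgEquiv.mul_apply, ← h ⟨x, hx⟩, ← AlgEquiv.mul_apply, inv_mul_cancel, AlgEquiv.one_apply]
  refine ⟨?_, ?_⟩
  · have h1 := hmem.1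
    rwa [_root_.map_mul, map_inv, inv_mul_eq_one] at h1
  · have h1 := d.map_mul_of_eq_one (σ := σ) hmem.1
    rw [mul_inv_cancel_left, hmem.2, add_zero] at h1
    exact h1.symm

lemma eq_one_of_kernel {g : d.field ≃ₐ[ℚ] d.field} {σ : G_ℚ}
    (hσg : ∀ x : d.field, σ (x : Ω) = (g x : Ω)) (h1 : omegaU p σ = 1) (h2 : d.c σ = 0) : g = 1 := by
  have hσ : σ ∈ d.field.fixingSubgroup := by rw [fixingSubgroup_field]; exact ⟨h1, h2⟩
  refine AlgEquiv.ext fun x ↦ Subtype.ext ?_
  show ((g x : d.field) : Ω) = (x : Ω)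
  rw [← hσg]
  exact (IntermediateField.mem_fixingSubgroup_iff _ _).mp hσ _ x.2

lemma numberField_field : NumberField d.field :=
  { to_charZero := inferInstance, to_finiteDimensional := d.finiteDimensional_field }

/-- All ramification indices in the field cut out by `c` are at most `p - 1`. -/
lemma ramificationIdx_le (W : Ideal (𝓞 d.field)) [hW : W.IsPrime] (hW0 : W ≠ ⊥) :
    W.ramificationIdx ℤ ≤ p - 1 := by
  haveI := d.finiteDimensional_field
  haveI := d.isGalois_field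
  haveI := d.numberField_field
  haveI : W.IsMaximal := hW.isMaximal hW0
  haveI : IsGaloisGroup (d.field ≃ₐ[ℚ] d.field) ℤ (𝓞 d.field) :=
    IsGaloisGroup.of_isFractionRing (d.field ≃ₐ[ℚ] d.field) ℤ (𝓞 d.field) ℚ d.field
  obtain ⟨A, hA⟩ := FreyReducible.exists_valuationSubring_over d.field W
  have hWA : W = (FreyReducible.placeIdeal A).under (𝓞 d.field) :=
    Ideal.IsMaximal.eq_of_le inferInstance (Ideal.IsPrime.ne_top inferInstance) hA
  obtain ⟨n, hn⟩ := (inferInstance : (W.under ℤ).IsPrincipal)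
  rw [Ideal.submodule_span_eq, ← Int.span_natAbs] at hn
  set q := n.natAbs
  have hq0 : W.under ℤ ≠ ⊥ := Ideal.IsIntegral.comap_ne_bot ℤ hW0
  have hq : q.Prime := by
    rw [Nat.prime_iff_prime_int]
    refine (Ideal.span_singleton_prime (fun h ↦ hq0 ?_)).mp (hn ▸ inferInstance)
    rw [hn, Ideal.span_singleton_eq_bot]
    exact h
  have hqW : (q : 𝓞 d.field) ∈ W := by
    have h : ((q : ℤ)) ∈ W.under ℤ := by rw [hn]; exact Ideal.mem_span_singleton_self _
    simpa using h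
  have hAq : A.LiesOverPrime q := by
    rw [hWA] at hqW
    simp only [Ideal.mem_comap, map_natCast, FreyReducible.mem_placeIdeal] at hqW
    exact hqW
  have hlift : ∀ g : W.inertia (d.field ≃ₐ[ℚ] d.field),
      ∃ σ ∈ A.inertiaSubgroupIn ℚ, ∀ x : d.field, σ (x : Ω) = (g.1 x : Ω) := fun g ↦
    FreyReducible.exists_mem_inertiaSubgroupIn_extending hq.ne_zero hAq d.field g.1 fun b ↦ by
      have h := g.2 b
      change g.1 • b - b ∈ W at h
      exact FreyReducible.mem_placeIdeal.mp (Ideal.mem_comap.mp (hWA.le h))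
  choose s hs hsx using hlift
  let Θ : W.inertia (d.field ≃ₐ[ℚ] d.field) →* (ZMod p)ˣ :=
    { toFun := fun g ↦ omegaU p (s g)
      map_one' := by
        rw [← _root_.map_one (omegaU p)]
        exact (d.agree fun x ↦ by rw [hsx]; rfl).1
      map_mul' := fun g h ↦ by
        rw [← _root_.map_mul]
        exact (d.agree fun x ↦ by rw [hsx, AlgEquiv.mul_apply, hsx, hsx]; rfl).1 }
  have hΘ : Function.Injective Θ := (injective_iff_map_eq_one Θ).mpr fun g hg ↦
    Subtype.ext (d.eq_one_of_kernel (hsx g) hg (d.inertia_trivial q hq A hAq _ (hs g) hg))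
  have hcard := Nat.card_le_card_of_injective _ hΘ
  haveI : W.LiesOver (Ideal.span {(q : ℤ)}) := ⟨hn.symm⟩
  haveI : (Ideal.span {(q : ℤ)}).IsMaximal :=
    PrincipalIdealRing.isMaximal_of_irreducible (Nat.prime_iff_prime_int.mp hq).irreducible
  haveI : Finite (ℤ ⧸ Ideal.span {(q : ℤ)}) :=
    haveI : NeZero q := ⟨hq.ne_zero⟩
    Finite.of_equiv _ (Int.quotientSpanNatEquivZMod q).symm.toEquiv
  haveI : Finite (Ideal.span {(q : ℤ)}).ResidueField :=
    Finite.of_surjective _ (Ideal.bijective_algebraMap_quotient_residueField _).2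
  rw [Ideal.card_inertia_eq_ramificationIdxIn (G := d.field ≃ₐ[ℚ] d.field)
    (Ideal.span {(q : ℤ)}) W, Ideal.ramificationIdxIn_eq_ramificationIdx _ W
    (d.field ≃ₐ[ℚ] d.field), Nat.card_eq_fintype_card, ZMod.card_units] at hcard
  exact hcard

/-- The Kummer generator. -/
lemma exists_kummer_gen {ζ : Ω} (hζ : IsPrimitiveRoot ζ p) :
    ∃ β : d.field, β ≠ 0 ∧ IsIntegral ℤ β ∧
      ∀ τ : G_ℚ, omegaU p τ = 1 → τ (β : Ω) = ζ ^ (d.c τ).val * (β : Ω) := by
  haveI : NeZero p := ⟨hp.out.ne_zero⟩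
  haveI := d.finiteDimensional_field
  haveI := d.isGalois_field
  let ψ : AddChar (ZMod p) Ω := AddChar.zmodChar p hζ.pow_eq_one
  have hψ : ∀ a, ψ a = ζ ^ a.val := AddChar.zmodChar_apply _
  have hlift : ∀ g : d.field ≃ₐ[ℚ] d.field, ∀ x : d.field, g.liftNormal Ω (x : Ω) = (g x : Ω) :=
    fun g x ↦ g.liftNormal_commutes Ω x
  let C : (d.field ≃ₐ[ℚ] d.field) → ZMod p := fun g ↦ d.c (g.liftNormal Ω)
  let S : Finset (d.field ≃ₐ[ℚ] d.field) :=
    Finset.univ.filter fun g ↦ omegaU p (g.liftNormal Ω) = 1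
  have hζfix : ∀ τ : G_ℚ, omegaU p τ = 1 → τ ζ = ζ := fun τ hτ ↦ by
    rw [apply_zeta hζ, hτ, Units.val_one, ZMod.val_one, pow_one]
  have hζmem : ζ ∈ d.field := IntermediateField.mem_fixedField_iff _ _ |>.mpr fun f hf ↦
    hζfix f hf.1
  let R : d.field → Ω := fun x ↦ ∑ g ∈ S, ψ (-C g) * (g x : Ω)
  have hRτ : ∀ x, ∀ τ : G_ℚ, omegaU p τ = 1 → τ (R x) = ψ (d.c τ) * R x := by
    intro x τ hτ
    let t : d.field ≃ₐ[ℚ] d.field := AlgEquiv.restrictNormalHom d.field τ
    have ht : ∀ y : d.field, τ (y : Ω) = (t y : Ω) := fun y ↦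
      (τ.restrictNormal_commutes d.field y).symm
    have hmul : ∀ g : d.field ≃ₐ[ℚ] d.field, omegaU p ((t * g).liftNormal Ω) =
        omegaU p (g.liftNormal Ω) ∧
        (omegaU p (g.liftNormal Ω) = 1 → C (t * g) = d.c τ + C g) := fun g ↦ by
      have h := d.agree (σ := (t * g).liftNormal Ω) (τ := τ * g.liftNormal Ω) fun y ↦ by
        rw [hlift, AlgEquiv.mul_apply, AlgEquiv.mul_apply, hlift, ht]
      refine ⟨by rw [h.1, _root_.map_mul, hτ, one_mul], fun hg ↦ ?_⟩
      show d.c _ = _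
      rw [h.2, d.map_mul_of_eq_one hg]
    simp only [R, map_sum, Finset.mul_sum]
    refine Finset.sum_equiv (Equiv.mulLeft t) (fun g ↦ ?_) fun g hg ↦ ?_
    · simp [S, (hmul g).1]
    · simp only [S, Finset.mem_filter, Finset.mem_univ, true_and] at hg
      rw [Equiv.coe_mulLeft, ← mul_assoc, ← AddChar.map_add_eq_mul, (hmul g).2 hg,
        neg_add, add_neg_cancel_left, _root_.map_mul, hψ, map_pow, hζfix τ hτ]
      exact congrArg _ (ht (g x))
  obtain ⟨x, hx⟩ : ∃ x, R x ≠ 0 := by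
    by_contra! h
    have hinj : Function.Injective (fun g : d.field ≃ₐ[ℚ] d.field ↦
        ((algebraMap d.field Ω).comp (g : d.field →+* d.field)).toMonoidHom) := fun g g' hgg ↦
      AlgEquiv.ext fun y ↦ (algebraMap d.field Ω).injective (DFunLike.congr_fun hgg y)
    have h1 : (1 : d.field ≃ₐ[ℚ] d.field) ∈ S := by
      simp only [S, Finset.mem_filter, Finset.mem_univ, true_and]
      rw [(d.agree (σ := AlgEquiv.liftNormal 1 Ω) (τ := 1) fun y ↦ by rw [hlift]; rfl).1,
        _root_.map_one]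
    have := linearIndependent_iff'.mp ((linearIndependent_monoidHom d.field Ω).comp _ hinj) S
      (fun g ↦ ψ (-C g)) (funext fun y ↦ by
        rw [Finset.sum_apply]
        exact h y) 1 h1
    rw [hψ] at this
    exact pow_ne_zero _ (hζ.ne_zero hp.out.ne_zero) this
  obtain ⟨m, hm, hint⟩ := ((IsFractionRing.isAlgebraic_iff ℤ ℚ d.field).mpr (IsAlgebraic.of_finite ℚ x)).exists_integral_multiple
  have hRmem : R (m • x) ∈ d.field := by
    refine sum_mem fun g _ ↦ mul_mem ?_ (g _).2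
    rw [hψ]
    exact pow_mem hζmem _
  have hRsmul : R (m • x) = m • R x := by
    simp only [R, Finset.smul_sum]
    refine Finset.sum_congr rfl fun g _ ↦ ?_
    rw [map_zsmul, ← mul_smul_comm]
    congr 1
  refine ⟨⟨R (m • x), hRmem⟩, fun h ↦ ?_, ?_, fun τ hτ ↦ by rw [← hψ]; exact hRτ _ τ hτ⟩
  · have h' : R (m • x) = 0 := congrArg Subtype.val h
    rw [hRsmul] at h'
    exact (smul_eq_zero.mp h').elim hm hx
  · refine (isIntegral_algHom_iff (IntermediateField.val d.field |>.restrictScalars ℤ)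
      Subtype.val_injective).mp ?_
    refine IsIntegral.sum _ fun g _ ↦ IsIntegral.mul ?_ ?_
    · rw [hψ]
      exact (hζ.isIntegral hp.out.pos).pow _
    · exact hint.map ((IntermediateField.val d.field).comp g.toAlgHom |>.restrictScalars ℤ)

section Descent

variable {K : Type} [Field K] [NumberField K] [IsCyclotomicExtension {p} ℚ K] {z : K}
  (hz : IsPrimitiveRoot z p)

include hz in
lemma exists_galois_of_apply (j : K →+* Ω) (g : G_ℚ) :
    ∃ σ : K ≃ₐ[ℚ] K, chiK hz σ = omegaU p g ∧ ∀ x, j (σ x) = g (j x) := by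
  haveI : NeZero p := ⟨hp.out.ne_zero⟩
  obtain ⟨σ, hσ⟩ := (chiK_bijective hz).2 (omegaU p g)
  refine ⟨σ, hσ, fun x ↦ ?_⟩
  have key : (j.comp (σ : K →+* K)).toRatAlgHom = ((g : Ω →+* Ω).comp j).toRatAlgHom := by
    refine (hz.powerBasis ℚ).algHom_ext ?_
    simp only [IsPrimitiveRoot.powerBasis_gen, RingHom.toRatAlgHom_apply, RingHom.comp_apply,
      RingHom.coe_coe]
    rw [apply_eq_pow_chiK hz, hσ, map_pow, apply_zeta (hz.map_of_injective j.injective)]
  exact AlgHom.congr_fun key x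

include hz in
lemma exists_eq_of_fixed (j : K →+* Ω) {y : Ω} (hy : ∀ τ : G_ℚ, omegaU p τ = 1 → τ y = y) :
    ∃ a, j a = y := by
  let R : IntermediateField ℚ Ω := j.toRatAlgHom.fieldRange
  have h : y ∈ IntermediateField.fixedField R.fixingSubgroup := by
    refine (IntermediateField.mem_fixedField_iff _ _).mpr fun τ hτ ↦ hy τ ?_
    haveI : NeZero p := ⟨hp.out.ne_zero⟩
    have hζ := hz.map_of_injective j.injective
    have h1 : τ (j z) = j z :=
      (IntermediateField.mem_fixingSubgroup_iff _ _).mp hτ _ ⟨z, rfl⟩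
    rw [apply_zeta hζ] at h1
    nth_rewrite 2 [← pow_one (j z)] at h1
    have h2 := hζ.pow_inj (ZMod.val_lt _) hp.out.one_lt h1
    refine Units.ext ?_
    rw [← ZMod.natCast_zmod_val (omegaU p τ : ZMod p), h2, Nat.cast_one, Units.val_one]
  rw [InfiniteGalois.fixedField_fixingSubgroup] at h
  exact h

/-- If every `ω²`-eigen element of `K` that is locally a `p`-th power, with ideal a `p`-th power,
is a `p`-th power, then the cocycle vanishes on `ker ω`. -/
theorem c_eq_zero_of_descent (hp3 : 3 ≤ p)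
    (hK : ∀ α : 𝓞 K, α ≠ 0 → ∀ I : Ideal (𝓞 K), Ideal.span {α} = I ^ p →
      (∀ σ : K ≃ₐ[ℚ] K, ∃ γ : K,
        σ (α : K) = (α : K) ^ ((chiK hz σ : ZMod p) ^ 2).val * γ ^ p) →
      (∀ (u : (𝓞 K)ˣ) (γ : K), (α : K) = ((u : 𝓞 K) : K) * γ ^ p →
        ∃ y : 𝓞 K, (u : 𝓞 K) - y ^ p ∈ Ideal.span {(hz.toInteger - 1) ^ 3}) →
      ∃ γ : K, (α : K) = γ ^ p)
    {τ : G_ℚ} (hτ : omegaU p τ = 1) : d.c τ = 0 := by
  haveI : NeZero p := ⟨hp.out.ne_zero⟩
  haveI := d.finiteDimensional_field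
  haveI := d.numberField_field
  let j : K →+* Ω := (IsAlgClosed.lift : K →ₐ[ℚ] Ω).toRingHom
  set ζ := j z
  have hζ : IsPrimitiveRoot ζ p := hz.map_of_injective j.injective
  have hfix : ∀ τ : G_ℚ, omegaU p τ = 1 → ∀ x, τ (j x) = j x := fun τ h x ↦ by
    obtain ⟨σ, hσ, hσx⟩ := exists_galois_of_apply hz j τ
    rw [← hσx, (chiK_bijective hz).1 (hσ.trans (h.trans (_root_.map_one _).symm)),
      AlgEquiv.one_apply]
  have hjmem : ∀ x, j x ∈ d.field := fun x ↦
    (IntermediateField.mem_fixedField_iff _ _).mpr fun f hf ↦ hfix f hf.1 x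
  letI : Algebra K d.field := (RingHom.codRestrict j d.field.toSubfield hjmem).toAlgebra
  have hjalg : ∀ x : K, ((algebraMap K d.field x : d.field) : Ω) = j x := fun x ↦ rfl
  obtain ⟨β, hβ0, hβint, hβ⟩ := d.exists_kummer_gen hζ
  have hζpow : ∀ a : ℕ, (ζ ^ a) ^ p = 1 := fun a ↦ by
    rw [← pow_mul, mul_comm, pow_mul, hζ.pow_eq_one, one_pow]
  obtain ⟨a, ha⟩ := exists_eq_of_fixed hz j (y := (β : Ω) ^ p) fun τ hτ ↦ by
    rw [map_pow, hβ τ hτ, mul_pow, hζpow, one_mul]
  have haE : algebraMap K d.field a = β ^ p := Subtype.ext (by rw [hjalg, ha]; rfl)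
  have haint : IsIntegral ℤ a :=
    (isIntegral_algHom_iff (IsScalarTower.toAlgHom ℤ K d.field)
      (algebraMap K d.field).injective).mp (by
        show IsIntegral ℤ (algebraMap K d.field a)
        rw [haE]; exact hβint.pow p)
  obtain ⟨α, rfl⟩ : ∃ α : 𝓞 K, (α : K) = a := ⟨⟨a, haint⟩, rfl⟩
  have hα0 : α ≠ 0 := by
    rintro rfl
    rw [RingOfIntegers.coe_eq_algebraMap, _root_.map_zero, _root_.map_zero] at haE
    exact pow_ne_zero p hβ0 haE.symm
  -- the eigen property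
  have heig : ∀ σ : K ≃ₐ[ℚ] K, ∃ γ : K,
      σ (α : K) = (α : K) ^ ((chiK hz σ : ZMod p) ^ 2).val * γ ^ p := by
    intro σ
    obtain ⟨g, hg⟩ : ∃ g : G_ℚ, ∀ x, g (j x) = j (σ x) := by
      letI : Algebra K Ω := j.toAlgebra
      haveI : IsScalarTower ℚ K Ω := IsScalarTower.of_algebraMap_eq' (Subsingleton.elim _ _)
      exact ⟨σ.liftNormal Ω, σ.liftNormal_commutes Ω⟩
    have hgω : omegaU p g = chiK hz σ := by
      refine Units.ext (ZMod.val_injective p (hζ.pow_inj (ZMod.val_lt _) (ZMod.val_lt _) ?_))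
      rw [← apply_zeta hζ, hg, apply_eq_pow_chiK hz, map_pow]
    set n := ((chiK hz σ : ZMod p) ^ 2).val with hn
    have hβΩ : (β : Ω) ≠ 0 := fun h ↦ hβ0 (Subtype.ext h)
    obtain ⟨γ, hγ⟩ := exists_eq_of_fixed hz j (y := g (β : Ω) / (β : Ω) ^ n) fun τ hτ ↦ by
      have h1 : omegaU p (g⁻¹ * τ * g) = 1 := by
        rw [_root_.map_mul, _root_.map_mul, hτ, mul_one, map_inv, inv_mul_cancel]
      have h2 : τ (g (β : Ω)) = ζ ^ (n * (d.c τ).val) * g (β : Ω) := by
        calc τ (g (β : Ω)) = g ((g⁻¹ * τ * g) (β : Ω)) := by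
              rw [← AlgEquiv.mul_apply g, mul_assoc g⁻¹, mul_inv_cancel_left, AlgEquiv.mul_apply]
          _ = _ := by
            rw [hβ _ h1, _root_.map_mul, map_pow, d.conj_formula g τ hτ, apply_zeta hζ,
              ← pow_mul, hgω]
            congr 1
            rw [pow_eq_pow_mod _ hζ.pow_eq_one, pow_eq_pow_mod (n * _) hζ.pow_eq_one]
            congr 1
            rw [← ZMod.natCast_eq_natCast_iff']
            simp only [Nat.cast_mul, ZMod.natCast_zmod_val, hn]
            ring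
      rw [map_div₀, map_pow, h2, hβ τ hτ, mul_pow, ← pow_mul, mul_comm n,
        mul_div_mul_left _ _ (pow_ne_zero _ (hζ.ne_zero hp.out.ne_zero))]
    refine ⟨γ, j.injective ?_⟩
    rw [← hg, ha, _root_.map_mul, map_pow, map_pow, map_pow, ha, hγ, div_pow, ← pow_mul,
      ← pow_mul, mul_comm p, mul_div_cancel₀ _ (pow_ne_zero _ hβΩ)]
  -- ramification
  let ι := algebraMap (𝓞 K) (𝓞 d.field)
  obtain ⟨B₀, hB⟩ : ∃ B₀ : 𝓞 d.field, ι α = B₀ ^ p := ⟨⟨β, hβint⟩, RingOfIntegers.ext haE⟩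
  have hexist : ∀ P : Ideal (𝓞 K), P.IsPrime → P ≠ ⊥ → ∃ W : Ideal (𝓞 d.field),
      W.IsPrime ∧ W ≠ ⊥ ∧ W.LiesOver P := fun P hP hP0 ↦ by
    haveI : P.IsMaximal := hP.isMaximal hP0
    obtain ⟨W, hW1, hW2⟩ := Ideal.exists_maximal_ideal_liesOver_of_isIntegral (S := 𝓞 d.field) P
    exact ⟨W, hW1.isPrime, Ideal.ne_bot_of_liesOver_of_ne_bot hP0 W, hW2⟩
  have hideal : ∀ P : Ideal (𝓞 K), P.IsPrime → P ≠ ⊥ → p ∣ cnt P (Ideal.span {α}) := by
    intro P hP hP0
    obtain ⟨W, hW, hW0, hWP⟩ := hexist P hP hP0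
    haveI := hWP
    haveI := hW
    have h := cnt_map (w := W) hP hP0 hW (I := Ideal.span {α})
      (by rwa [ne_eq, Ideal.span_singleton_eq_bot])
    rw [Ideal.map_span, Set.image_singleton] at h
    change cnt W (Ideal.span {ι α}) = _ at h
    rw [hB, ← Ideal.span_singleton_pow, cnt_pow] at h
    refine ((hp.out.dvd_mul).mp ⟨_, h.symm⟩).resolve_left fun hd ↦ ?_
    have h1 := Nat.le_of_dvd (Ideal.ramificationIdx_pos W (𝓞 K)) hd
    have h2 : W.ramificationIdx (𝓞 K) ≤ W.ramificationIdx ℤ :=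
      Nat.le_of_dvd (Ideal.ramificationIdx_pos W ℤ) ⟨P.ramificationIdx ℤ, by
        rw [mul_comm, ← Ideal.ramificationIdx_tower P W]⟩
    have := d.ramificationIdx_le W hW0
    omega
  have hspan : Ideal.span {α} ≠ ⊥ := by rwa [ne_eq, Ideal.span_singleton_eq_bot]
  obtain ⟨I, hI⟩ : ∃ I : Ideal (𝓞 K), Ideal.span {α} = I ^ p := by
    let T := (UniqueFactorizationMonoid.normalizedFactors (Ideal.span {α})).toFinset
    refine ⟨∏ P ∈ T, P ^ (cnt P (Ideal.span {α}) / p), ?_⟩
    rw [← Finset.prod_pow]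
    conv_lhs => rw [← Ideal.prod_normalizedFactors_eq_self hspan, Finset.prod_multiset_count]
    refine Finset.prod_congr rfl fun P hP ↦ ?_
    have hP' := UniqueFactorizationMonoid.prime_of_normalized_factor P (Multiset.mem_toFinset.mp hP)
    rw [← pow_mul, Nat.div_mul_cancel (hideal P (Ideal.isPrime_of_prime hP') hP'.ne_zero)]
    rfl
  -- the local condition
  have hloc : ∀ (u : (𝓞 K)ˣ) (γ : K), (α : K) = ((u : 𝓞 K) : K) * γ ^ p →
      ∃ y : 𝓞 K, (u : 𝓞 K) - y ^ p ∈ Ideal.span {(hz.toInteger - 1) ^ 3} := by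
    intro u γ hu
    have hγ0 : γ ≠ 0 := fun h ↦ hα0 (RingOfIntegers.coe_eq_zero_iff.mp (hu.trans (by
      rw [h, zero_pow hp.out.ne_zero, mul_zero])))
    set b : d.field := β / algebraMap K d.field γ with hb
    have hbp : b ^ p = algebraMap K d.field ((u : 𝓞 K) : K) := by
      rw [hb, div_pow, ← haE, hu, _root_.map_mul, map_pow,
        mul_div_cancel_right₀ _ (pow_ne_zero _ (by simpa using hγ0))]
    have hbint : IsIntegral ℤ b := IsIntegral.of_pow hp.out.pos (by
      rw [hbp]; exact (u : 𝓞 K).2.map (IsScalarTower.toAlgHom ℤ K d.field))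
    obtain ⟨B, hB'⟩ : ∃ B : 𝓞 d.field, B ^ p = ι u := ⟨⟨b, hbint⟩, RingOfIntegers.ext hbp⟩
    set π := hz.toInteger - 1
    have hπ : Prime π := hz.zeta_sub_one_prime'
    set P := Ideal.span {π}
    have hP : P.IsPrime := (Ideal.span_singleton_prime hπ.ne_zero).mpr hπ
    have hP0 : P ≠ ⊥ := by rw [ne_eq, Ideal.span_singleton_eq_bot]; exact hπ.ne_zero
    obtain ⟨W, hW, hW0, hWP⟩ := hexist P hP hP0
    haveI := hWP
    haveI := hW
    have hp0 : Ideal.span {(p : 𝓞 K)} = P ^ (p - 1) := by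
      rw [Ideal.span_singleton_pow, Ideal.span_singleton_eq_span_singleton]
      exact (IsCyclotomicExtension.Rat.associated_zeta_sub_one_pow_prime p hz).symm
    have hpW : (p : 𝓞 d.field) ∈ W ^ (p - 1) := by
      have h : (Ideal.span {(p : 𝓞 K)}).map ι ≤ W ^ (p - 1) := by
        rw [hp0, Ideal.map_pow]
        exact Ideal.pow_right_mono (Ideal.map_le_of_le_comap (W.over_def P).le) _
      rw [Ideal.map_span, Set.image_singleton, map_natCast] at h
      exact h (Ideal.mem_span_singleton_self _)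
    have hpW1 : (p : 𝓞 d.field) ∈ W := Ideal.pow_le_self (by omega) hpW
    have hcnt : W.ramificationIdx (𝓞 K) = 1 := by
      have h1 := cnt_map (w := W) hP hP0 hW (I := Ideal.span {(p : 𝓞 K)})
        (by rw [hp0]; exact pow_ne_zero _ hP0)
      rw [hp0, cnt_pow, cnt_self hP hP0, mul_one, ← hp0, Ideal.map_span, Set.image_singleton,
        map_natCast] at h1
      have hpprime : Prime (p : ℤ) := Nat.prime_iff_prime_int.mp hp.out
      have hpI : (Ideal.span {(p : ℤ)}).IsPrime :=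
        (Ideal.span_singleton_prime hpprime.ne_zero).mpr hpprime
      have hpI0 : Ideal.span {(p : ℤ)} ≠ ⊥ := by
        rw [ne_eq, Ideal.span_singleton_eq_bot]; exact hpprime.ne_zero
      haveI : W.LiesOver (Ideal.span {(p : ℤ)}) := by
        refine ⟨(hpI.isMaximal hpI0).eq_of_le (Ideal.IsPrime.ne_top inferInstance) ?_⟩
        rw [Ideal.span_singleton_le_iff_mem]
        show algebraMap ℤ (𝓞 d.field) (p : ℤ) ∈ W
        simpa using hpW1
      have h2 := cnt_map (w := W) hpI hpI0 hW (I := Ideal.span {(p : ℤ)}) hpI0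
      rw [cnt_self hpI hpI0, mul_one, Ideal.map_span, Set.image_singleton, map_natCast] at h2
      have h3 := d.ramificationIdx_le W hW0
      rw [← h2, h1] at h3
      have h4 : 1 ≤ W.ramificationIdx (𝓞 K) := Ideal.ramificationIdx_pos W (𝓞 K)
      have h5 : W.ramificationIdx (𝓞 K) ≤ 1 :=
        Nat.le_of_mul_le_mul_right (by rw [one_mul]; exact h3) (by omega : 0 < p - 1)
      omega
    obtain ⟨k, hk⟩ := exists_natCast_sub_mem hz (u : 𝓞 K)
    refine ⟨k, ?_⟩
    have hkp : (u : 𝓞 K) - (k : 𝓞 K) ^ p ∈ P := by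
      obtain ⟨q, hq⟩ : (p : ℤ) ∣ (k : ℤ) - (k : ℤ) ^ p := by
        rw [← ZMod.intCast_zmod_eq_zero_iff_dvd]
        push_cast
        rw [ZMod.pow_card, sub_self]
      have hq' : (k : 𝓞 K) - (k : 𝓞 K) ^ p = (p : 𝓞 K) * (q : 𝓞 K) := by
        have := congrArg (Int.cast : ℤ → 𝓞 K) hq
        push_cast at this
        exact this
      have hpP : (p : 𝓞 K) ∈ P := Ideal.pow_le_self (by omega : p - 1 ≠ 0)
        (hp0 ▸ Ideal.mem_span_singleton_self _)
      have := P.add_mem hk (hq' ▸ P.mul_mem_right (q : 𝓞 K) hpP)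
      simpa using this
    set x := (u : 𝓞 K) - (k : 𝓞 K) ^ p
    have hιx : ι x = B ^ p - (k : 𝓞 d.field) ^ p := by
      simp only [x, map_sub, map_pow, map_natCast, hB']
    obtain ⟨r, hr⟩ := exists_add_pow_prime_eq hp.out (k : 𝓞 d.field) (B - k)
    rw [add_sub_cancel] at hr
    have hxW : ι x ∈ W := Ideal.mem_comap.mp ((W.over_def P).le hkp)
    have hd : B - k ∈ W := by
      refine hW.mem_of_pow_mem p ?_
      have : (B - (k : 𝓞 d.field)) ^ p =
          ι x - (p : 𝓞 d.field) * (k : 𝓞 d.field) * (B - k) * r := by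
        rw [hιx, hr]; ring
      rw [this]
      exact W.sub_mem hxW (W.mul_mem_right _ (W.mul_mem_right _ (W.mul_mem_right _ hpW1)))
    have hx3 : ι x ∈ W ^ 3 := by
      have : ι x = (B - (k : 𝓞 d.field)) ^ p +
          (p : 𝓞 d.field) * (B - k) * ((k : 𝓞 d.field) * r) := by
        rw [hιx, hr]; ring
      rw [this]
      refine add_mem (Ideal.pow_le_pow_right hp3 (Ideal.pow_mem_pow hd p)) ?_
      refine Ideal.mul_mem_right _ _ (Ideal.pow_le_pow_right (by omega : 3 ≤ p - 1 + 1) ?_)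
      rw [pow_succ]
      exact Ideal.mul_mem_mul hpW hd
    rw [← Ideal.span_singleton_pow]
    rcases eq_or_ne x 0 with hx0 | hx0
    · rw [hx0]; exact Submodule.zero_mem _
    · have h := cnt_map (w := W) hP hP0 hW (I := Ideal.span {x})
        (by rwa [ne_eq, Ideal.span_singleton_eq_bot])
      rw [Ideal.map_span, Set.image_singleton, hcnt, one_mul] at h
      change cnt W (Ideal.span {ι x}) = _ at h
      rw [mem_pow_iff_cnt hP hP0 hx0, ← h, ← mem_pow_iff_cnt hW hW0
        ((map_ne_zero_iff ι (FaithfulSMul.algebraMap_injective _ _)).mpr hx0)]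
      exact hx3
  obtain ⟨γ, hγ⟩ := hK α hα0 I hI heig hloc
  have hγ0 : j γ ≠ 0 := fun h ↦ hα0 (RingOfIntegers.coe_eq_zero_iff.mp (hγ.trans (by
    rw [j.injective (h.trans (_root_.map_zero j).symm), zero_pow hp.out.ne_zero])))
  obtain ⟨i, -, hi⟩ := hζ.eq_pow_of_pow_eq_one (show ((β : Ω) / j γ) ^ p = 1 by
    rw [div_pow, ← ha, hγ, map_pow, div_self (pow_ne_zero _ hγ0)])
  rw [eq_div_iff hγ0] at hi
  have h := hβ τ hτ
  rw [← hi, _root_.map_mul, map_pow, hfix τ hτ, hfix τ hτ, hi] at h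
  have hβΩ : (β : Ω) ≠ 0 := fun h ↦ hβ0 (Subtype.ext h)
  have h1 : ζ ^ (d.c τ).val = ζ ^ 0 := by
    rw [pow_zero]
    exact (mul_eq_right₀ hβΩ).mp h.symm
  have h2 := hζ.pow_inj (ZMod.val_lt _) hp.out.pos h1
  rw [← ZMod.natCast_zmod_val (d.c τ), h2, Nat.cast_zero]

end Descent

end SplitCocycle

end Fermat.Agent.ExtVanishing

end
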