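import Fermat.Agent.ExtVanishing.CycloSetup
import Mathlib.LinearAlgebra.Eigenspace.Zero
import Mathlib.LinearAlgebra.Matrix.Gershgorin
import Mathlib.NumberTheory.NumberField.Cyclotomic.Embeddings
import Mathlib.NumberTheory.NumberField.InfinitePlace.Ramification
import Mathlib.NumberTheory.NumberField.Units.DirichletTheorem
import Mathlib.FieldTheory.Separable

/-!
# Eigenspaces in the units of a cyclotomic field modulo `p`-th powers

The units modulo torsion form a lattice on which a generator `τ` of the Galois group has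
characteristic polynomial `1 + X + ⋯ + X^((p-3)/2)`; hence every eigenspace modulo `p` has
dimension at most one.
-/

set_option autoImplicit false
set_option linter.style.haveILetI false
set_option linter.unusedSectionVars false

namespace Fermat.Agent.ExtVanishing

open NumberField NumberField.InfinitePlace NumberField.Units Module Polynomial
open scoped Classical

noncomputable section

variable {K : Type} [Field K] [NumberField K] {p : ℕ} [hp : Fact p.Prime]
  [IsCyclotomicExtension {p} ℚ K] {z : K} (hz : IsPrimitiveRoot z p)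

/-- An instance shortcut, needed to find the module structure on the units modulo torsion. -/
local instance instCommGroupUnitsCyclo : CommGroup (𝓞 K)ˣ := inferInstance

/-- The action of an automorphism on the units. -/
def unitMap (σ : K ≃ₐ[ℚ] K) : (𝓞 K)ˣ →* (𝓞 K)ˣ :=
  Units.map (MulSemiringAction.toRingHom (K ≃ₐ[ℚ] K) (𝓞 K) σ).toMonoidHom

lemma unitMap_coe (σ : K ≃ₐ[ℚ] K) (u : (𝓞 K)ˣ) :
    ((unitMap σ u : 𝓞 K) : K) = σ ((u : 𝓞 K) : K) := rfl

lemma unitMap_mul (σ τ : K ≃ₐ[ℚ] K) (u : (𝓞 K)ˣ) :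
    unitMap (σ * τ) u = unitMap σ (unitMap τ u) :=
  Units.ext (mul_smul σ τ (u : 𝓞 K))

lemma torsion_le_comap (σ : K ≃ₐ[ℚ] K) : torsion K ≤ (torsion K).comap (unitMap σ) := by
  intro u hu
  refine Subgroup.mem_comap.mpr ((mem_torsion K).mpr fun w ↦ ?_)
  exact (mem_torsion K).mp hu (w.comap (σ : K →+* K))

variable (K) in
/-- The units modulo torsion. -/
abbrev UnitLat : Type := Additive ((𝓞 K)ˣ ⧸ torsion K)

/-- The class of a unit in the lattice. -/
def toLat (u : (𝓞 K)ˣ) : UnitLat K := Additive.ofMul (QuotientGroup.mk u)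

lemma toLat_mul (u v : (𝓞 K)ˣ) : toLat (u * v) = toLat u + toLat v := rfl

lemma toLat_pow (u : (𝓞 K)ˣ) (n : ℕ) : toLat (u ^ n) = n • toLat u := rfl

lemma toLat_eq_iff {u v : (𝓞 K)ˣ} : toLat u = toLat v ↔ u⁻¹ * v ∈ torsion K :=
  QuotientGroup.eq

lemma toLat_surjective : Function.Surjective (toLat (K := K)) := fun x ↦ by
  obtain ⟨u, hu⟩ := QuotientGroup.mk_surjective (Additive.toMul x)
  exact ⟨u, congrArg Additive.ofMul hu⟩

/-- The action of an automorphism on the lattice. -/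
def latMap (σ : K ≃ₐ[ℚ] K) : UnitLat K →ₗ[ℤ] UnitLat K :=
  (MonoidHom.toAdditive (QuotientGroup.map _ _ (unitMap σ) (torsion_le_comap σ))).toIntLinearMap

lemma latMap_toLat (σ : K ≃ₐ[ℚ] K) (u : (𝓞 K)ˣ) : latMap σ (toLat u) = toLat (unitMap σ u) := rfl

lemma latMap_mul (σ τ : K ≃ₐ[ℚ] K) : latMap (σ * τ) = latMap σ * latMap τ := by
  refine LinearMap.ext fun x ↦ ?_
  obtain ⟨u, rfl⟩ := toLat_surjective x
  simp [Module.End.mul_apply, latMap_toLat, unitMap_mul]

lemma latMap_one : latMap (1 : K ≃ₐ[ℚ] K) = 1 := by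
  refine LinearMap.ext fun x ↦ ?_
  obtain ⟨u, rfl⟩ := toLat_surjective x
  rfl

lemma latMap_pow (σ : K ≃ₐ[ℚ] K) (n : ℕ) : latMap σ ^ n = latMap (σ ^ n) := by
  induction n with
  | zero => rw [pow_zero, pow_zero, latMap_one]
  | succ n ih => rw [pow_succ, pow_succ, ih, latMap_mul]

/-- The logarithm of the absolute value at `w` on the lattice. -/
def logAt (w : InfinitePlace K) : UnitLat K →+ ℝ :=
  MonoidHom.toAdditiveLeft (QuotientGroup.lift (torsion K)
    { toFun := fun u ↦ Multiplicative.ofAdd (Real.log (w ((u : 𝓞 K) : K)))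
      map_one' := by simp
      map_mul' := fun u v ↦ by
        rw [← ofAdd_add]
        congr 1
        simp only [Units.val_mul, map_mul]
        exact Real.log_mul (pos_at_place u w).ne' (pos_at_place v w).ne' }
    fun u hu ↦ by simp [(mem_torsion K).mp hu w])

lemma logAt_toLat (w : InfinitePlace K) (u : (𝓞 K)ˣ) :
    logAt w (toLat u) = Real.log (w ((u : 𝓞 K) : K)) := rfl

lemma eq_zero_of_logAt {x : UnitLat K} (h : ∀ w, logAt w x = 0) : x = 0 := by
  obtain ⟨u, rfl⟩ := toLat_surjective x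
  rw [show (0 : UnitLat K) = toLat 1 from rfl, toLat_eq_iff, mul_one]
  refine inv_mem ((mem_torsion K).mpr fun w ↦ ?_)
  exact Real.eq_one_of_pos_of_log_eq_zero (pos_at_place u w) (by rw [← logAt_toLat]; exact h w)

lemma sum_logAt_eq_zero [IsTotallyComplex K] (x : UnitLat K) :
    ∑ w : InfinitePlace K, logAt w x = 0 := by
  obtain ⟨u, rfl⟩ := toLat_surjective x
  have h := congrArg Real.log (prod_eq_abs_norm ((u : 𝓞 K) : K))
  rw [Units.norm, Rat.cast_one, Real.log_one, Real.log_prod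
    (fun w _ ↦ pow_ne_zero _ (pos_at_place u w).ne')] at h
  have h2 : ∀ w : InfinitePlace K, mult w = 2 := fun w ↦
    mult_isComplex ⟨w, IsTotallyComplex.isComplex w⟩
  simp only [Real.log_pow, h2, Nat.cast_ofNat, ← Finset.mul_sum, mul_eq_zero,
    OfNat.ofNat_ne_zero, false_or] at h
  exact h

variable {τ : K ≃ₐ[ℚ] K}

section Generator

variable (hp3 : 3 ≤ p) (hτ : ∀ x, x ∈ Subgroup.zpowers (chiK hz τ))
include hz hp3 hτ

lemma orderOf_tau : orderOf τ = 2 * ((p - 1) / 2) := by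
  have hodd : Odd p := hp.out.odd_of_ne_two (by omega)
  rw [← orderOf_injective (chiK hz) (chiK_bijective hz).1, orderOf_eq_card_of_forall_mem_zpowers hτ,
    Nat.card_eq_fintype_card, ZMod.card_units]
  obtain ⟨k, hk⟩ := hodd
  omega

lemma place_pow_half (w : InfinitePlace K) (x : K) : w ((τ ^ ((p - 1) / 2)) x) = w x := by
  set σ₀ := τ ^ ((p - 1) / 2) with hσ₀
  have hord := orderOf_tau hz hp3 hτ
  have hneg : (chiK hz σ₀ : ZMod p) = -1 := by
    have h1 : σ₀ ^ 2 = 1 := by rw [hσ₀, ← pow_mul, mul_comm, ← hord, pow_orderOf_eq_one]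
    have h2 : (chiK hz σ₀ : ZMod p) ^ 2 = 1 := by
      rw [← Units.val_pow_eq_pow_val, ← map_pow, h1, map_one, Units.val_one]
    refine (sq_eq_one_iff.mp h2).resolve_left fun h ↦ ?_
    have h3 : σ₀ = 1 := (chiK_bijective hz).1 (Units.ext (by rw [h, map_one, Units.val_one]))
    exact pow_ne_one_of_lt_orderOf (by omega) (by omega) h3
  have hconj : (w.embedding).comp (σ₀ : K →+* K) = ComplexEmbedding.conjugate w.embedding := by
    haveI : NeZero p := ⟨hp.out.ne_zero⟩
    have key : ((w.embedding).comp (σ₀ : K →+* K)).toRatAlgHom =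
        (ComplexEmbedding.conjugate w.embedding).toRatAlgHom := by
      refine (hz.powerBasis ℚ).algHom_ext ?_
      simp only [IsPrimitiveRoot.powerBasis_gen, RingHom.toRatAlgHom_apply, RingHom.comp_apply,
        ComplexEmbedding.conjugate_coe_eq, RingHom.coe_coe]
      have hn : ‖w.embedding z‖ = 1 :=
        IsPrimitiveRoot.norm'_eq_one (hz.map_of_injective w.embedding.injective) hp.out.ne_zero
      rw [apply_eq_pow_chiK hz, hneg, map_pow, ← Complex.inv_eq_conj hn]
      refine eq_inv_of_mul_eq_one_left ?_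
      rw [← pow_succ, ← map_pow]
      have : (-1 : ZMod p).val + 1 = p := by
        obtain ⟨n, rfl⟩ : ∃ n, p = n + 1 := ⟨p - 1, by omega⟩
        rw [ZMod.val_neg_one]
      rw [this, hz.pow_eq_one, map_one]
    exact RingHom.ext fun y ↦ AlgHom.congr_fun key y
  have := RingHom.congr_fun hconj x
  rw [← norm_embedding_eq w (σ₀ x), ← norm_embedding_eq w x]
  rw [RingHom.comp_apply] at this
  exact (congrArg _ this).trans (Complex.norm_conj _)

lemma card_places : Fintype.card (InfinitePlace K) = (p - 1) / 2 := by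
  haveI : NeZero p := ⟨hp.out.ne_zero⟩
  rw [card_eq_nrRealPlaces_add_nrComplexPlaces,
    IsCyclotomicExtension.Rat.nrRealPlaces_eq_zero (n := p) K (by omega),
    IsCyclotomicExtension.Rat.nrComplexPlaces_eq_totient_div_two p, Nat.totient_prime hp.out,
    zero_add]

lemma places_bijective (w : InfinitePlace K) :
    Function.Bijective fun j : Fin ((p - 1) / 2) ↦
      w.comap ((τ ^ (j : ℕ) : K ≃ₐ[ℚ] K) : K →+* K) := by
  haveI : NeZero p := ⟨hp.out.ne_zero⟩
  haveI : IsGalois ℚ K := isGalois_cyclo (p := p)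
  refine (Fintype.bijective_iff_surjective_and_card _).mpr
    ⟨fun w' ↦ ?_, by rw [Fintype.card_fin, card_places hz hp3 hτ]⟩
  obtain ⟨σ, hσ⟩ := exists_smul_eq_of_comap_eq (k := ℚ) (w := w) (w' := w') (Subsingleton.elim _ _)
  obtain ⟨j, hj⟩ : ∃ j : ℕ, τ ^ j = σ⁻¹ := by
    obtain ⟨i, hi⟩ := Subgroup.mem_zpowers_iff.mp (hτ (chiK hz σ⁻¹))
    exact Submonoid.mem_powers_iff _ _ |>.mp
      ((isOfFinOrder_of_finite τ).mem_powers_iff_mem_zpowers.mpr
        ⟨i, (chiK_bijective hz).1 (by rw [map_zpow]; exact hi)⟩)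
  set m := (p - 1) / 2 with hm
  have hm0 : 0 < m := by omega
  refine ⟨⟨j % m, Nat.mod_lt _ hm0⟩, ?_⟩
  rw [← hσ]
  refine InfinitePlace.ext _ _ fun x ↦ ?_
  rw [comap_apply, InfinitePlace.smul_apply]
  have hsymm : σ.symm x = (τ ^ (j % m)) (((τ ^ m) ^ (j / m)) x) := by
    rw [← AlgEquiv.mul_apply, ← pow_mul, ← pow_add, Nat.mod_add_div, hj]
    rfl
  have hinv : ∀ (k : ℕ) (y : K), w (((τ ^ m) ^ k) y) = w y := fun k y ↦ by
    induction k generalizing y with
    | zero => rfl
    | succ k ih => rw [pow_succ', AlgEquiv.mul_apply, place_pow_half hz hp3 hτ, ih]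
  rw [hsymm, ← AlgEquiv.mul_apply, Commute.pow_pow (Commute.pow_right (Commute.refl τ) m),
    AlgEquiv.mul_apply, hinv]
  rfl

lemma sum_latMap_pow (x : UnitLat K) :
    ∑ j ∈ Finset.range ((p - 1) / 2), (latMap τ ^ j) x = 0 := by
  haveI : NeZero p := ⟨hp.out.ne_zero⟩
  haveI : IsTotallyComplex K := IsCyclotomicExtension.Rat.isTotallyComplex K (n := p) (by omega)
  refine eq_zero_of_logAt fun w ↦ ?_
  rw [map_sum, Finset.sum_range]
  obtain ⟨u, rfl⟩ := toLat_surjective x
  simp only [latMap_pow, latMap_toLat, logAt_toLat, unitMap_coe]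
  refine ((Equiv.ofBijective _ (places_bijective hz hp3 hτ w)).sum_comp
    (fun v : InfinitePlace K ↦ Real.log (v ((u : 𝓞 K) : K)))).trans ?_
  simpa only [logAt_toLat] using sum_logAt_eq_zero (toLat u)

lemma exists_independent :
    ∃ x : UnitLat K, ∀ c : Fin ((p - 1) / 2 - 1) → ℤ,
      ∑ j, c j • (latMap τ ^ (j : ℕ)) x = 0 → c = 0 := by
  haveI : NeZero p := ⟨hp.out.ne_zero⟩
  haveI : IsTotallyComplex K := IsCyclotomicExtension.Rat.isTotallyComplex K (n := p) (by omega)
  set m := (p - 1) / 2 with hm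
  obtain ⟨w₁⟩ : Nonempty (InfinitePlace K) := inferInstance
  obtain ⟨u, hu⟩ := dirichletUnitTheorem.exists_unit K w₁
  refine ⟨toLat u, fun c hc ↦ ?_⟩
  let A : Matrix (Fin (m - 1)) (Fin (m - 1)) ℝ := fun k j ↦
    logAt (w₁.comap ((τ ^ (m - k.1) : K ≃ₐ[ℚ] K) : K →+* K)) ((latMap τ ^ (j : ℕ)) (toLat u))
  have hval : ∀ (k j : ℕ), k < m → j < m →
      logAt (w₁.comap ((τ ^ (m - k) : K ≃ₐ[ℚ] K) : K →+* K)) ((latMap τ ^ j) (toLat u)) =
        Real.log (w₁.comap ((τ ^ ((m - k + j) % m) : K ≃ₐ[ℚ] K) : K →+* K) ((u : 𝓞 K) : K)) := by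
    intro k j hk hj
    rw [latMap_pow, latMap_toLat, logAt_toLat, comap_apply, comap_apply, unitMap_coe]
    simp only [RingHom.coe_coe]
    rw [← AlgEquiv.mul_apply, ← pow_add]
    rcases lt_or_ge (m - k + j) m with h | h
    · rw [Nat.mod_eq_of_lt h]
    · rw [Nat.mod_eq_sub_mod h, Nat.mod_eq_of_lt (show m - k + j - m < m by omega)]
      conv_lhs => rw [show m - k + j = m + (m - k + j - m) by omega, pow_add, AlgEquiv.mul_apply,
        hm, place_pow_half hz hp3 hτ]
  have hinj := (places_bijective hz hp3 hτ w₁).1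
  have hoff : ∀ k j, k < m → j < m → k ≠ j →
      logAt (w₁.comap ((τ ^ (m - k) : K ≃ₐ[ℚ] K) : K →+* K)) ((latMap τ ^ j) (toLat u)) < 0 := by
    intro k j hk hj hkj
    rw [hval k j hk hj]
    refine hu _ fun h ↦ ?_
    have hlt : (m - k + j) % m < m := Nat.mod_lt _ (by omega)
    have h0 : 0 < m := by omega
    have := hinj (a₁ := ⟨_, hlt⟩) (a₂ := ⟨0, h0⟩) (h.trans (by
      refine InfinitePlace.ext _ _ fun y ↦ ?_
      simp))
    simp only [Fin.mk.injEq] at this
    rcases lt_or_ge (m - k + j) m with h' | h'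
    · rw [Nat.mod_eq_of_lt h'] at this; omega
    · rw [Nat.mod_eq_sub_mod h', Nat.mod_eq_of_lt (show m - k + j - m < m by omega)] at this
      omega
  have hrow : ∀ k : Fin (m - 1), ∑ j ∈ Finset.univ.erase k, ‖A k j‖ < ‖A k k‖ := by
    intro k
    have hneg : ∀ j ∈ Finset.univ.erase k, A k j < 0 := fun j hj ↦
      hoff _ _ (by omega) (by omega) (Fin.val_ne_of_ne (Finset.ne_of_mem_erase hj).symm)
    have hlast : logAt (w₁.comap ((τ ^ (m - k.1) : K ≃ₐ[ℚ] K) : K →+* K))
        ((latMap τ ^ (m - 1)) (toLat u)) < 0 := hoff _ _ (by omega) (by omega) (by omega)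
    have hsum := congrArg (logAt (w₁.comap ((τ ^ (m - k.1) : K ≃ₐ[ℚ] K) : K →+* K)))
      (sum_latMap_pow hz hp3 hτ (toLat u))
    have hm1 : Finset.range m = Finset.range (m - 1 + 1) := by
      rw [Nat.sub_add_cancel]
      omega
    rw [map_sum, map_zero, ← hm, hm1, Finset.sum_range_succ, Finset.sum_range] at hsum
    have hsum' : A k k + ∑ j ∈ Finset.univ.erase k, A k j +
        logAt (w₁.comap ((τ ^ (m - k.1) : K ≃ₐ[ℚ] K) : K →+* K))
          ((latMap τ ^ (m - 1)) (toLat u)) = 0 := by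
      rw [Finset.add_sum_erase _ _ (Finset.mem_univ k)]
      exact hsum
    rw [Finset.sum_congr rfl fun j hj ↦ (Real.norm_eq_abs _).trans (abs_of_neg (hneg j hj)),
      Finset.sum_neg_distrib, Real.norm_eq_abs]
    linarith [le_abs_self (A k k)]
  have hdet := det_ne_zero_of_sum_row_lt_diag hrow
  have h0 : A.mulVec (fun j ↦ (c j : ℝ)) = 0 := by
    funext k
    have := congrArg (logAt (w₁.comap ((τ ^ (m - k.1) : K ≃ₐ[ℚ] K) : K →+* K))) hc
    rw [map_sum, map_zero] at this
    simp only [map_zsmul, zsmul_eq_mul] at this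
    rw [Pi.zero_apply, ← this, Matrix.mulVec, dotProduct]
    exact Finset.sum_congr rfl fun j _ ↦ mul_comm _ _
  funext j
  exact Int.cast_eq_zero.mp (congrFun (Matrix.eq_zero_of_mulVec_eq_zero hdet h0) j)

lemma charpoly_latMap :
    (latMap τ).charpoly = ∑ j ∈ Finset.range ((p - 1) / 2), (X : ℤ[X]) ^ j := by
  obtain ⟨x, hx⟩ := exists_independent hz hp3 hτ
  set m := (p - 1) / 2 with hm
  have hm0 : 0 < m := by omega
  have hrank : finrank ℤ (UnitLat K) = m - 1 := by
    rw [finrank_modTorsion, Units.rank, card_places hz hp3 hτ]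
  set P := (latMap τ).charpoly
  set Q := ∑ j ∈ Finset.range m, (X : ℤ[X]) ^ j
  have hPdeg : P.natDegree = m - 1 := by rw [LinearMap.charpoly_natDegree, hrank]
  have hPm : P.Monic := LinearMap.charpoly_monic _
  have hhigh : ∀ i, m - 1 ≤ i → (Q - P).coeff i = 0 := by
    intro i hi
    rw [Polynomial.coeff_sub]
    have hQ : Q.coeff i = if i < m then 1 else 0 := by
      simp [Q, Polynomial.coeff_X_pow, Polynomial.finsetSum_coeff]
    rw [hQ]
    rcases eq_or_lt_of_le hi with rfl | hlt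
    · rw [if_pos (by omega), ← hPdeg, hPm.coeff_natDegree, sub_self]
    · rw [if_neg (by omega), Polynomial.coeff_eq_zero_of_natDegree_lt (by omega), sub_self]
  have hzero : aeval (latMap τ) (Q - P) x = 0 := by
    rw [map_sub, LinearMap.aeval_self_charpoly, sub_zero]
    simp only [Q, map_sum, map_pow, aeval_X, LinearMap.coe_sum, Finset.sum_apply]
    exact sum_latMap_pow hz hp3 hτ x
  have hc := hx (fun j ↦ (Q - P).coeff j) (by
    rw [Polynomial.aeval_eq_sum_range' (n := m - 1 + 1) (by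
      refine Nat.lt_succ_of_le (Polynomial.natDegree_le_iff_coeff_eq_zero.mpr fun i hi ↦ hhigh i hi.le)),
      LinearMap.coe_sum, Finset.sum_apply, Finset.sum_range_succ, hhigh _ le_rfl, zero_smul,
      LinearMap.zero_apply, add_zero, Finset.sum_range] at hzero
    exact hzero)
  refine (sub_eq_zero.mp (Polynomial.ext fun i ↦ ?_)).symm
  rw [Polynomial.coeff_zero]
  rcases lt_or_ge i (m - 1) with h | h
  · exact congrFun hc ⟨i, h⟩
  · exact hhigh i h

/-- The eigenspace of `τ` in the units modulo torsion and `p`-th powers is at most a line. -/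
theorem unit_eigen_dependent {n : ℕ} {u v : (𝓞 K)ˣ}
    (hu : ∃ δ, unitMap τ u = u ^ n * δ ^ p) (hv : ∃ δ, unitMap τ v = v ^ n * δ ^ p)
    (hv0 : ¬ ∃ t δ, t ∈ torsion K ∧ v = t * δ ^ p) :
    ∃ (i : ℕ) (t δ : (𝓞 K)ˣ), t ∈ torsion K ∧ u = v ^ i * t * δ ^ p := by
  let b := basisModTorsion K
  set T := latMap τ
  let A := LinearMap.toMatrix b b T
  let Ab : Matrix (Fin (rank K)) (Fin (rank K)) (ZMod p) := A.map (Int.castRingHom (ZMod p))
  let ρ : UnitLat K →+ (Fin (rank K) → ZMod p) :=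
    { toFun := fun x i ↦ (b.repr x i : ZMod p)
      map_zero' := by funext i; simp
      map_add' := fun x y ↦ by funext i; simp }
  have hρT : ∀ x, ρ (T x) = Ab.mulVec (ρ x) := by
    intro x
    funext i
    have h := congrFun (LinearMap.toMatrix_mulVec_repr b b T x) i
    show ((b.repr (T x) i : ℤ) : ZMod p) = _
    rw [← h]
    simp [Ab, A, ρ, Matrix.mulVec, dotProduct]
  have hker : ∀ x, ρ x = 0 → ∃ y, x = p • y := by
    intro x hx
    have hd : ∀ i, (p : ℤ) ∣ b.repr x i := fun i ↦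
      (ZMod.intCast_zmod_eq_zero_iff_dvd _ p).mp (congrFun hx i)
    refine ⟨∑ i, (b.repr x i / p) • b i, ?_⟩
    rw [Finset.smul_sum]
    conv_lhs => rw [← b.sum_repr x]
    refine Finset.sum_congr rfl fun i _ ↦ ?_
    rw [← natCast_zsmul, smul_smul, Int.mul_ediv_cancel' (hd i)]
  have heig : ∀ w : (𝓞 K)ˣ, (∃ δ, unitMap τ w = w ^ n * δ ^ p) →
      ρ (toLat w) ∈ Module.End.eigenspace (Matrix.toLin' Ab) (n : ZMod p) := by
    rintro w ⟨δ, hδ⟩
    rw [Module.End.mem_eigenspace_iff, Matrix.toLin'_apply, ← hρT, latMap_toLat, hδ, toLat_mul,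
      toLat_pow, toLat_pow, map_add, map_nsmul, map_nsmul]
    funext i
    simp
  set E := Module.End.eigenspace (Matrix.toLin' Ab) (n : ZMod p)
  have hE : finrank (ZMod p) E ≤ 1 := by
    refine (LinearMap.finrank_eigenspace_le _ _).trans ?_
    have hcp : (Matrix.toLin' Ab).charpoly =
        (∑ j ∈ Finset.range ((p - 1) / 2), (X : (ZMod p)[X]) ^ j) := by
      rw [Matrix.charpoly_toLin', Matrix.charpoly_map, LinearMap.charpoly_toMatrix,
        charpoly_latMap hz hp3 hτ]
      simp [Polynomial.map_sum]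
    rw [hcp]
    refine Polynomial.rootMultiplicity_le_one_of_separable ?_ _
    have hsep : ((X : (ZMod p)[X]) ^ ((p - 1) / 2) - 1).Separable := by
      refine (Polynomial.X_pow_sub_one_separable_iff).mpr ?_
      rw [ne_eq, ZMod.natCast_eq_zero_iff]
      intro h
      have := Nat.le_of_dvd (by omega) h
      omega
    rw [← geom_sum_mul] at hsep
    exact hsep.of_mul_left
  have hv' : (⟨ρ (toLat v), heig v hv⟩ : E) ≠ 0 := by
    intro h
    obtain ⟨y, hy⟩ := hker _ (congrArg Subtype.val h)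
    obtain ⟨δ, rfl⟩ := toLat_surjective y
    rw [← toLat_pow, eq_comm, toLat_eq_iff] at hy
    exact hv0 ⟨(δ ^ p)⁻¹ * v, δ, hy, by rw [mul_comm ((δ ^ p)⁻¹), inv_mul_cancel_right]⟩
  obtain ⟨c, hc⟩ := exists_smul_eq_of_finrank_eq_one
    (le_antisymm hE (Nat.succ_le_of_lt (Module.finrank_pos_iff_exists_ne_zero.mpr ⟨_, hv'⟩))) hv'
    (⟨ρ (toLat u), heig u hu⟩ : E)
  have hc' : ρ (toLat u) - c.val • ρ (toLat v) = 0 := by
    rw [sub_eq_zero]
    have := congrArg Subtype.val hc
    simp only [Submodule.coe_smul] at this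
    rw [← this, ← Nat.cast_smul_eq_nsmul (ZMod p), ZMod.natCast_zmod_val]
  obtain ⟨y, hy⟩ := hker (toLat u - c.val • toLat v) (by rw [map_sub, map_nsmul, hc'])
  obtain ⟨δ, rfl⟩ := toLat_surjective y
  rw [sub_eq_iff_eq_add, ← toLat_pow, ← toLat_pow, ← toLat_mul, eq_comm, toLat_eq_iff] at hy
  refine ⟨c.val, (δ ^ p * v ^ c.val)⁻¹ * u, δ, hy, ?_⟩
  rw [mul_inv_rev]
  group
  simp [mul_comm, mul_left_comm]

end Generator

end

end Fermat.Agent.ExtVanishing
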