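import Fermat.Agent.ExtVanishing.EigenKill
import Fermat.Agent.ExtVanishing.UnitEigen
import Mathlib.NumberTheory.Cyclotomic.Basic

/-!
# Descent in `ℚ(ζ)`: an `ω²`-eigen element that is locally a `p`-th power is a `p`-th power
-/

set_option autoImplicit false
set_option linter.style.haveILetI false
set_option linter.unusedSectionVars false

namespace Fermat.Agent.ExtVanishing

open NumberField NumberField.Units
open scoped Pointwise nonZeroDivisors Classical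

noncomputable section

variable {K : Type} [Field K] [NumberField K] {p : ℕ} [hp : Fact p.Prime]
  [IsCyclotomicExtension {p} ℚ K] {z : K} (hz : IsPrimitiveRoot z p)

/-- The cyclotomic unit as a unit. -/
def cycU : (𝓞 K)ˣ := (isUnit_cycUnit hz.toInteger_isPrimitiveRoot).unit

lemma cycU_val : (cycU hz : 𝓞 K) = cycUnit p hz.toInteger := rfl

/-- The geometric sum `1 + ζ + ⋯ + ζ^(b-1)` as a unit. -/
def geomU (b : (ZMod p)ˣ) : (𝓞 K)ˣ :=
  (hz.toInteger_isPrimitiveRoot.geom_sum_isUnit hp.out.two_le (ZMod.val_coe_unit_coprime b)).unit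

lemma geomU_mul (b : (ZMod p)ˣ) :
    (geomU hz b : 𝓞 K) * (hz.toInteger - 1) = hz.toInteger ^ (b : ZMod p).val - 1 :=
  geom_sum_mul _ _

lemma cycU_eq_prod : cycU hz = ∏ b : (ZMod p)ˣ, geomU hz b ^ expo b :=
  Units.ext (by rw [Units.coe_prod]; rfl)

lemma unitMap_geomU (σ : K ≃ₐ[ℚ] K) (b : (ZMod p)ˣ) :
    unitMap σ (geomU hz b) * geomU hz (chiK hz σ) = geomU hz (chiK hz σ * b) := by
  have h0 : hz.toInteger - 1 ≠ 0 := hz.zeta_sub_one_prime'.ne_zero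
  refine Units.ext (mul_right_cancel₀ h0 ?_)
  rw [Units.val_mul, mul_assoc, geomU_mul, geomU_mul]
  show σ • (geomU hz b : 𝓞 K) * _ = _
  have h := congrArg (σ • ·) (geomU_mul hz b)
  simp only [smul_mul', smul_sub, smul_one, smul_pow', smul_toInteger_eq_pow hz] at h
  rw [h, ← pow_mul, Units.val_mul]
  congr 1
  conv_rhs => rw [ZMod.val_mul, ← pow_eq_pow_mod _ hz.toInteger_isPrimitiveRoot.pow_eq_one]

/-- The cyclotomic unit lies in the `ω²` eigenspace modulo `p`-th powers. -/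
theorem cycU_eigen (hp5 : 5 ≤ p) (σ : K ≃ₐ[ℚ] K) {n : ℕ}
    (hn : (n : ZMod p) = (chiK hz σ : ZMod p) ^ 2) :
    ∃ δ, unitMap σ (cycU hz) = cycU hz ^ n * δ ^ p := by
  set a := chiK hz σ
  have key : unitMap σ (cycU hz) * geomU hz a ^ (∑ b : (ZMod p)ˣ, expo b) =
      ∏ c : (ZMod p)ˣ, geomU hz c ^ expo (a⁻¹ * c) := by
    rw [cycU_eq_prod, map_prod, ← Finset.prod_pow_eq_pow_sum, ← Finset.prod_mul_distrib]
    refine Fintype.prod_equiv (Equiv.mulLeft a) _ _ fun b ↦ ?_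
    rw [map_pow, ← mul_pow, unitMap_geomU, Equiv.coe_mulLeft, inv_mul_cancel_left]
  obtain ⟨q, hq⟩ : p ∣ ∑ b : (ZMod p)ˣ, expo b := by
    rw [← ZMod.natCast_eq_zero_iff, Nat.cast_sum]
    simp only [expo, ZMod.natCast_zmod_val]
    refine sum_units_pow_eq 2 fun h ↦ ?_
    have := Nat.le_of_dvd two_pos h
    omega
  have hexp : ∀ c : (ZMod p)ˣ, ∃ d, geomU hz c ^ expo (a⁻¹ * c) =
      geomU hz c ^ (expo c * n) * d ^ p := fun c ↦ exists_pow_eq_pow_mul_pow _ (by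
    push_cast [expo, ZMod.natCast_zmod_val]
    rw [hn, mul_inv_rev, inv_inv, mul_pow])
  choose d hd using hexp
  refine ⟨(∏ c, d c) * (geomU hz a ^ q)⁻¹, ?_⟩
  rw [hq, Finset.prod_congr rfl fun c _ ↦ hd c, Finset.prod_mul_distrib] at key
  simp only [pow_mul, Finset.prod_pow, ← cycU_eq_prod] at key
  rw [mul_pow, inv_pow, ← mul_assoc, eq_mul_inv_iff_mul_eq, ← pow_mul, mul_comm q, pow_mul]
  exact key

/-- A torsion unit fixed modulo `p`-th powers by complex conjugation is a `p`-th power. -/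
lemma torsion_eigen_isPow (hp5 : 5 ≤ p) {σ : K ≃ₐ[ℚ] K} (hσ : (chiK hz σ : ZMod p) = -1)
    {t δ : (𝓞 K)ˣ} (ht : t ∈ torsion K) (h : unitMap σ t = t * δ ^ p) :
    ∃ s, t = s ^ p := by
  obtain ⟨r, -, hr⟩ := hz.exists_pow_or_neg_mul_pow_of_isOfFinOrder
    (hp.out.odd_of_ne_two (by omega)) (x := ((t : 𝓞 K) : K)) (by
      obtain ⟨n, hn, hn'⟩ := isOfFinOrder_iff_pow_eq_one.mp ((CommGroup.mem_torsion _).mp ht)
      exact isOfFinOrder_iff_pow_eq_one.mpr ⟨n, hn, by rw [← map_pow, ← Units.val_pow_eq_pow_val,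
        hn', Units.val_one, map_one]⟩)
  have h2 : ((t : 𝓞 K) : K) ^ 2 = z ^ (r * 2) := by
    rcases hr with hr | hr <;> rw [hr, pow_mul] <;> ring
  have htp : t ^ (2 * p) = 1 := Units.ext (RingOfIntegers.ext (by
    push_cast
    rw [pow_mul, h2, ← pow_mul, mul_comm _ p, pow_mul, hz.pow_eq_one, one_pow]))
  have hσ2 : unitMap σ t ^ 2 = (t ^ 2)⁻¹ := by
    rw [eq_inv_iff_mul_eq_one]
    refine Units.ext (RingOfIntegers.ext ?_)
    push_cast
    show σ ((t : 𝓞 K) : K) ^ 2 * ((t : 𝓞 K) : K) ^ 2 = 1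
    rw [← map_pow, h2, map_pow, apply_eq_pow_chiK hz, hσ, ← pow_mul, ← pow_add]
    have hval : (-1 : ZMod p).val + 1 = p := by
      obtain ⟨n, rfl⟩ : ∃ n, p = n + 1 := ⟨p - 1, by omega⟩
      rw [ZMod.val_neg_one]
    rw [← Nat.succ_mul, Nat.succ_eq_add_one, hval, pow_mul, hz.pow_eq_one, one_pow]
  rw [h, mul_pow] at hσ2
  have h4 : t ^ 4 = ((δ ^ 2)⁻¹) ^ p := by
    rw [inv_pow, ← pow_mul, mul_comm, pow_mul, eq_inv_iff_mul_eq_one]
    calc t ^ 4 * (δ ^ p) ^ 2 = t ^ 2 * (t ^ 2 * (δ ^ p) ^ 2) := by rw [← mul_assoc, ← pow_add]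
      _ = 1 := by rw [hσ2, mul_inv_cancel]
  have hco : Nat.Coprime 4 p := ((Nat.Prime.coprime_iff_not_dvd hp.out).mpr fun h ↦ by
    have := Nat.le_of_dvd (by norm_num) h
    omega).symm
  refine ⟨((δ ^ 2)⁻¹) ^ Nat.gcdA 4 p * t ^ Nat.gcdB 4 p, ?_⟩
  have hb := Nat.gcd_eq_gcd_ab 4 p
  rw [hco.gcd_eq_one, Nat.cast_one] at hb
  conv_lhs => rw [← zpow_one t, hb, zpow_add, zpow_mul, zpow_natCast, h4, ← zpow_natCast,
    ← zpow_mul, mul_comm (p : ℤ), zpow_mul, zpow_mul, zpow_natCast]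
  rw [mul_pow]
  congr 1
  rw [← zpow_natCast (t ^ Nat.gcdB 4 p), ← zpow_mul, ← zpow_mul, mul_comm]

/-- The descent: an `ω²`-eigen element whose ideal is a `p`-th power and which is locally a
`p`-th power at `p` up to units is a `p`-th power. -/
theorem eq_pow_of_eigen (hp5 : 5 ≤ p) {α : 𝓞 K} (hα : α ≠ 0) {I : Ideal (𝓞 K)}
    (hI : Ideal.span {α} = I ^ p)
    (heig : ∀ σ : K ≃ₐ[ℚ] K, ∃ γ : K,
      σ (α : K) = (α : K) ^ ((chiK hz σ : ZMod p) ^ 2).val * γ ^ p)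
    (hloc : ∀ (u : (𝓞 K)ˣ) (γ : K), (α : K) = ((u : 𝓞 K) : K) * γ ^ p →
      ∃ y : 𝓞 K, (u : 𝓞 K) - y ^ p ∈ Ideal.span {(hz.toInteger - 1) ^ 3}) :
    ∃ γ : K, (α : K) = γ ^ p := by
  have hI0 : I ≠ ⊥ := fun h ↦ hα (by
    rw [h, ← Ideal.zero_eq_bot, zero_pow hp.out.ne_zero, Ideal.zero_eq_bot,
      Ideal.span_singleton_eq_bot] at hI
    exact hI)
  set J : (Ideal (𝓞 K))⁰ := ⟨I, mem_nonZeroDivisors_of_ne_zero hI0⟩
  set c := ClassGroup.mk0 J
  -- the class of `I` is trivial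
  have hcp : c ^ p = 1 := by
    rw [← map_pow]
    exact (ClassGroup.mk0_eq_one_iff _).mpr ⟨α, hI.symm⟩
  have hceig : ∀ σ, clAct K σ c = c ^ ((chiK hz σ : ZMod p) ^ 2).val := by
    intro σ
    set n := ((chiK hz σ : ZMod p) ^ 2).val
    obtain ⟨γ, hγ⟩ := heig σ
    obtain ⟨a, b, hb, rfl⟩ := IsFractionRing.div_surjective (A := 𝓞 K) γ
    have hb0 : b ≠ 0 := nonZeroDivisors.ne_zero hb
    have heq : σ • α * b ^ p = α ^ n * a ^ p := RingOfIntegers.ext (by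
      push_cast
      show σ (α : K) * _ = _
      rw [hγ, div_pow, mul_assoc, div_mul_cancel₀ _ (pow_ne_zero _
        (RingOfIntegers.coe_ne_zero_iff.mpr hb0))])
    have ha0 : a ≠ 0 := fun h ↦ by
      rw [h, zero_pow hp.out.ne_zero, mul_zero, mul_eq_zero, smul_eq_zero_iff_eq] at heq
      exact heq.elim hα (fun h' ↦ hb0 (pow_eq_zero_iff hp.out.ne_zero |>.mp h'))
    have hid : (Ideal.span {b} * σ • I) ^ p = (Ideal.span {a} * I ^ n) ^ p := by
      rw [mul_pow, mul_pow, ← pow_mul, mul_comm n, pow_mul, ← hI, ← smul_pow', ← hI,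
        smul_ideal_span, Ideal.span_singleton_pow, Ideal.span_singleton_pow,
        Ideal.span_singleton_pow, Ideal.span_singleton_mul_span_singleton,
        Ideal.span_singleton_mul_span_singleton, mul_comm, heq, mul_comm]
    have hid' : Ideal.span {b} * σ • I = Ideal.span {a} * I ^ n := by
      have h := congrArg UniqueFactorizationMonoid.normalizedFactors hid
      rw [UniqueFactorizationMonoid.normalizedFactors_pow,
        UniqueFactorizationMonoid.normalizedFactors_pow] at h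
      rw [← Ideal.prod_normalizedFactors_eq_self (I := Ideal.span {b} * σ • I) (mul_ne_zero
          (by rwa [ne_eq, Submodule.zero_eq_bot, Ideal.span_singleton_eq_bot])
          (nonZeroDivisors.coe_ne_zero (idealMap σ J))),
        ← Ideal.prod_normalizedFactors_eq_self (I := Ideal.span {a} * I ^ n) (mul_ne_zero
          (by rwa [ne_eq, Submodule.zero_eq_bot, Ideal.span_singleton_eq_bot])
          (pow_ne_zero _ hI0))]
      refine congrArg _ (Multiset.ext' fun P ↦ ?_)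
      have := congrArg (Multiset.count P) h
      rw [Multiset.count_nsmul, Multiset.count_nsmul] at this
      exact Nat.eq_of_mul_eq_mul_left hp.out.pos this
    rw [clAct_mk0, ← map_pow]
    exact ClassGroup.mk0_eq_mk0_iff.mpr ⟨b, a, hb0, ha0, by
      rw [SubmonoidClass.coe_pow]; exact hid'⟩
  set e := MulEquiv.ofBijective (chiK hz) (chiK_bijective hz) with hedef
  have he : ∀ σ, ((clAct K).comp e.symm.toMonoidHom) (chiK hz σ) = clAct K σ := fun σ ↦ by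
    rw [MonoidHom.comp_apply, MulEquiv.coe_toMonoidHom]
    exact congrArg (clAct K) (e.symm_apply_apply σ)
  have hc1 : c = 1 := eq_one_of_forall_eigenHom (by omega) ((clAct K).comp e.symm.toMonoidHom)
    (powMonoidHom 2)
    (fun f hf ↦ eigenHom_eq_one hz hp5 f fun σ y ↦ by
      have h := hf (chiK hz σ) y
      rwa [powMonoidHom_apply, Units.val_pow_eq_pow_val, he σ] at h)
    hcp fun a ↦ by
      obtain ⟨σ, rfl⟩ := (chiK_bijective hz).2 a
      rw [powMonoidHom_apply, Units.val_pow_eq_pow_val, he σ, hceig σ]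
  obtain ⟨g, hg⟩ := (ClassGroup.mk0_eq_one_iff _).mp hc1
  rw [Ideal.submodule_span_eq] at hg
  rw [hg, Ideal.span_singleton_pow, Ideal.span_singleton_eq_span_singleton] at hI
  obtain ⟨u, hu⟩ := hI.symm
  have hαu : (α : K) = ((u : 𝓞 K) : K) * (g : K) ^ p := by
    rw [← hu]; push_cast; ring
  have hg0 : (g : K) ≠ 0 := RingOfIntegers.coe_ne_zero_iff.mpr fun h ↦ hα (by
    rw [← hu, h, zero_pow hp.out.ne_zero, zero_mul])
  -- the unit is an eigenvector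
  have hueig : ∀ σ, ∃ δ, unitMap σ u = u ^ ((chiK hz σ : ZMod p) ^ 2).val * δ ^ p := by
    intro σ
    set n := ((chiK hz σ : ZMod p) ^ 2).val
    obtain ⟨γ, hγ⟩ := heig σ
    set δ : K := (g : K) ^ n * γ / σ (g : K)
    have hδ : δ ^ p = ((((u ^ n)⁻¹ * unitMap σ u : (𝓞 K)ˣ) : 𝓞 K) : K) := by
      have hσg : σ (g : K) ≠ 0 := by simpa using hg0
      have h1 : ((((u ^ n)⁻¹ : (𝓞 K)ˣ) : 𝓞 K) : K) * (((u : 𝓞 K) : K)) ^ n = 1 := by
        rw [← map_pow, ← map_mul, ← Units.val_pow_eq_pow_val, ← Units.val_mul, inv_mul_cancel,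
          Units.val_one, map_one]
      rw [hαu, map_mul, map_pow, mul_pow] at hγ
      show _ = ((((u ^ n)⁻¹ : (𝓞 K)ˣ) : 𝓞 K) : K) * σ ((u : 𝓞 K) : K)
      rw [div_pow, mul_pow, div_eq_iff (pow_ne_zero _ hσg), ← pow_mul, mul_comm n, pow_mul]
      linear_combination (-(((g : K) ^ p) ^ n * γ ^ p)) * h1 -
        ((((u ^ n)⁻¹ : (𝓞 K)ˣ) : 𝓞 K) : K) * hγ
    have hδint : IsIntegral ℤ δ := IsIntegral.of_pow hp.out.pos (by rw [hδ]; exact Subtype.property _)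
    obtain ⟨δ', hδ'⟩ : ∃ δ' : 𝓞 K, δ' ^ p = (((u ^ n)⁻¹ * unitMap σ u : (𝓞 K)ˣ) : 𝓞 K) :=
      ⟨⟨δ, hδint⟩, RingOfIntegers.ext hδ⟩
    have hδu : IsUnit δ' := (isUnit_pow_iff hp.out.ne_zero).mp (hδ' ▸ Units.isUnit _)
    refine ⟨hδu.unit, ?_⟩
    rw [← inv_mul_eq_iff_eq_mul]
    exact Units.ext (by rw [Units.val_pow_eq_pow_val, IsUnit.unit_spec, hδ'])
  -- complex conjugation
  obtain ⟨σ₀, hσ₀⟩ := (chiK_bijective hz).2 (-1)
  have hσ₀' : (chiK hz σ₀ : ZMod p) = -1 := by rw [hσ₀, Units.val_neg, Units.val_one]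
  have hn₀ : ((chiK hz σ₀ : ZMod p) ^ 2).val = 1 := by rw [hσ₀', neg_one_sq, ZMod.val_one]
  obtain ⟨a₀, ha₀⟩ := hueig σ₀
  rw [hn₀, pow_one] at ha₀
  obtain ⟨b₀, hb₀⟩ := cycU_eigen hz hp5 σ₀ (n := 1) (by rw [hσ₀']; simp)
  rw [pow_one] at hb₀
  have hone : ∀ w : (𝓞 K)ˣ, cycU hz ≠ w ^ p := fun w hw ↦ hp.out.not_dvd_one
    (dvd_of_cycUnit_pow_sub_mem hz hp5 (i := 1) (y := (w : 𝓞 K)) (by
      rw [pow_one, ← cycU_val, hw, Units.val_pow_eq_pow_val, sub_self]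
      exact Submodule.zero_mem _))
  have hv0 : ¬ ∃ t δ, t ∈ torsion K ∧ cycU hz = t * δ ^ p := by
    rintro ⟨t, δ, ht, heq⟩
    have h : unitMap σ₀ t = t * (b₀ * δ / unitMap σ₀ δ) ^ p := by
      rw [heq, map_mul, map_pow] at hb₀
      rw [div_pow, mul_pow, ← mul_div_assoc, eq_div_iff_mul_eq', hb₀]
      ac_rfl
    obtain ⟨s, hs⟩ := torsion_eigen_isPow hz hp5 hσ₀' ht h
    exact hone (s * δ) (by rw [heq, hs, mul_pow])
  obtain ⟨gen, hgen⟩ := IsCyclic.exists_generator (α := (ZMod p)ˣ)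
  obtain ⟨τ, hτ⟩ := (chiK_bijective hz).2 gen
  obtain ⟨i, t, δ, ht, heq⟩ := unit_eigen_dependent hz (τ := τ) (by omega)
    (fun x ↦ hτ ▸ hgen x) (hueig τ)
    (cycU_eigen hz hp5 τ (ZMod.natCast_zmod_val _)) hv0
  have h : unitMap σ₀ t = t * (a₀ * δ / (b₀ ^ i * unitMap σ₀ δ)) ^ p := by
    rw [heq, map_mul, map_mul, map_pow, map_pow, hb₀, mul_pow] at ha₀
    rw [div_pow, mul_pow, mul_pow, ← mul_div_assoc, eq_div_iff_mul_eq', ← pow_mul, mul_comm i,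
      pow_mul]
    refine mul_left_cancel (a := cycU hz ^ i) ?_
    rw [show cycU hz ^ i * (unitMap σ₀ t * ((b₀ ^ p) ^ i * unitMap σ₀ δ ^ p)) =
      cycU hz ^ i * (b₀ ^ p) ^ i * unitMap σ₀ t * unitMap σ₀ δ ^ p by ac_rfl, ha₀]
    ac_rfl
  obtain ⟨s, hs⟩ := torsion_eigen_isPow hz hp5 hσ₀' ht h
  obtain ⟨y, hy⟩ := hloc u g hαu
  have hu' : u = cycU hz ^ i * (s * δ) ^ p := by rw [heq, hs, mul_pow]; ac_rfl
  obtain ⟨k, rfl⟩ : p ∣ i := dvd_of_cycUnit_pow_sub_mem hz hp5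
    (y := y * (((s * δ)⁻¹ : (𝓞 K)ˣ) : 𝓞 K)) (by
      have h' := Ideal.mul_mem_left _ ((((s * δ) ^ p)⁻¹ : (𝓞 K)ˣ) : 𝓞 K) hy
      convert h' using 1
      rw [mul_sub, ← Units.val_mul, hu', mul_comm (((s * δ) ^ p)⁻¹) _, mul_inv_cancel_right,
        Units.val_pow_eq_pow_val, cycU_val, mul_pow, ← inv_pow, Units.val_pow_eq_pow_val]
      ring)
  refine ⟨((cycU hz ^ k * (s * δ) : (𝓞 K)ˣ) : 𝓞 K) * (g : K), ?_⟩
  rw [hαu, hu']
  push_cast
  ring

end

end Fermat.Agent.ExtVanishing
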