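import Fermat.Prelude.Def_ExtCitation_AdmissibleExtension_v2
import Fermat.Agent.ExtVanishing.Kummer
import Fermat.Agent.ExtVanishing.UnitDescent
import Mathlib.NumberTheory.NumberField.Cyclotomic.PID
import Mathlib.NumberTheory.NumberField.Cyclotomic.Three

/-!
# Extensions of `ω` by the trivial character unramified outside `p` and split at `p` are split
-/

set_option autoImplicit false
set_option linter.style.haveILetI false
set_option linter.unusedSectionVars false

open NumberField ExtCitation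
open scoped Classical

noncomputable section

namespace Fermat.Agent.ExtVanishing

section Three

variable {K : Type} [Field K] [NumberField K] [IsCyclotomicExtension {3} ℚ K] {z : K}
  (hz : IsPrimitiveRoot z 3)

include hz in
lemma not_pow_sub_cube_mem {i : ℕ} (hi : i = 1 ∨ i = 2) (y : 𝓞 K) :
    hz.toInteger ^ i - y ^ 3 ∉ Ideal.span {(hz.toInteger - 1) ^ 3} := by
  haveI : Fact (Nat.Prime 3) := ⟨Nat.prime_three⟩
  intro h
  set π := hz.toInteger - 1 with hπdef
  have hπ : Prime π := hz.zeta_sub_one_prime'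
  obtain ⟨u, hu⟩ := IsCyclotomicExtension.Rat.associated_zeta_sub_one_pow_prime 3 hz
  push_cast at hu
  have h3 : (3 : 𝓞 K) = π ^ 2 * u := hu.symm
  obtain ⟨k, hk⟩ := exists_natCast_sub_mem hz y
  obtain ⟨t, ht⟩ := Ideal.mem_span_singleton.mp hk
  obtain ⟨r, hr⟩ := Ideal.mem_span_singleton.mp h
  have hlin : ∃ s, (1 : 𝓞 K) - (k : 𝓞 K) ^ 3 + (i : 𝓞 K) * π = π ^ 2 * s := by
    have hy : y = (k : 𝓞 K) + π * t := by linear_combination ht
    have hz' : hz.toInteger = 1 + π := by rw [hπdef]; ring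
    rcases hi with rfl | rfl <;> rw [hy, hz'] at hr <;> push_cast
    · exact ⟨π * r + (u : 𝓞 K) * (π * t * k * (k + π * t)) + π * t ^ 3, by
        linear_combination hr + ((k : 𝓞 K) * π * t * (k + π * t)) * h3⟩
    · exact ⟨π * r + (u : 𝓞 K) * (π * t * k * (k + π * t)) + π * t ^ 3 - 1, by
        linear_combination hr + ((k : 𝓞 K) * π * t * (k + π * t)) * h3⟩
  obtain ⟨s, hs⟩ := hlin
  have hdvd : π ∣ (((1 - (k : ℤ) ^ 3 : ℤ)) : 𝓞 K) := ⟨π * s - i, by
    push_cast; linear_combination hs⟩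
  obtain ⟨m, hm⟩ :=
    (IsCyclotomicExtension.Rat.zeta_sub_one_dvd_intCast_iff' 3 hz).mp hdvd
  have hm' : (1 : 𝓞 K) - (k : 𝓞 K) ^ 3 = 3 * (m : 𝓞 K) := by
    have := congrArg (Int.cast : ℤ → 𝓞 K) hm
    push_cast at this
    exact this
  have hi' : π ∣ ((i : ℤ) : 𝓞 K) := ⟨s - u * m, mul_right_cancel₀ hπ.ne_zero (by
    push_cast; linear_combination hs - hm' - (m : 𝓞 K) * h3)⟩
  have := (IsCyclotomicExtension.Rat.zeta_sub_one_dvd_intCast_iff' 3 hz).mp hi'
  rcases hi with rfl | rfl <;> norm_num at this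

include hz in
/-- The descent for `p = 3`. -/
theorem eq_cube_of_local {α : 𝓞 K} {I : Ideal (𝓞 K)} (hI : Ideal.span {α} = I ^ 3)
    (hloc : ∀ (u : (𝓞 K)ˣ) (γ : K), (α : K) = ((u : 𝓞 K) : K) * γ ^ 3 →
      ∃ y : 𝓞 K, (u : 𝓞 K) - y ^ 3 ∈ Ideal.span {(hz.toInteger - 1) ^ 3}) :
    ∃ γ : K, (α : K) = γ ^ 3 := by
  haveI := IsCyclotomicExtension.Rat.three_pid K
  obtain ⟨g, hg⟩ := (inferInstance : I.IsPrincipal)
  rw [Ideal.submodule_span_eq] at hg
  rw [hg, Ideal.span_singleton_pow, Ideal.span_singleton_eq_span_singleton] at hI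
  obtain ⟨u, hu⟩ := hI.symm
  have hαu : (α : K) = ((u : 𝓞 K) : K) * (g : K) ^ 3 := by
    rw [← hu]; push_cast; ring
  obtain ⟨y, hy⟩ := hloc u g hαu
  suffices h : u = 1 ∨ u = -1 by
    rcases h with rfl | rfl
    · exact ⟨g, by rw [hαu]; push_cast; ring⟩
    · exact ⟨-g, by rw [hαu]; push_cast; ring⟩
  have hneg : ∀ x : 𝓞 K, -x - y ^ 3 ∈ Ideal.span {(hz.toInteger - 1) ^ 3} →
      x - (-y) ^ 3 ∈ Ideal.span {(hz.toInteger - 1) ^ 3} := fun x hx ↦ by
    have := Ideal.neg_mem_iff _ |>.mpr hx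
    convert this using 1
    ring
  have hmem := IsCyclotomicExtension.Rat.Three.Units.mem hz u
  simp only [List.mem_cons, List.not_mem_nil, or_false] at hmem
  rcases hmem with rfl | rfl | rfl | rfl | rfl | rfl
  · exact Or.inl rfl
  · exact Or.inr rfl
  all_goals exfalso
  all_goals simp only [Units.val_neg, Units.val_pow_eq_pow_val, IsUnit.unit_spec] at hy
  · exact not_pow_sub_cube_mem hz (Or.inl rfl) y (by rwa [pow_one])
  · exact not_pow_sub_cube_mem hz (Or.inl rfl) (-y) (by rw [pow_one]; exact hneg _ hy)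
  · exact not_pow_sub_cube_mem hz (Or.inr rfl) y hy
  · exact not_pow_sub_cube_mem hz (Or.inr rfl) (-y) (hneg _ hy)

end Three

variable {p : ℕ} [hp : Fact p.Prime]

/-- A split cocycle vanishes on `ker ω`. -/
theorem SplitCocycle.c_eq_zero (hp3 : 3 ≤ p) (d : SplitCocycle p)
    {τ : AlgebraicClosure ℚ ≃ₐ[ℚ] AlgebraicClosure ℚ} (hτ : omegaU p τ = 1) : d.c τ = 0 := by
  haveI : NeZero p := ⟨hp.out.ne_zero⟩
  obtain ⟨K, iF, iN, iC⟩ : ∃ (K : Type) (_ : Field K) (_ : NumberField K),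
      IsCyclotomicExtension {p} ℚ K :=
    ⟨CyclotomicField p ℚ, inferInstance, inferInstance, by
      convert CyclotomicField.isCyclotomicExtension p ℚ using 1
      congr 1
      exact Subsingleton.elim _ _⟩
  have hz : IsPrimitiveRoot (IsCyclotomicExtension.zeta p ℚ K) p :=
    IsCyclotomicExtension.zeta_spec p ℚ K
  refine d.c_eq_zero_of_descent hz hp3 (fun α hα I hI heig hloc ↦ ?_) hτ
  rcases eq_or_ne p 3 with rfl | h3
  · exact eq_cube_of_local hz hI hloc
  · refine eq_pow_of_eigen hz ?_ hα hI heig hloc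
    have h4 : p ≠ 4 := fun h ↦ by
      have := hp.out
      rw [h] at this
      norm_num at this
    omega

/-- **Vanishing of admissible extensions.** -/
theorem extVanishingCts (hp3 : 3 ≤ p) : ExtCitation.ExtVanishingCts p := by
  intro V _ _ _ _ C hadm
  haveI : NeZero p := ⟨hp.out.ne_zero⟩
  haveI : Finite V := Nat.finite_of_card_ne_zero (by
    rw [hadm.card_total]; exact pow_ne_zero _ hp.out.ne_zero)
  haveI : Nontrivial C := Finite.one_lt_card_iff_nontrivial.mp (by
    rw [hadm.card_sub]; exact hp.out.one_lt)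
  obtain ⟨⟨e, heC⟩, he⟩ := exists_ne (0 : C)
  have he0 : e ≠ 0 := fun h ↦ he (Subtype.ext h)
  have hline : ∀ x ∈ C, ∃ a : ZMod p, x = a • e := by
    have hb : Function.Bijective fun a : ZMod p ↦ (⟨a • e, C.smul_mem a heC⟩ : C) := by
      refine (Nat.bijective_iff_injective_and_card _).mpr ⟨fun a b hab ↦ ?_, ?_⟩
      · exact smul_left_injective (ZMod p) he0 (congrArg Subtype.val hab)
      · rw [Nat.card_zmod, hadm.card_sub]
    intro x hx
    obtain ⟨a, ha⟩ := hb.2 ⟨x, hx⟩
    exact ⟨a, (congrArg Subtype.val ha).symm⟩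
  obtain ⟨v₀, hv₀⟩ : ∃ v : V, v ∉ C := by
    by_contra! h
    have h1 : Nat.card C = Nat.card V := Nat.card_congr (Equiv.subtypeUnivEquiv h)
    rw [hadm.card_sub, hadm.card_total] at h1
    have := hp.out.one_lt
    nlinarith
  have hindep : ∀ a b : ZMod p, a • e + b • v₀ = 0 → a = 0 ∧ b = 0 := by
    intro a b hab
    have hb : b = 0 := by
      by_contra hb
      refine hv₀ ?_
      rw [← inv_smul_smul₀ hb v₀, eq_neg_of_add_eq_zero_right hab]
      exact C.smul_mem _ (C.neg_mem (C.smul_mem _ heC))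
    subst hb
    rw [zero_smul, add_zero] at hab
    exact ⟨(smul_eq_zero.mp hab).resolve_right he0, rfl⟩
  have hspan : ∀ x : V, ∃ a b : ZMod p, x = a • e + b • v₀ := by
    have hb : Function.Bijective fun q : ZMod p × ZMod p ↦ q.1 • e + q.2 • v₀ := by
      refine (Nat.bijective_iff_injective_and_card _).mpr ⟨fun q q' hq ↦ ?_, ?_⟩
      · simp only at hq
        obtain ⟨h1, h2⟩ := hindep (q.1 - q'.1) (q.2 - q'.2)
          (by rw [sub_smul, sub_smul]; linear_combination (norm := abel) hq)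
        exact Prod.ext (sub_eq_zero.mp h1) (sub_eq_zero.mp h2)
      · rw [Nat.card_prod, Nat.card_zmod, hadm.card_total, pow_two]
    intro x
    obtain ⟨q, hq⟩ := hb.2 x
    exact ⟨q.1, q.2, hq.symm⟩
  have hc : ∀ σ : AlgebraicClosure ℚ ≃ₐ[ℚ] AlgebraicClosure ℚ, ∃ a : ZMod p,
      σ • v₀ = (omegaU p σ : ZMod p) • v₀ + a • e := fun σ ↦ by
    obtain ⟨a, ha⟩ := hline _ (hadm.cyclo_quot σ v₀)
    refine ⟨a, ?_⟩
    rw [← ha, omegaU_eq_cycloExp]
    abel
  choose c hcv using hc
  have hact : ∀ (σ : AlgebraicClosure ℚ ≃ₐ[ℚ] AlgebraicClosure ℚ) (a b : ZMod p),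
      σ • (a • e + b • v₀) = (a + b * c σ) • e + (b * omegaU p σ) • v₀ := fun σ a b ↦ by
    rw [smul_add, smul_comm σ a e, smul_comm σ b v₀, hadm.fixed_sub σ e heC, hcv, smul_add,
      smul_smul, smul_smul, add_smul]
    abel
  have hfix : ∀ σ, (∀ v : V, σ • v = v) ↔ omegaU p σ = 1 ∧ c σ = 0 := by
    intro σ
    constructor
    · intro h
      have h0 := h v₀
      rw [hcv] at h0
      obtain ⟨h1, h2⟩ := hindep (c σ) ((omegaU p σ : ZMod p) - 1)
        (by rw [sub_smul, one_smul]; linear_combination (norm := abel) h0)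
      exact ⟨Units.ext (by rw [Units.val_one, ← sub_eq_zero]; exact h2), h1⟩
    · rintro ⟨h1, h2⟩ v
      obtain ⟨a, b, rfl⟩ := hspan v
      rw [hact, h1, h2]
      simp
  let d : SplitCocycle p :=
    { c := c
      map_mul := fun σ τ ↦ by
        have h : σ • τ • v₀ = σ • ((omegaU p τ : ZMod p) • v₀ + c τ • e) :=
          congrArg (σ • ·) (hcv τ)
        rw [← mul_smul, hcv, add_comm ((omegaU p τ : ZMod p) • v₀) (c τ • e), hact] at h
        obtain ⟨h1, -⟩ := hindep (c (σ * τ) - (c τ + omegaU p τ * c σ))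
          ((omegaU p (σ * τ) : ZMod p) - omegaU p τ * omegaU p σ)
          (by rw [sub_smul, sub_smul]; linear_combination (norm := abel) h)
        linear_combination sub_eq_zero.mp h1
      isOpen_kernel := by
        have heq : {σ | omegaU p σ = 1 ∧ c σ = 0} =
            {σ : AlgebraicClosure ℚ ≃ₐ[ℚ] AlgebraicClosure ℚ | ∀ v : V, σ • v = v} :=
          Set.ext fun σ ↦ (hfix σ).symm
        rw [heq]
        exact hadm.open_kernel
      inertia_trivial := fun q hq A hA σ hσ hω ↦ by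
        rcases eq_or_ne q p with rfl | hqp
        · obtain ⟨C', hstab, hcompl⟩ := hadm.locally_split A hA
          obtain ⟨x, hx, hxC⟩ : ∃ x ∈ C', x ∉ C := by
            by_contra! h
            refine hv₀ ?_
            have h1 : v₀ ∈ C ⊔ C' := by rw [hcompl.sup_eq_top]; exact Submodule.mem_top
            rwa [sup_eq_left.mpr h] at h1
          obtain ⟨a, b, rfl⟩ := hspan x
          have hb : b ≠ 0 := fun hb ↦ hxC (by
            rw [hb, zero_smul, add_zero]; exact C.smul_mem _ heC)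
          have hσd := ((FreyReducible.mem_inertiaSubgroupIn_iff A σ).mp hσ).1
          have h2 : (b * c σ) • e ∈ C ⊓ C' := by
            refine Submodule.mem_inf.mpr ⟨C.smul_mem _ heC, ?_⟩
            have := C'.sub_mem (hstab σ hσd _ hx) hx
            rw [hact, hω, Units.val_one, mul_one] at this
            convert this using 1
            rw [add_smul]
            abel
          rw [hcompl.inf_eq_bot, Submodule.mem_bot, smul_eq_zero, or_iff_left he0,
            mul_eq_zero] at h2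
          exact h2.resolve_left hb
        · exact ((hfix σ).mp (hadm.unramified_outside q hq hqp A hA σ hσ)).2 }
  have hzero : ∀ τ, omegaU p τ = 1 → c τ = 0 := fun τ hτ ↦ d.c_eq_zero hp3 hτ
  have hwd : ∀ σ τ, omegaU p σ = omegaU p τ → c σ = c τ := fun σ τ h ↦ by
    have h1 : omegaU p (σ⁻¹ * τ) = 1 := by rw [map_mul, map_inv, h, inv_mul_cancel]
    have h2 := d.map_mul σ (σ⁻¹ * τ)
    rw [mul_inv_cancel_left, h1, Units.val_one, one_mul] at h2
    change c τ = c σ + c (σ⁻¹ * τ) at h2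
    rw [h2, hzero _ h1, add_zero]
  obtain ⟨t, ht⟩ : ∃ t : ZMod p, ∀ τ, c τ = t * ((omegaU p τ : ZMod p) - 1) := by
    by_cases hall : ∀ σ, omegaU p σ = 1
    · exact ⟨0, fun τ ↦ by rw [hzero τ (hall τ), zero_mul]⟩
    · obtain ⟨σ₁, hσ₁⟩ := not_forall.mp hall
      have h0 : (omegaU p σ₁ : ZMod p) - 1 ≠ 0 :=
        sub_ne_zero.mpr fun h ↦ hσ₁ (Units.ext (by rw [h, Units.val_one]))
      refine ⟨c σ₁ / ((omegaU p σ₁ : ZMod p) - 1), fun τ ↦ ?_⟩
      have h1 := d.map_mul σ₁ τ
      have h2 := d.map_mul τ σ₁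
      have h3 : c (σ₁ * τ) = c (τ * σ₁) := hwd _ _ (by rw [map_mul, map_mul, mul_comm])
      change c (σ₁ * τ) = _ at h1
      change c (τ * σ₁) = _ at h2
      rw [h1, h2] at h3
      field_simp
      linear_combination -h3
  set w := v₀ + t • e with hw
  refine ⟨Submodule.span (ZMod p) {w}, fun σ x hx ↦ ?_, IsCompl.of_eq ?_ ?_⟩
  · obtain ⟨b, rfl⟩ := Submodule.mem_span_singleton.mp hx
    refine Submodule.mem_span_singleton.mpr ⟨b * omegaU p σ, ?_⟩
    rw [hw, smul_add b, smul_smul, add_comm (b • v₀), hact, ht, smul_add, smul_smul, add_comm,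
      ← sub_eq_zero, ← sub_eq_zero]
    rw [sub_zero, add_sub_add_right_eq_sub, ← sub_smul]
    ring_nf
    simp
  · rw [eq_bot_iff]
    rintro x ⟨hxC, hxw⟩
    obtain ⟨b, rfl⟩ := Submodule.mem_span_singleton.mp hxw
    obtain ⟨a, ha⟩ := hline _ hxC
    obtain ⟨-, hb⟩ := hindep (b * t - a) b (by
      rw [sub_smul, mul_smul, ← ha, hw, smul_add]; abel)
    rw [hb, zero_smul]
    exact Submodule.zero_mem _
  · rw [eq_top_iff]
    intro x _
    obtain ⟨a, b, rfl⟩ := hspan x
    refine Submodule.mem_sup.mpr ⟨(a - b * t) • e, C.smul_mem _ heC, b • w,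
      Submodule.smul_mem _ _ (Submodule.mem_span_singleton_self w), ?_⟩
    rw [hw, sub_smul, smul_add, smul_smul]
    abel

end Fermat.Agent.ExtVanishing

end
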