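import Fermat.Agent.ExtVanishing.SplitPrime
import Mathlib.NumberTheory.Cyclotomic.Gal
import Mathlib.NumberTheory.NumberField.Norm
import Mathlib.NumberTheory.NumberField.Cyclotomic.Basic
import Mathlib.NumberTheory.RamificationInertia.Galois
import Mathlib.RepresentationTheory.Homological.GroupCohomology.Hilbert90
import Mathlib.RingTheory.RootsOfUnity.CyclotomicUnits
import Mathlib.RingTheory.RootsOfUnity.Lemmas
import Mathlib.RingTheory.IntegralDomain
import Mathlib.FieldTheory.Finite.Basic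
import Mathlib.RingTheory.Ideal.Quotient.HasFiniteQuotients

/-!
# Thaine's annihilation relation

For a completely split prime `P` of `K` over `ℓ ≡ 1 [MOD p]` and a `p`-th root of unity `ζ`,
the discrete logarithms `r σ` of `ζ - 1` at the conjugates of `P` give a relation
`∏ φ(σ P) ^ r σ = 1` for every homomorphism `φ` from the class group to a group of exponent `p`.
-/

set_option autoImplicit false
set_option linter.style.haveILetI false

namespace Fermat.Agent.ExtVanishing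

open NumberField Module UniqueFactorizationMonoid
open scoped Pointwise nonZeroDivisors Classical

noncomputable section

section Cyclo

variable {K F : Type} [Field K] [NumberField K] [Field F] [NumberField F] [Algebra K F]
variable {ℓ : ℕ} [Fact ℓ.Prime] [IsGalois K F] {z : 𝓞 F}

lemma isGaloisGroup_ringOfIntegers : IsGaloisGroup (F ≃ₐ[K] F) (𝓞 K) (𝓞 F) :=
  IsGaloisGroup.of_isFractionRing _ _ _ K F

omit [NumberField F] in
lemma span_sub_one_pow (hz : IsPrimitiveRoot z ℓ) :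
    Ideal.span {z - 1} ^ (ℓ - 1) = Ideal.span {(ℓ : 𝓞 F)} := by
  have hℓ := (Fact.out : ℓ.Prime)
  obtain ⟨n, hn⟩ : ∃ n, ℓ = n + 1 := ⟨ℓ - 1, by have := hℓ.one_le; omega⟩
  have hz' : IsPrimitiveRoot z (n + 1) := hn ▸ hz
  rw [show ((ℓ : 𝓞 F)) = n + 1 by rw [hn]; push_cast; ring, ← hz'.prod_one_sub_pow_eq_order,
    ← Ideal.prod_span_singleton, show ℓ - 1 = n by omega]
  rw [Finset.prod_congr rfl (g := fun _ ↦ Ideal.span {z - 1}) fun k hk ↦ ?_,
    Finset.prod_const, Finset.card_range]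
  have hcop : (k + 1).Coprime ℓ := by
    refine (Nat.coprime_comm.mp ((hℓ.coprime_iff_not_dvd).mpr fun h ↦ ?_))
    have := Nat.le_of_dvd (by omega) h
    have := Finset.mem_range.mp hk
    omega
  rw [show 1 - z ^ (k + 1) = -(z ^ (k + 1) - 1) by ring, Ideal.span_singleton_neg]
  exact (Ideal.span_singleton_eq_span_singleton.mpr
    (hz.associated_sub_one_pow_sub_one_of_coprime hcop)).symm

lemma ramified_prime_facts (hz : IsPrimitiveRoot z ℓ) (hn : finrank K F ≤ ℓ - 1)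
    {v : Ideal (𝓞 K)} (hv : v.IsPrime) (hv0 : v ≠ ⊥) (hv1 : cnt v (Ideal.span {(ℓ : 𝓞 K)}) = 1)
    {w : Ideal (𝓞 F)} (hw : w.IsPrime) [w.LiesOver v] :
    finrank K F = ℓ - 1 ∧ w.ramificationIdx (𝓞 K) = ℓ - 1 ∧ w.inertiaDeg (𝓞 K) = 1 ∧
      cnt w (Ideal.span {z - 1}) = 1 ∧ ∀ w' : Ideal (𝓞 F), w'.IsPrime → w'.LiesOver v → w' = w := by
  haveI := hv
  haveI := hw
  haveI := isGaloisGroup_ringOfIntegers (K := K) (F := F)
  have hℓ := (Fact.out : ℓ.Prime)
  have hℓK : (ℓ : 𝓞 K) ≠ 0 := Nat.cast_ne_zero.mpr hℓ.ne_zero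
  have hπ0 : (z - 1) ≠ 0 := sub_ne_zero.mpr (hz.ne_one hℓ.one_lt)
  have key : ∀ w' : Ideal (𝓞 F), w'.IsPrime → w'.LiesOver v →
      w'.ramificationIdx (𝓞 K) = (ℓ - 1) * cnt w' (Ideal.span {z - 1}) ∧
        0 < w'.ramificationIdx (𝓞 K) := by
    intro w' hw' hlo
    haveI := hlo
    haveI := hw'
    refine ⟨?_, Ideal.ramificationIdx_pos w' (𝓞 K)⟩
    have h := cnt_map (w := w') hv hv0 hw' (I := Ideal.span {(ℓ : 𝓞 K)}) (by simpa using hℓK)
    rw [Ideal.map_span, Set.image_singleton, map_natCast, hv1, mul_one, ← span_sub_one_pow hz,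
      cnt_pow] at h
    exact h.symm
  have hge : ∀ w' : Ideal (𝓞 F), w'.IsPrime → w'.LiesOver v →
      ℓ - 1 ≤ w'.ramificationIdx (𝓞 K) * w'.inertiaDeg (𝓞 K) := by
    intro w' hw' hlo
    haveI := hlo
    haveI := hw'
    obtain ⟨h1, h2⟩ := key w' hw' hlo
    have h3 : 0 < w'.inertiaDeg (𝓞 K) := Ideal.inertiaDeg_pos w' (𝓞 K)
    rw [h1] at h2 ⊢
    have h4 : 1 ≤ cnt w' (Ideal.span {z - 1}) := Nat.pos_of_mul_pos_left h2
    calc ℓ - 1 = (ℓ - 1) * 1 * 1 := by ring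
      _ ≤ _ := Nat.mul_le_mul (Nat.mul_le_mul_left _ h4) h3
  haveI : v.IsMaximal := hv.isMaximal hv0
  haveI : Fintype (v.primesOver (𝓞 F)) := Fintype.ofFinite _
  have hsum := Ideal.sum_ramification_inertia_eq_card v (𝓞 F) (G := F ≃ₐ[K] F)
  rw [IsGalois.card_aut_eq_finrank] at hsum
  let q : v.primesOver (𝓞 F) := ⟨w, hw, inferInstance⟩
  rw [← Finset.add_sum_erase _ _ (Finset.mem_univ q)] at hsum
  have hwge := hge w hw inferInstance
  have huniq : ∀ w' : Ideal (𝓞 F), w'.IsPrime → w'.LiesOver v → w' = w := by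
    intro w' hw' hlo
    by_contra hne
    have hmem : (⟨w', hw', hlo⟩ : v.primesOver (𝓞 F)) ∈ Finset.univ.erase q :=
      Finset.mem_erase.mpr ⟨fun h ↦ hne (congrArg Subtype.val h), Finset.mem_univ _⟩
    have h2 := Finset.single_le_sum (f := fun q : v.primesOver (𝓞 F) ↦
      q.1.ramificationIdx (𝓞 K) * q.1.inertiaDeg (𝓞 K)) (fun _ _ ↦ Nat.zero_le _) hmem
    have h3 := hge w' hw' hlo
    have := hℓ.two_le
    simp only [q] at hsum h2
    omega
  have hle : w.ramificationIdx (𝓞 K) * w.inertiaDeg (𝓞 K) ≤ finrank K F := by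
    simp only [q] at hsum
    omega
  obtain ⟨h1, h2⟩ := key w hw inferInstance
  have h3 : 0 < w.inertiaDeg (𝓞 K) := Ideal.inertiaDeg_pos w (𝓞 K)
  have hl1 : 0 < ℓ - 1 := by have := hℓ.two_le; omega
  have hprod : w.ramificationIdx (𝓞 K) * w.inertiaDeg (𝓞 K) = ℓ - 1 := by omega
  rw [h1, mul_assoc] at hprod
  have hc : cnt w (Ideal.span {z - 1}) * w.inertiaDeg (𝓞 K) = 1 :=
    mul_left_cancel₀ hl1.ne' (hprod.trans (mul_one _).symm)
  obtain ⟨hc1, hc2⟩ := Nat.eq_one_of_mul_eq_one_right hc, Nat.eq_one_of_mul_eq_one_left hc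
  exact ⟨by omega, by rw [h1, Nat.eq_one_of_mul_eq_one_right hc, mul_one],
    Nat.eq_one_of_mul_eq_one_left hc, Nat.eq_one_of_mul_eq_one_right hc, huniq⟩

lemma ramificationIdx_eq_one_of_not_mem [IsCyclotomicExtension {ℓ} K F]
    (hz : IsPrimitiveRoot (z : F) ℓ) {v : Ideal (𝓞 K)} (hv : v.IsPrime) (hv0 : v ≠ ⊥)
    (hℓv : (ℓ : 𝓞 K) ∉ v) {w : Ideal (𝓞 F)} (hw : w.IsPrime) [w.LiesOver v] :
    w.ramificationIdx (𝓞 K) = 1 := by
  haveI := hv
  haveI := hw
  haveI := isGaloisGroup_ringOfIntegers (K := K) (F := F)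
  haveI : v.IsMaximal := hv.isMaximal hv0
  haveI : Finite (𝓞 K ⧸ v) := Ring.HasFiniteQuotients.finiteQuotient hv0
  haveI : Finite v.ResidueField :=
    Finite.of_surjective _ v.bijective_algebraMap_quotient_residueField.surjective
  haveI : PerfectField v.ResidueField := PerfectField.ofFinite
  have hℓ := (Fact.out : ℓ.Prime)
  have hzO : IsPrimitiveRoot z ℓ := hz.of_map_of_injective RingOfIntegers.coe_injective
  have htriv : ∀ τ : F ≃ₐ[K] F, τ ∈ w.inertia (F ≃ₐ[K] F) → τ = 1 := by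
    intro τ hτ
    have hτz : τ • z - z ∈ w := hτ z
    by_contra hne
    apply hℓv
    have hpow : τ • z = z ^ (hz.autToPow K τ : ZMod ℓ).val := RingOfIntegers.ext (by
      show τ (z : F) = _
      rw [← hz.autToPow_spec K τ]
      norm_cast)
    rw [hpow] at hτz
    set a := (hz.autToPow K τ : ZMod ℓ).val with ha
    have ha1 : a ≠ 1 := fun h ↦ hne (hz.autToPow_injective (K := K) (Units.ext (by
      rw [map_one, Units.val_one, ← ZMod.natCast_zmod_val (hz.autToPow K τ : ZMod ℓ), ← ha, h,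
        Nat.cast_one])))
    have ha0 : a ≠ 0 := fun h ↦ (hz.autToPow K τ).ne_zero (by
      rw [← ZMod.natCast_zmod_val (hz.autToPow K τ : ZMod ℓ), ← ha, h, Nat.cast_zero])
    have halt : a < ℓ := ZMod.val_lt _
    have hfac : z ^ a - z = z * (z ^ (a - 1) - 1) := by
      rw [mul_sub, mul_one, ← pow_succ', show a - 1 + 1 = a by omega]
    rw [hfac] at hτz
    have hzu : IsUnit z := hzO.isUnit hℓ.ne_zero
    have hmem : z ^ (a - 1) - 1 ∈ w := (hw.mem_or_mem hτz).resolve_left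
      fun h ↦ hw.ne_top (Ideal.eq_top_of_isUnit_mem _ h hzu)
    have hcop : (a - 1).Coprime ℓ := Nat.coprime_comm.mp ((hℓ.coprime_iff_not_dvd).mpr fun h ↦ by
      have := Nat.le_of_dvd (by omega) h
      omega)
    have hz1 : z - 1 ∈ w := by
      obtain ⟨u, hu⟩ := hzO.associated_sub_one_pow_sub_one_of_coprime hcop
      rw [← hu] at hmem
      exact (hw.mem_or_mem hmem).resolve_right
        fun h ↦ hw.ne_top (Ideal.eq_top_of_isUnit_mem _ h u.isUnit)
    have hℓw : (ℓ : 𝓞 F) ∈ w := by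
      have h : Ideal.span {(ℓ : 𝓞 F)} ≤ w := by
        rw [← span_sub_one_pow hzO]
        exact (Ideal.pow_le_self (by have := hℓ.two_le; omega)).trans
          ((Ideal.span_singleton_le_iff_mem _).mpr hz1)
      exact h (Ideal.mem_span_singleton_self _)
    rw [Ideal.over_def w v, Ideal.mem_comap, map_natCast]
    exact hℓw
  have hcard : Nat.card (w.inertia (F ≃ₐ[K] F)) = 1 := by
    rw [Subgroup.card_eq_one]
    exact (Subgroup.eq_bot_iff_forall _).mpr htriv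
  rw [Ideal.card_inertia_eq_ramificationIdxIn v w,
    Ideal.ramificationIdxIn_eq_ramificationIdx v w (F ≃ₐ[K] F)] at hcard
  exact hcard

end Cyclo

/-- A nonzero ideal as an element of the monoid of nonzero ideals. -/
def toNZ {R : Type*} [CommRing R] [IsDedekindDomain R] (I : Ideal R) : (Ideal R)⁰ :=
  if h : I ≠ 0 then ⟨I, mem_nonZeroDivisors_of_ne_zero h⟩ else 1

lemma coe_toNZ {R : Type*} [CommRing R] [IsDedekindDomain R] {I : Ideal R} (h : I ≠ ⊥) :
    (toNZ I : Ideal R) = I := by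
  simp [toNZ, h, Submodule.zero_eq_bot]

variable {K : Type} [Field K] [NumberField K] [IsGalois ℚ K]

/-- Thaine's relation. -/
theorem thaine_relation {p : ℕ} [Fact p.Prime] {ζ : 𝓞 K} (hζ : IsPrimitiveRoot ζ p)
    {ℓ : ℕ} (hℓ : ℓ.Prime) (hℓp : p ∣ ℓ - 1) {P : Ideal (𝓞 K)}
    (hP : P.IsPrime) (hnorm : Ideal.absNorm P = ℓ)
    (hinj : ∀ σ : K ≃ₐ[ℚ] K, σ • P = P → σ = 1)
    {M : Type*} [CommMonoid M] (hM : ∀ m : M, m ^ p = 1) (φ : ClassGroup (𝓞 K) →* M) :
    ∃ (g : ℕ) (r : (K ≃ₐ[ℚ] K) → ℕ), (∀ σ, ζ - 1 - (g : 𝓞 K) ^ r σ ∈ σ • P) ∧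
      ∏ σ : K ≃ₐ[ℚ] K, φ (ClassGroup.mk0 (toNZ (σ • P))) ^ r σ = 1 := by
  haveI : Fact ℓ.Prime := ⟨hℓ⟩
  haveI : NeZero ℓ := ⟨hℓ.ne_zero⟩
  let F := CyclotomicField ℓ K
  haveI : IsGalois K F := IsCyclotomicExtension.isGalois {ℓ} K F
  obtain ⟨z₀, hz0⟩ : ∃ z₀ : F, IsPrimitiveRoot z₀ ℓ :=
    ⟨_, IsCyclotomicExtension.zeta_spec ℓ K F⟩
  let z : 𝓞 F := hz0.toInteger
  have hzF : IsPrimitiveRoot (z : F) ℓ := hz0
  have hz : IsPrimitiveRoot z ℓ := hz0.toInteger_isPrimitiveRoot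
  have hn : finrank K F ≤ ℓ - 1 := by
    rw [← IsGalois.card_aut_eq_finrank, ← Nat.totient_prime hℓ, ← ZMod.card_units_eq_totient,
      ← Nat.card_eq_fintype_card]
    exact Nat.card_le_card_of_injective _ (hzF.autToPow_injective (K := K))
  have hne : ∀ σ : K ≃ₐ[ℚ] K, σ • P ≠ ⊥ := fun σ h ↦ hℓ.ne_zero (by
    have h' := absNorm_smul σ P
    rw [h, Ideal.absNorm_bot, hnorm] at h'
    exact h'.symm)
  have hℓmem : ∀ σ : K ≃ₐ[ℚ] K, (ℓ : 𝓞 K) ∈ σ • P := fun σ ↦ by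
    have h := Ideal.absNorm_mem (σ • P)
    rwa [absNorm_smul, hnorm] at h
  have hw : ∀ σ : K ≃ₐ[ℚ] K, ∃ w : Ideal (𝓞 F), w.IsPrime ∧ w.LiesOver (σ • P) := fun σ ↦ by
    haveI := smul_isPrime σ hP
    haveI : (σ • P).IsMaximal := (smul_isPrime σ hP).isMaximal (hne σ)
    obtain ⟨w, hw1, hw2⟩ := Ideal.exists_maximal_ideal_liesOver_of_isIntegral (S := 𝓞 F) (σ • P)
    exact ⟨w, hw1.isPrime, hw2⟩
  choose w hwp hwo using hw
  have hfacts := fun σ ↦
    haveI := hwo σ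
    ramified_prime_facts hz hn (smul_isPrime σ hP) (hne σ)
      (cnt_smul_span_eq_one hℓ hP hnorm hinj σ) (hwp σ)
  have hdeg : finrank K F = ℓ - 1 := (hfacts 1).1
  have hbij : Function.Bijective (hzF.autToPow K) := by
    refine (Nat.bijective_iff_injective_and_card _).mpr
      ⟨hzF.autToPow_injective (K := K), ?_⟩
    rw [IsGalois.card_aut_eq_finrank, hdeg, Nat.card_eq_fintype_card,
      ZMod.card_units_eq_totient, Nat.totient_prime hℓ]
  obtain ⟨gu, hgu⟩ := IsCyclic.exists_generator (α := (ZMod ℓ)ˣ)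
  obtain ⟨τ, hτ⟩ := hbij.2 gu
  have hgen : ∀ h : F ≃ₐ[K] F, h ∈ Subgroup.zpowers τ := fun h ↦ by
    obtain ⟨k, hk⟩ := Subgroup.mem_zpowers_iff.mp (hgu (hzF.autToPow K h))
    exact Subgroup.mem_zpowers_iff.mpr ⟨k, hbij.1 (by rw [map_zpow, hτ, hk])⟩
  haveI : IsCyclic (F ≃ₐ[K] F) := ⟨τ, hgen⟩
  set g := (gu : ZMod ℓ).val with hg
  have hτz : τ • z = z ^ g := RingOfIntegers.ext (by
    show τ (z : F) = _
    rw [← hzF.autToPow_spec K τ, hτ]
    norm_cast)
  -- the lift of `ζ - 1`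
  set ζF := algebraMap (𝓞 K) (𝓞 F) ζ with hζF
  set ε : 𝓞 F := ζF - z with hε
  have hfix : ∀ (h : F ≃ₐ[K] F) (x : 𝓞 K),
      h • algebraMap (𝓞 K) (𝓞 F) x = algebraMap (𝓞 K) (𝓞 F) x := fun h x ↦
    RingOfIntegers.ext (h.commutes (x : K))
  have hζℓ : ζ ^ ℓ = ζ := by
    obtain ⟨k, hk⟩ := hℓp
    have := hℓ.two_le
    rw [show ℓ = p * k + 1 by omega, pow_succ, pow_mul, hζ.pow_eq_one, one_pow, one_mul]
  have hnormε : ∏ h : F ≃ₐ[K] F, h • ε = 1 := by
    have h1 : ∀ h : F ≃ₐ[K] F, h • ε = ζF - h • z := fun h ↦ by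
      rw [hε, smul_sub, hζF, hfix]
    simp only [h1]
    have h2 : ∏ h : F ≃ₐ[K] F, (ζF - h • z) =
        Polynomial.eval ζF (Polynomial.cyclotomic ℓ (𝓞 F)) := by
      rw [Polynomial.cyclotomic_eq_prod_X_sub_primitiveRoots hz, Polynomial.eval_prod]
      simp only [Polynomial.eval_sub, Polynomial.eval_X, Polynomial.eval_C]
      have himg : Finset.univ.image (fun h : F ≃ₐ[K] F ↦ h • z) = primitiveRoots ℓ (𝓞 F) := by
        have hinjz : Function.Injective fun h : F ≃ₐ[K] F ↦ h • z := fun a b hab ↦ by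
          refine hzF.autToPow_injective (K := K) (Units.ext (ZMod.val_injective ℓ ?_))
          refine hzF.pow_inj (ZMod.val_lt _) (ZMod.val_lt _) ?_
          rw [hzF.autToPow_spec K a, hzF.autToPow_spec K b]
          exact congrArg (fun x : 𝓞 F ↦ (x : F)) hab
        refine Finset.eq_of_subset_of_card_le (fun x hx ↦ ?_) ?_
        · obtain ⟨h, -, rfl⟩ := Finset.mem_image.mp hx
          rw [mem_primitiveRoots hℓ.pos]
          exact hz.map_of_injective (f := MulSemiringAction.toRingHom (F ≃ₐ[K] F) (𝓞 F) h)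
            (MulSemiringAction.toRingEquiv (F ≃ₐ[K] F) (𝓞 F) h).injective
        · rw [Finset.card_image_of_injective _ hinjz, hz.card_primitiveRoots,
            Nat.totient_prime hℓ, Finset.card_univ, ← Nat.card_eq_fintype_card,
            IsGalois.card_aut_eq_finrank, hdeg]
      rw [← himg, Finset.prod_image]
      intro a _ b _ hab
      refine hzF.autToPow_injective (K := K) (Units.ext (ZMod.val_injective ℓ ?_))
      refine hzF.pow_inj (ZMod.val_lt _) (ZMod.val_lt _) ?_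
      rw [hzF.autToPow_spec K a, hzF.autToPow_spec K b]
      exact congrArg (fun x : 𝓞 F ↦ (x : F)) hab
    have hne1 : ζF - 1 ≠ 0 := by
      rw [sub_ne_zero, hζF, ← map_one (algebraMap (𝓞 K) (𝓞 F))]
      exact fun h ↦ hζ.ne_one (Fact.out : p.Prime).one_lt
        (RingOfIntegers.algebraMap.injective K F h)
    rw [h2, Polynomial.cyclotomic_prime, Polynomial.eval_geom_sum]
    refine mul_right_cancel₀ hne1 ?_
    rw [geom_sum_mul, one_mul, hζF, ← map_pow, hζℓ]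
  have hunit : ∀ h : F ≃ₐ[K] F, IsUnit (h • ε) := fun h ↦
    isUnit_of_dvd_one (hnormε ▸ Finset.dvd_prod_of_mem _ (Finset.mem_univ h))
  -- Hilbert 90
  obtain ⟨β, hβ0, hτβ⟩ : ∃ β : 𝓞 F, β ≠ 0 ∧ τ • β = ε * β := by
    have hN : Algebra.norm K (ε : F) = 1 := by
      apply (algebraMap K F).injective
      rw [Algebra.norm_eq_prod_automorphisms, map_one, ← map_one (algebraMap (𝓞 F) F), ← hnormε,
        map_prod]
      exact Finset.prod_congr rfl fun h _ ↦ rfl
    obtain ⟨y, hy⟩ := groupCohomology.exists_div_of_norm_eq_one hgen hN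
    have halg : IsAlgebraic ℤ ((y : F)⁻¹) :=
      (IsFractionRing.isAlgebraic_iff ℤ ℚ F).mpr (Algebra.IsAlgebraic.isAlgebraic _)
    obtain ⟨d, hd0, hd⟩ := halg.exists_integral_multiple
    refine ⟨⟨d • (y : F)⁻¹, hd⟩, fun h ↦ ?_, RingOfIntegers.ext ?_⟩
    · have h' : d • (y : F)⁻¹ = 0 := congrArg (fun x : 𝓞 F ↦ (x : F)) h
      rw [smul_eq_zero] at h'
      exact h'.elim hd0 (inv_ne_zero y.ne_zero)
    · show τ (d • (y : F)⁻¹) = (ε : F) * (d • (y : F)⁻¹)
      rw [map_zsmul, map_inv₀, mul_smul_comm, ← hy]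
      have : τ (y : F) ≠ 0 := (map_ne_zero τ).mpr y.ne_zero
      congr 1
      rw [div_mul_eq_mul_div, mul_inv_cancel₀ y.ne_zero, one_div]
  have hspanβ : ∀ h : F ≃ₐ[K] F, Ideal.span {h • β} = Ideal.span {β} := by
    intro h
    obtain ⟨k, rfl⟩ : ∃ k : ℕ, τ ^ k = h :=
      Submonoid.mem_powers_iff _ _ |>.mp ((isOfFinOrder_of_finite τ).mem_powers_iff_mem_zpowers.mpr
        (hgen h))
    induction k with
    | zero => rw [pow_zero, one_smul]
    | succ k ih =>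
      rw [pow_succ, mul_smul, hτβ, smul_mul', ← ih]
      exact Ideal.span_singleton_mul_left_unit (hunit _) _
  -- the norm
  set γ := RingOfIntegers.norm K β with hγ
  have hγF : algebraMap (𝓞 K) (𝓞 F) γ = ∏ h : F ≃ₐ[K] F, h • β := RingOfIntegers.ext (by
    rw [hγ, RingOfIntegers.coe_algebraMap_norm, Algebra.norm_eq_prod_automorphisms]
    refine (Finset.prod_congr rfl fun h _ ↦ ?_).trans
      (map_prod (algebraMap (𝓞 F) F) (fun h : F ≃ₐ[K] F ↦ h • β) Finset.univ).symm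
    rfl)
  have hγ0 : γ ≠ 0 := fun h ↦ by
    have h' : (0 : F) = algebraMap K F (Algebra.norm K (β : F)) := by
      rw [← RingOfIntegers.coe_algebraMap_norm, ← hγ, h, map_zero]; rfl
    exact hβ0 (RingOfIntegers.coe_injective (by
      simpa [Algebra.norm_eq_zero_iff] using h'.symm))
  have hmap : (Ideal.span {γ}).map (algebraMap (𝓞 K) (𝓞 F)) = Ideal.span {β} ^ (ℓ - 1) := by
    rw [Ideal.map_span, Set.image_singleton, hγF, ← Ideal.prod_span_singleton,
      Finset.prod_congr rfl fun h _ ↦ hspanβ h, Finset.prod_const, Finset.card_univ,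
      ← Nat.card_eq_fintype_card, IsGalois.card_aut_eq_finrank, hdeg]
  have hγspan : Ideal.span {γ} ≠ ⊥ := by simpa using hγ0
  let r : (K ≃ₐ[ℚ] K) → ℕ := fun σ ↦ cnt (w σ) (Ideal.span {β})
  have hr : ∀ σ, cnt (σ • P) (Ideal.span {γ}) = r σ := by
    intro σ
    haveI := hwo σ
    have h := cnt_map (w := w σ) (smul_isPrime σ hP) (hne σ) (hwp σ) hγspan
    rw [hmap, cnt_pow, (hfacts σ).2.1] at h
    exact (mul_left_cancel₀ (by have := hℓ.two_le; omega) h).symm
  refine ⟨g, r, fun σ ↦ ?_, ?_⟩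
  · -- congruence at the ramified prime
    haveI := hwo σ
    haveI := hwp σ
    obtain ⟨-, hre, hri, hπ, huniq⟩ := hfacts σ
    set L := w σ
    have hL0 : L ≠ ⊥ := ne_bot_of_le_ne_bot (Ideal.map_ne_bot_of_ne_bot (hne σ))
      (Ideal.map_le_of_le_comap (L.over_def (σ • P)).le)
    have hLmax : L.IsMaximal := (hwp σ).isMaximal hL0
    haveI : (σ • P).IsMaximal := (smul_isPrime σ hP).isMaximal (hne σ)
    have hπ0 : z - 1 ≠ 0 := sub_ne_zero.mpr (hz.ne_one hℓ.one_lt)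
    have hπmem : z - 1 ∈ L := (mem_iff_cnt_pos (hwp σ) hL0 hπ0).mpr (by rw [hπ]; exact one_pos)
    have hres : ∀ x : 𝓞 F, ∃ k : ℕ, x - k ∈ L := by
      intro x
      have hcard : Nat.card (𝓞 F ⧸ L) = ℓ := by
        rw [← Submodule.cardQuot_apply, ← Ideal.absNorm_apply,
          ← Ideal.absNorm_pow_inertiaDeg (σ • P) L, hri, pow_one, absNorm_smul, hnorm]
      haveI : Finite (𝓞 F ⧸ L) := Nat.finite_of_card_ne_zero (by rw [hcard]; exact hℓ.ne_zero)
      have hℓL : ((ℓ : 𝓞 F ⧸ L)) = 0 := by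
        rw [← map_natCast (Ideal.Quotient.mk L), Ideal.Quotient.eq_zero_iff_mem,
          ← map_natCast (algebraMap (𝓞 K) (𝓞 F))]
        exact Ideal.mem_comap.mp ((L.over_def (σ • P)).le (hℓmem σ))
      haveI : Nontrivial (𝓞 F ⧸ L) := Ideal.Quotient.nontrivial_iff.mpr hLmax.ne_top
      haveI : CharP (𝓞 F ⧸ L) ℓ := (CharP.charP_iff_prime_eq_zero hℓ).mpr hℓL
      haveI := Fintype.ofFinite (𝓞 F ⧸ L)
      have hb := (ZMod.castHom (dvd_refl ℓ) (𝓞 F ⧸ L)).injective.bijective_of_nat_card_le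
        (by rw [hcard, Nat.card_zmod])
      obtain ⟨k, hk⟩ := hb.2 (Ideal.Quotient.mk L x)
      refine ⟨k.val, ?_⟩
      rw [← Ideal.Quotient.eq, map_natCast, ← hk]
      conv_lhs => rw [← ZMod.natCast_zmod_val k]
      rw [map_natCast]
    have hτL : ∀ (j : ℕ) (x : 𝓞 F), x ∈ L ^ j → τ • x ∈ L ^ j := by
      intro j x hx
      have hτeq : τ • L = L := by
        haveI : (τ • L).IsPrime := by rw [Ideal.pointwise_smul_eq_comap]; exact Ideal.IsPrime.comap _
        refine huniq _ inferInstance ⟨?_⟩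
        ext y
        rw [Ideal.mem_comap, ← hfix τ y, Ideal.smul_mem_pointwise_smul_iff, ← Ideal.mem_comap,
          ← Ideal.under_def, ← L.over_def (σ • P)]
      have := Ideal.mem_map_of_mem (MulSemiringAction.toRingHom (F ≃ₐ[K] F) (𝓞 F) τ) hx
      rw [Ideal.map_pow, ← Ideal.pointwise_smul_def, hτeq] at this
      exact this
    have hLr : ∀ x ∈ L ^ r σ, ∃ a : 𝓞 F, x - a * (z - 1) ^ r σ ∈ L ^ (r σ + 1) := by
      intro x hx
      have hgcd : Ideal.span {(z - 1) ^ r σ} ⊔ L ^ (r σ + 1) = L ^ r σ := by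
        refine le_antisymm (sup_le ?_ (Ideal.pow_le_pow_right (Nat.le_succ _))) ?_
        · rw [Ideal.span_singleton_le_iff_mem]; exact Ideal.pow_mem_pow hπmem _
        · have hne' : Ideal.span {(z - 1) ^ r σ} ⊔ L ^ (r σ + 1) ≠ ⊥ := fun h ↦
            pow_ne_zero (r σ + 1) hL0 (le_bot_iff.mp (h ▸ le_sup_right))
          have hdvd : Ideal.span {(z - 1) ^ r σ} ⊔ L ^ (r σ + 1) ∣ L ^ (r σ + 1) :=
            Ideal.dvd_iff_le.mpr le_sup_right
          obtain ⟨i, hi, heq⟩ := (dvd_prime_pow (Ideal.prime_of_isPrime hL0 (hwp σ)) _).mp hdvd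
          rw [associated_iff_eq] at heq
          rw [heq]
          refine Ideal.pow_le_pow_right ?_
          have hmem : (z - 1) ^ r σ ∈ L ^ i :=
            heq ▸ Ideal.mem_sup_left (Ideal.mem_span_singleton_self _)
          have := (mem_pow_iff_cnt (hwp σ) hL0 (pow_ne_zero _ hπ0)).mp hmem
          rwa [cnt_span_pow, hπ, mul_one] at this
      rw [← hgcd, Submodule.mem_sup] at hx
      obtain ⟨u, hu, v, hv, rfl⟩ := hx
      obtain ⟨a, rfl⟩ := Ideal.mem_span_singleton'.mp hu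
      exact ⟨a, by simpa using hv⟩
    obtain ⟨a, ha⟩ := hLr β ((mem_pow_iff_cnt (hwp σ) hL0 hβ0).mpr le_rfl)
    obtain ⟨k, hk⟩ := hres a
    have hπr : (z - 1) ^ r σ ∈ L ^ r σ := Ideal.pow_mem_pow hπmem _
    have hβk : β - (k : 𝓞 F) * (z - 1) ^ r σ ∈ L ^ (r σ + 1) := by
      have h2 : (a - k) * (z - 1) ^ r σ ∈ L ^ (r σ + 1) := by
        rw [pow_succ' L]; exact Ideal.mul_mem_mul hk hπr
      convert Ideal.add_mem _ ha h2 using 1
      ring
    have hkL : (k : 𝓞 F) ∉ L := fun h ↦ by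
      have h2 : (k : 𝓞 F) * (z - 1) ^ r σ ∈ L ^ (r σ + 1) := by
        rw [pow_succ' L]; exact Ideal.mul_mem_mul h hπr
      have h3 : β ∈ L ^ (r σ + 1) := by simpa using Ideal.add_mem _ hβk h2
      have := (mem_pow_iff_cnt (hwp σ) hL0 hβ0).mp h3
      simp only [r] at this
      omega
    -- `S = 1 + z + ... + z^(g-1) ≡ g`
    set S := ∑ i ∈ Finset.range g, z ^ i
    have hτπ : τ • (z - 1) = S * (z - 1) := by
      rw [smul_sub, hτz, smul_one, geom_sum_mul]
    have hS : S ^ r σ - (g : 𝓞 F) ^ r σ ∈ L := by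
      refine L.mem_of_dvd ((sub_dvd_pow_sub_pow _ _ _)) ?_
      rw [show S - (g : 𝓞 F) = ∑ i ∈ Finset.range g, (z ^ i - 1) by simp [S, Finset.sum_sub_distrib]]
      exact Ideal.sum_mem _ fun i _ ↦ L.mem_of_dvd (sub_one_dvd_pow_sub_one z i) hπmem
    have hmain : (ε - (g : 𝓞 F) ^ r σ) * ((k : 𝓞 F) * (z - 1) ^ r σ) ∈ L ^ (r σ + 1) := by
      have h1 := hτL _ _ hβk
      rw [smul_sub, hτβ, smul_mul', smul_pow', hτπ, show τ • (k : 𝓞 F) = (k : 𝓞 F) by
        rw [← map_natCast (algebraMap (𝓞 K) (𝓞 F)), hfix]] at h1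
      have h2 : ε * (β - (k : 𝓞 F) * (z - 1) ^ r σ) ∈ L ^ (r σ + 1) := Ideal.mul_mem_left _ _ hβk
      have h3 : (k : 𝓞 F) * (z - 1) ^ r σ * (S ^ r σ - (g : 𝓞 F) ^ r σ) ∈ L ^ (r σ + 1) := by
        rw [pow_succ L]
        exact Ideal.mul_mem_mul (Ideal.mul_mem_left _ _ hπr) hS
      convert Ideal.add_mem _ (Ideal.sub_mem _ h1 h2) h3 using 1
      rw [mul_pow]
      ring
    have hεg : ε - (g : 𝓞 F) ^ r σ ∈ L := by
      by_contra h
      have hk0 : (k : 𝓞 F) ≠ 0 := fun h0 ↦ hkL (h0 ▸ L.zero_mem)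
      have h0 : ε - (g : 𝓞 F) ^ r σ ≠ 0 := fun h0 ↦ h (h0 ▸ L.zero_mem)
      have hrest : (k : 𝓞 F) * (z - 1) ^ r σ ≠ 0 := mul_ne_zero hk0 (pow_ne_zero _ hπ0)
      have hc := (mem_pow_iff_cnt (hwp σ) hL0 (mul_ne_zero h0 hrest)).mp hmain
      rw [cnt_span_mul h0 hrest, cnt_span_mul hk0 (pow_ne_zero _ hπ0), cnt_span_pow, hπ,
        cnt_eq_zero_of_not_mem (Ideal.mem_span_singleton_self _) h,
        cnt_eq_zero_of_not_mem (Ideal.mem_span_singleton_self _) hkL] at hc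
      omega
    rw [(L.over_def (σ • P)), Ideal.mem_comap]
    convert L.add_mem hεg hπmem using 1
    rw [map_sub, map_sub, map_one, map_pow, map_natCast, hε, hζF]
    ring
  · -- the relation in the class group
    let T := (normalizedFactors (Ideal.span {γ})).toFinset ∪
      Finset.univ.image (fun σ : K ≃ₐ[ℚ] K ↦ σ • P)
    have hT : ∀ Q ∈ T, Q ≠ ⊥ := by
      intro Q hQ
      rcases Finset.mem_union.mp hQ with h | h
      · exact (prime_of_normalized_factor Q (Multiset.mem_toFinset.mp h)).ne_zero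
      · obtain ⟨σ, -, rfl⟩ := Finset.mem_image.mp h
        exact hne σ
    let I : (Ideal (𝓞 K))⁰ := ⟨Ideal.span {γ}, mem_nonZeroDivisors_of_ne_zero hγspan⟩
    have h1 : φ (ClassGroup.mk0 I) = 1 := by
      rw [(ClassGroup.mk0_eq_one_iff I.2).mpr ⟨⟨γ, rfl⟩⟩, map_one]
    rw [classHom_eq_prod φ I T
      (fun Q hQ ↦ Finset.mem_union_left _ (Multiset.mem_toFinset.mpr hQ)) toNZ
      (fun Q hQ ↦ coe_toNZ (hT Q hQ))] at h1
    rw [← Finset.prod_subset (s₁ := Finset.univ.image (fun σ : K ≃ₐ[ℚ] K ↦ σ • P))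
      Finset.subset_union_right, Finset.prod_image] at h1
    · rw [← h1]
      exact Finset.prod_congr rfl fun σ _ ↦ by rw [← hr σ]
    · intro a _ b _ hab
      have := hinj (b⁻¹ * a) (by rw [mul_smul]; simp only at hab; rw [hab, inv_smul_smul])
      exact (inv_mul_eq_one.mp this).symm
    · intro Q hQ hQi
      suffices p ∣ cnt Q (Ideal.span {γ}) by
        obtain ⟨c, hc⟩ := this
        show φ _ ^ cnt Q (Ideal.span {γ}) = 1
        rw [hc, pow_mul, hM, one_pow]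
      by_cases hQγ : Q ∈ normalizedFactors (Ideal.span {γ})
      · have hQp : Q.IsPrime := Ideal.isPrime_of_prime (prime_of_normalized_factor Q hQγ)
        have hQ0 : Q ≠ ⊥ := hT Q hQ
        haveI := hQp.isMaximal hQ0
        obtain ⟨W, hW1, hW2⟩ := Ideal.exists_maximal_ideal_liesOver_of_isIntegral (S := 𝓞 F) Q
        haveI := hW2
        have hℓQ : (ℓ : 𝓞 K) ∉ Q := fun h ↦ by
          obtain ⟨σ, rfl⟩ := exists_smul_eq_of_mem hℓ hP hnorm hinj hQp h
          exact hQi (Finset.mem_image_of_mem _ (Finset.mem_univ σ))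
        have h := cnt_map (w := W) hQp hQ0 hW1.isPrime hγspan
        rw [hmap, cnt_pow, ramificationIdx_eq_one_of_not_mem (z := z) hzF hQp hQ0 hℓQ hW1.isPrime,
          one_mul] at h
        exact h ▸ dvd_mul_of_dvd_left hℓp _
      · rw [cnt, Multiset.count_eq_zero.mpr hQγ]
        exact dvd_zero _

end

end Fermat.Agent.ExtVanishing
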