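import Fermat.Agent.ExtVanishing.CharTrivial
import Fermat.Agent.ExtVanishing.Thaine
import Fermat.Agent.ExtVanishing.LocalPi
import Fermat.Agent.ExtVanishing.CycloSetup
import Fermat.Agent.ExtVanishing.ClassProj
import Mathlib.FieldTheory.KummerPolynomial
import Mathlib.Analysis.SpecialFunctions.Complex.CircleAddChar
import Mathlib.RingTheory.Ideal.Norm.RelNorm

/-!
# The `ω²` eigen-characters of the class group of `ℚ(ζ)` are trivial

At a prime of degree one where such a character does not vanish, Thaine's relation makes the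
cyclotomic unit a `p`-th power residue; the density criterion then kills the character.
-/

set_option autoImplicit false
set_option linter.style.haveILetI false
set_option linter.unusedSectionVars false

namespace Fermat.Agent.ExtVanishing

open NumberField IsDedekindDomain Polynomial Module
open scoped Pointwise nonZeroDivisors Classical

noncomputable section

variable {K : Type} [Field K] [NumberField K] {p : ℕ} [hp : Fact p.Prime]
  [IsCyclotomicExtension {p} ℚ K] {z : K} (hz : IsPrimitiveRoot z p)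

lemma smul_natCast_ringOfIntegers (σ : K ≃ₐ[ℚ] K) (n : ℕ) : σ • (n : 𝓞 K) = n :=
  map_natCast (MulSemiringAction.toRingHom (K ≃ₐ[ℚ] K) (𝓞 K) σ) n

include hz in
lemma mk_zeta_primitive {P : Ideal (𝓞 K)} [P.IsPrime] (hpP : (p : 𝓞 K) ∉ P) :
    IsPrimitiveRoot (Ideal.Quotient.mk P hz.toInteger) p := by
  have hne : Ideal.Quotient.mk P hz.toInteger ≠ 1 := by
    rw [ne_eq, ← sub_eq_zero, ← map_one (Ideal.Quotient.mk P), ← map_sub,
      Ideal.Quotient.eq_zero_iff_mem]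
    intro h
    have hd : hz.toInteger - 1 ∣ (p : 𝓞 K) :=
      (dvd_pow_self _ (by have := hp.out.two_le; omega : p - 1 ≠ 0)).trans
        (IsCyclotomicExtension.Rat.associated_zeta_sub_one_pow_prime p hz).dvd
    obtain ⟨c, hc⟩ := hd
    exact hpP (by rw [hc]; exact P.mul_mem_right c h)
  have h : orderOf (Ideal.Quotient.mk P hz.toInteger) = p := orderOf_eq_prime
    (by rw [← map_pow, hz.toInteger_isPrimitiveRoot.pow_eq_one, map_one]) hne
  have h' := IsPrimitiveRoot.orderOf (Ideal.Quotient.mk P hz.toInteger)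
  rwa [h] at h'

include hz in
lemma good_prime_facts {ℓ : ℕ} (hℓ : ℓ.Prime) {P : Ideal (𝓞 K)} (hP : P.IsPrime)
    (hnorm : Ideal.absNorm P = ℓ) (hpP : (p : 𝓞 K) ∉ P) :
    p ∣ ℓ - 1 ∧ ∀ σ : K ≃ₐ[ℚ] K, σ • P = P → σ = 1 := by
  have hP0 : P ≠ ⊥ := fun h ↦ hℓ.ne_zero (by rw [← hnorm, h, Ideal.absNorm_bot])
  haveI : P.IsMaximal := hP.isMaximal hP0
  have hcard : Nat.card (𝓞 K ⧸ P) = ℓ := by
    rw [← Submodule.cardQuot_apply, ← Ideal.absNorm_apply, hnorm]
  have hr := mk_zeta_primitive hz hpP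
  letI := Ideal.Quotient.field P
  haveI : Finite (𝓞 K ⧸ P) := Nat.finite_of_card_ne_zero (by rw [hcard]; exact hℓ.ne_zero)
  letI := Fintype.ofFinite (𝓞 K ⧸ P)
  constructor
  · rw [← hr.pow_eq_one_iff_dvd, ← hcard, Nat.card_eq_fintype_card]
    exact FiniteField.pow_card_sub_one_eq_one _ (hr.ne_zero hp.out.ne_zero)
  · intro σ hσ
    haveI : Fact ℓ.Prime := ⟨hℓ⟩
    haveI : Nontrivial (𝓞 K ⧸ P) := inferInstance
    have hchar : CharP (𝓞 K ⧸ P) ℓ := (CharP.charP_iff_prime_eq_zero hℓ).mpr (by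
      rw [← map_natCast (Ideal.Quotient.mk P), Ideal.Quotient.eq_zero_iff_mem, ← hnorm]
      exact Ideal.absNorm_mem P)
    obtain ⟨n, hn⟩ := ((ZMod.castHom (dvd_refl ℓ) (𝓞 K ⧸ P)).injective.bijective_of_nat_card_le
        (by rw [hcard, Nat.card_zmod])).2 (Ideal.Quotient.mk P hz.toInteger)
    have h1 : hz.toInteger - (n.val : 𝓞 K) ∈ P := by
      rw [← Ideal.Quotient.eq, map_natCast, ← hn]
      conv_lhs => rw [← ZMod.natCast_zmod_val n]
      rw [map_natCast]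
    have h2 := Ideal.smul_mem_pointwise_smul σ _ _ h1
    rw [hσ, smul_sub, smul_natCast_ringOfIntegers, smul_toInteger_eq_pow hz] at h2
    have h3 : Ideal.Quotient.mk P hz.toInteger ^ (chiK hz σ : ZMod p).val =
        Ideal.Quotient.mk P hz.toInteger ^ 1 := by
      rw [pow_one, ← map_pow, Ideal.Quotient.eq]
      simpa using P.sub_mem h2 h1
    have h4 := hr.pow_inj (ZMod.val_lt _) hp.out.one_lt h3
    refine (chiK_bijective hz).1 ?_
    rw [map_one]
    refine Units.ext ?_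
    rw [Units.val_one, ← ZMod.natCast_zmod_val (chiK hz σ : ZMod p), h4, Nat.cast_one]

/-- Where an eigen-character does not vanish, the cyclotomic unit is a `p`-th power residue. -/
theorem exists_pow_sub_cycUnit_mem (hp5 : 5 ≤ p)
    (f : ClassGroup (𝓞 K) →* Multiplicative (ZMod p))
    (hf : ∀ σ y, (f (clAct K σ y)).toAdd = (chiK hz σ : ZMod p) ^ 2 * (f y).toAdd)
    {ℓ : ℕ} (hℓ : ℓ.Prime) {P : Ideal (𝓞 K)} (hP : P.IsPrime) (hnorm : Ideal.absNorm P = ℓ)
    (hpP : (p : 𝓞 K) ∉ P) (hfP : f (ClassGroup.mk0 (toNZ P)) ≠ 1) :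
    ∃ y : 𝓞 K, y ^ p - cycUnit p hz.toInteger ∈ P := by
  haveI : IsGalois ℚ K := isGalois_cyclo (p := p)
  obtain ⟨hℓp, hinj⟩ := good_prime_facts hz hℓ hP hnorm hpP
  have hP0 : P ≠ ⊥ := fun h ↦ hℓ.ne_zero (by rw [← hnorm, h, Ideal.absNorm_bot])
  haveI : P.IsMaximal := hP.isMaximal hP0
  obtain ⟨g, r, hr, hrel⟩ := thaine_relation hz.toInteger_isPrimitiveRoot hℓ hℓp hP hnorm hinj
    (M := Multiplicative (ZMod p))
    (fun m ↦ Multiplicative.toAdd.injective (by simp [toAdd_pow])) f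
  -- the relation between the exponents
  have hclass : ∀ σ : K ≃ₐ[ℚ] K, ClassGroup.mk0 (toNZ (σ • P)) =
      clAct K σ (ClassGroup.mk0 (toNZ P)) := fun σ ↦ by
    rw [clAct_mk0]
    refine congrArg _ (Subtype.ext ?_)
    have hne : σ • P ≠ ⊥ := fun h ↦ hℓ.ne_zero (by
      have h' := absNorm_smul σ P
      rw [h, Ideal.absNorm_bot, hnorm] at h'
      exact h'.symm)
    rw [coe_toNZ hne]
    show _ = σ • (toNZ P : Ideal (𝓞 K))
    rw [coe_toNZ hP0]
  have hsum : ∑ σ : K ≃ₐ[ℚ] K, (r σ : ZMod p) * (chiK hz σ : ZMod p) ^ 2 = 0 := by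
    have h := congrArg Multiplicative.toAdd hrel
    simp only [hclass, toAdd_prod, toAdd_pow, hf, toAdd_one, nsmul_eq_mul, ← mul_assoc,
      ← Finset.sum_mul, mul_eq_zero] at h
    exact h.resolve_right fun h0 ↦ hfP (Multiplicative.toAdd.injective h0)
  -- the product of the conjugates of `ζ - 1`
  let m : (K ≃ₐ[ℚ] K) → ℕ := fun σ ↦ expo (chiK hz σ⁻¹)
  have hm : p ∣ ∑ σ, r σ * m σ := by
    rw [← ZMod.natCast_eq_zero_iff, ← hsum, Nat.cast_sum]
    refine Finset.sum_congr rfl fun σ _ ↦ ?_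
    rw [Nat.cast_mul]
    simp only [m, expo, map_inv, inv_inv, ZMod.natCast_zmod_val]
  obtain ⟨k, hk⟩ := hm
  have hbij : Function.Bijective fun σ : K ≃ₐ[ℚ] K ↦ chiK hz σ⁻¹ :=
    (chiK_bijective hz).comp inv_involutive.bijective
  have hprod : ∏ σ : K ≃ₐ[ℚ] K, (σ⁻¹ • (hz.toInteger - 1)) ^ m σ =
      cycUnit p hz.toInteger * (hz.toInteger - 1) ^ ∑ b : (ZMod p)ˣ, expo b := by
    rw [cycUnit, ← Finset.prod_pow_eq_pow_sum, ← Finset.prod_mul_distrib]
    refine Fintype.prod_bijective _ hbij _ _ fun σ ↦ ?_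
    rw [← mul_pow, geom_sum_mul, smul_sub, smul_toInteger_eq_pow hz, smul_one]
  obtain ⟨q, hq⟩ : p ∣ ∑ b : (ZMod p)ˣ, expo b := by
    rw [← ZMod.natCast_eq_zero_iff, Nat.cast_sum]
    simp only [expo, ZMod.natCast_zmod_val]
    refine sum_units_pow_eq 2 fun h ↦ ?_
    have := Nat.le_of_dvd two_pos h
    omega
  letI := Ideal.Quotient.field P
  have hmk : ∀ σ : K ≃ₐ[ℚ] K, Ideal.Quotient.mk P (σ⁻¹ • (hz.toInteger - 1)) =
      (g : 𝓞 K ⧸ P) ^ r σ := fun σ ↦ by
    have h := Ideal.mem_pointwise_smul_iff_inv_smul_mem.mp (hr σ)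
    rw [smul_sub, smul_pow', smul_natCast_ringOfIntegers] at h
    rw [Ideal.Quotient.eq.mpr h, map_pow, map_natCast]
  have hmain := congrArg (Ideal.Quotient.mk P) hprod
  simp only [map_mul, map_prod, map_pow, hmk, ← pow_mul, Finset.prod_pow_eq_pow_sum, hk, hq] at hmain
  set x := Ideal.Quotient.mk P (hz.toInteger - 1) with hxdef
  have hx : x ≠ 0 := by
    rw [hxdef, map_sub, map_one, sub_ne_zero]
    exact (mk_zeta_primitive hz hpP).ne_one hp.out.one_lt
  obtain ⟨y, hy⟩ := Ideal.Quotient.mk_surjective ((g : 𝓞 K ⧸ P) ^ k / x ^ q)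
  refine ⟨y, ?_⟩
  rw [← Ideal.Quotient.eq, map_pow, hy, div_pow, ← pow_mul, ← pow_mul,
    div_eq_iff (pow_ne_zero _ hx), mul_comm k, mul_comm q, hmain]

variable {M : Type} [Field M] [NumberField M] [Algebra K M] [FiniteDimensional K M]

/-- If the cyclotomic unit is a `p`-th power mod `P`, then `P` has `p` primes of the same norm
in `K(cycUnit^(1/p))`. -/
theorem exists_split_primes (hdeg : finrank K M = p) {η : M}
    (hη : η ^ p = algebraMap K M (cycUnit p hz.toInteger : 𝓞 K))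
    (hauto : ∀ i : Fin p, ∃ φ : M →ₐ[K] M, φ η = algebraMap K M (z ^ (i : ℕ)) * η)
    {ℓ : ℕ} (hℓ : ℓ.Prime) {P : Ideal (𝓞 K)} (hP : P.IsPrime) (hnorm : Ideal.absNorm P = ℓ)
    (hpP : (p : 𝓞 K) ∉ P) {y : 𝓞 K} (hy : y ^ p - cycUnit p hz.toInteger ∈ P) :
    ∃ Q : Fin p → HeightOneSpectrum (𝓞 M), Function.Injective Q ∧
      (∀ i, Ideal.absNorm (Q i).asIdeal = ℓ) ∧
      ∀ i, (Q i).asIdeal.comap (algebraMap (𝓞 K) (𝓞 M)) = P := by
  have hP0 : P ≠ ⊥ := fun h ↦ hℓ.ne_zero (by rw [← hnorm, h, Ideal.absNorm_bot])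
  haveI : P.IsMaximal := hP.isMaximal hP0
  set ι := algebraMap (𝓞 K) (𝓞 M)
  have hint : IsIntegral ℤ η := IsIntegral.of_pow hp.out.pos (by
    rw [hη]; exact (cycUnit p hz.toInteger).2.map (IsScalarTower.toAlgHom ℤ K M))
  let η' : 𝓞 M := ⟨η, hint⟩
  have hη' : η' ^ p = ι (cycUnit p hz.toInteger) := RingOfIntegers.ext hη
  obtain ⟨W, hW1, hW2⟩ := Ideal.exists_maximal_ideal_liesOver_of_isIntegral (S := 𝓞 M) P
  haveI := hW1.isPrime
  have hWP : W.comap ι = P := (W.over_def P).symm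
  -- `η` is congruent to one of the roots
  letI := Ideal.Quotient.field W
  set F := Ideal.Quotient.mk W
  have hres : ∀ x : 𝓞 K, F (ι x) = 0 ↔ x ∈ P := fun x ↦ by
    rw [Ideal.Quotient.eq_zero_iff_mem, ← Ideal.mem_comap, hWP]
  have hmk := mk_zeta_primitive hz hpP
  have hzW : IsPrimitiveRoot (F (ι hz.toInteger)) p := by
    refine IsPrimitiveRoot.mk_of_lt _ hp.out.pos
      (by rw [← map_pow, ← map_pow, hz.toInteger_isPrimitiveRoot.pow_eq_one, map_one, map_one])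
      fun l hl0 hlp h ↦ hmk.pow_ne_one_of_pos_of_lt hl0.ne' hlp ?_
    rw [← map_pow, ← map_one (Ideal.Quotient.mk P), Ideal.Quotient.eq, ← hres, map_sub, map_sub,
      map_pow, map_pow, h, map_one, map_one, sub_self]
  have hy0 : F (ι y) ≠ 0 := fun h ↦ hP.ne_top (Ideal.eq_top_of_isUnit_mem P (by
      simpa using P.sub_mem (P.pow_mem_of_mem ((hres y).mp h) p hp.out.pos) hy)
    (isUnit_cycUnit hz.toInteger_isPrimitiveRoot))
  have hroot : F η' ^ p = F (ι y) ^ p := by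
    rw [← map_pow, hη', ← map_pow, ← map_pow, ← sub_eq_zero, ← map_sub, ← map_sub, hres]
    simpa using P.neg_mem hy
  haveI : NeZero p := ⟨hp.out.ne_zero⟩
  obtain ⟨j, -, hj⟩ := hzW.eq_pow_of_pow_eq_one
    (show (F η' / F (ι y)) ^ p = 1 by rw [div_pow, hroot, div_self (pow_ne_zero _ hy0)])
  rw [eq_div_iff hy0] at hj
  -- move `W` by the automorphisms
  choose φ hφ using hauto
  let Φ : Fin p → (𝓞 M →+* 𝓞 M) := fun i ↦ RingOfIntegers.mapRingHom (φ i : M →+* M)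
  have hΦι : ∀ i x, Φ i (ι x) = ι x := fun i x ↦ RingOfIntegers.ext ((φ i).commutes (x : K))
  have hΦη : ∀ i : Fin p, Φ i η' = ι hz.toInteger ^ (i : ℕ) * η' := fun i ↦ RingOfIntegers.ext (by
    show φ i η = _
    rw [hφ i, map_pow]
    rfl)
  have hcomap : ∀ i, (W.comap (Φ i)).comap ι = P := fun i ↦ by
    rw [Ideal.comap_comap, ← hWP]
    congr 1
    exact RingHom.ext (hΦι i)
  have hne : ∀ i, W.comap (Φ i) ≠ ⊥ := fun i h ↦ by
    refine hP0 ?_
    rw [← hcomap i, h]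
    exact Ideal.comap_bot_of_injective ι (FaithfulSMul.algebraMap_injective _ _)
  let Q : Fin p → HeightOneSpectrum (𝓞 M) := fun i ↦ ⟨W.comap (Φ i), Ideal.IsPrime.comap _, hne i⟩
  have hQinj : Function.Injective Q := by
    intro a b hab
    have h1 : W.comap (Φ a) = W.comap (Φ b) := congrArg HeightOneSpectrum.asIdeal hab
    have key : ∀ i : Fin p, F (Φ i η') = F (ι hz.toInteger) ^ ((i : ℕ) + j) * F (ι y) := fun i ↦ by
      rw [hΦη, map_mul, map_pow, pow_add, mul_assoc, hj]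
    let w : 𝓞 M := η' - ι (hz.toInteger ^ ((a : ℕ) + j) * y)
    have hw : ∀ i : Fin p, w ∈ W.comap (Φ i) ↔
        F (ι hz.toInteger) ^ ((i : ℕ) + j) = F (ι hz.toInteger) ^ ((a : ℕ) + j) := fun i ↦ by
      rw [Ideal.mem_comap, ← Ideal.Quotient.eq_zero_iff_mem, map_sub, map_sub, hΦι, key, map_mul,
        map_mul, map_pow, map_pow, sub_eq_zero, mul_left_inj' hy0]
    have h2 : F (ι hz.toInteger) ^ ((b : ℕ) + j) = F (ι hz.toInteger) ^ ((a : ℕ) + j) :=
      (hw b).mp (h1 ▸ (hw a).mpr rfl)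
    rw [pow_add, pow_add, mul_left_inj' (pow_ne_zero _ (hzW.ne_zero hp.out.ne_zero))] at h2
    exact Fin.ext (hzW.pow_inj a.2 b.2 h2.symm)
  refine ⟨Q, hQinj, ?_, hcomap⟩
  -- the norms
  have hnormJ : Ideal.absNorm (P.map ι) = ℓ ^ p := by
    rw [Ideal.absNorm_algebraMap, hnorm]
    congr 1
    rw [← hdeg]
    exact (IsFractionRing.finrank_eq (𝓞 K) K (𝓞 M) M).symm
  have hdvd : (∏ i, (Q i).asIdeal) ∣ P.map ι := by
    have h := Finset.prod_primes_dvd (P.map ι) (s := Finset.univ.image fun i ↦ (Q i).asIdeal)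
      (fun a ha ↦ by
        obtain ⟨i, -, rfl⟩ := Finset.mem_image.mp ha
        exact Ideal.prime_of_isPrime (Q i).ne_bot (Q i).isPrime)
      (fun a ha ↦ by
        obtain ⟨i, -, rfl⟩ := Finset.mem_image.mp ha
        rw [Ideal.dvd_iff_le, Ideal.map_le_iff_le_comap]
        exact (hcomap i).ge)
    rwa [Finset.prod_image fun a _ b _ hab ↦ hQinj (HeightOneSpectrum.ext hab)] at h
  have hN : ∏ i, Ideal.absNorm (Q i).asIdeal ≤ ℓ ^ p := by
    rw [← hnormJ, ← map_prod]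
    obtain ⟨C, hC⟩ := hdvd
    refine Nat.le_of_dvd ?_ ⟨Ideal.absNorm C, by rw [hC, map_mul]⟩
    rw [hnormJ]
    exact pow_pos hℓ.pos _
  have hge : ∀ i, ℓ ≤ Ideal.absNorm (Q i).asIdeal := fun i ↦ by
    have h1 : Ideal.absNorm (Q i).asIdeal ∣ ℓ ^ p := hnormJ ▸ Ideal.absNorm_dvd_absNorm_of_le
      (Ideal.map_le_iff_le_comap.mpr (hcomap i).ge)
    obtain ⟨f, -, hf⟩ := (Nat.dvd_prime_pow hℓ).mp h1
    rw [hf]
    refine Nat.le_self_pow (fun h0 ↦ ?_) ℓ
    have := two_le_absNorm M (Q i)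
    rw [hf, h0, pow_zero] at this
    omega
  intro i
  by_contra hi
  refine (lt_of_lt_of_le ?_ hN).false
  calc ℓ ^ p = ∏ _i : Fin p, ℓ := by rw [Finset.prod_const, Finset.card_univ, Fintype.card_fin]
    _ < _ := Finset.prod_lt_prod (fun _ _ ↦ hℓ.pos) (fun j _ ↦ hge j)
        ⟨i, Finset.mem_univ i, lt_of_le_of_ne (hge i) (Ne.symm hi)⟩

/-- The `ω²` eigen-characters of the class group are trivial. -/
theorem eigenHom_eq_one (hp5 : 5 ≤ p) (f : ClassGroup (𝓞 K) →* Multiplicative (ZMod p))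
    (hf : ∀ σ y, (f (clAct K σ y)).toAdd = (chiK hz σ : ZMod p) ^ 2 * (f y).toAdd) : f = 1 := by
  haveI : NeZero p := ⟨hp.out.ne_zero⟩
  set e : K := ((cycUnit p hz.toInteger : 𝓞 K) : K) with he
  have hirr : Irreducible (X ^ p - C e) := X_pow_sub_C_irreducible_of_prime hp.out fun b hb ↦ by
    have hb' : IsIntegral ℤ b := IsIntegral.of_pow hp.out.pos (hb ▸ (cycUnit p hz.toInteger).2)
    obtain ⟨b', hb''⟩ : ∃ b' : 𝓞 K, b' ^ p = cycUnit p hz.toInteger :=
      ⟨⟨b, hb'⟩, RingOfIntegers.ext hb⟩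
    refine hp.out.not_dvd_one (dvd_of_cycUnit_pow_sub_mem hz hp5 (i := 1) (y := b') ?_)
    rw [pow_one, hb'', sub_self]
    exact Submodule.zero_mem _
  haveI := Fact.mk hirr
  let L := AdjoinRoot (X ^ p - C e)
  haveI : Module.Finite K L := (AdjoinRoot.powerBasis hirr.ne_zero).finite
  haveI : CharZero L := charZero_of_injective_algebraMap (algebraMap K L).injective
  haveI : IsScalarTower ℚ K L := IsScalarTower.of_algebraMap_eq' (Subsingleton.elim _ _)
  haveI : NumberField L := { to_charZero := inferInstance, to_finiteDimensional := Module.Finite.trans K L }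
  have hdeg : finrank K L = p := by
    rw [(AdjoinRoot.powerBasis hirr.ne_zero).finrank, AdjoinRoot.powerBasis_dim,
      natDegree_X_pow_sub_C]
  set η : L := AdjoinRoot.root (X ^ p - C e)
  have hη : η ^ p = algebraMap K L e := by
    have h := AdjoinRoot.eval₂_root (X ^ p - C e)
    rw [eval₂_sub, eval₂_X_pow, eval₂_C, sub_eq_zero] at h
    exact h
  have hauto : ∀ i : Fin p, ∃ φ : L →ₐ[K] L, φ η = algebraMap K L (z ^ (i : ℕ)) * η := fun i ↦
    ⟨AdjoinRoot.liftAlgHom _ (Algebra.ofId K L) (algebraMap K L (z ^ (i : ℕ)) * η) (by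
      rw [eval₂_sub, eval₂_X_pow, eval₂_C, mul_pow, hη, ← map_pow, ← pow_mul, mul_comm _ p,
        pow_mul, hz.pow_eq_one, one_pow, map_one, one_mul]
      exact sub_self _), AdjoinRoot.liftAlgHom_root ..⟩
  let ψ : Multiplicative (ZMod p) →* ℂ := (ZMod.stdAddChar (N := p)).toMonoidHom
  let Sp : Set (HeightOneSpectrum (𝓞 K)) := {P | (Ideal.absNorm P.asIdeal).Prime ∧
    (p : 𝓞 K) ∉ P.asIdeal ∧ ∃ y : 𝓞 K, y ^ p - cycUnit p hz.toInteger ∈ P.asIdeal}
  have hQ : ∀ P : Sp, ∃ Q : Fin p → HeightOneSpectrum (𝓞 L), Function.Injective Q ∧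
      (∀ i, Ideal.absNorm (Q i).asIdeal = Ideal.absNorm P.1.asIdeal) ∧
      ∀ i, (Q i).asIdeal.comap (algebraMap (𝓞 K) (𝓞 L)) = P.1.asIdeal := by
    rintro ⟨P, hℓ, hpP, y, hy⟩
    exact exists_split_primes hz hdeg hη hauto hℓ P.isPrime rfl hpP hy
  choose Q hQinj hQnorm hQover using hQ
  have hfin : {P : HeightOneSpectrum (𝓞 K) | (p : 𝓞 K) ∈ P.asIdeal}.Finite := by
    refine (Ideal.finite_factors (I := Ideal.span {(p : 𝓞 K)}) ?_).subset fun P hP ↦ ?_
    · rw [ne_eq, Submodule.zero_eq_bot, Ideal.span_singleton_eq_bot]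
      exact Nat.cast_ne_zero.mpr hp.out.ne_zero
    · exact Ideal.dvd_span_singleton.mpr hP
  have hone := char_eq_one_of_kills_inert (K := K) (M := L) (p := p) (by omega) (ψ.comp f)
    (fun c ↦ by simp [ψ, ZMod.stdAddChar_apply]) hfin.toFinset Sp Q
    (fun a b hab ↦ by
      have h1 : a.1 = b.1 := Subtype.ext (HeightOneSpectrum.ext (by
        rw [← hQover a.1 a.2, ← hQover b.1 b.2]
        exact congrArg (fun v : HeightOneSpectrum (𝓞 L) ↦
          v.asIdeal.comap (algebraMap (𝓞 K) (𝓞 L))) hab))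
      exact Prod.ext h1 (hQinj a.1 (by simpa only [h1] using hab)))
    hQnorm
    (fun P hℓ hPT ↦ by
      rw [Set.Finite.mem_toFinset] at hPT
      by_cases h1 : f (ClassGroup.mk0 (primeNZ K P)) = 1
      · exact Or.inr (by simp [h1])
      · refine Or.inl ⟨hℓ, hPT, exists_pow_sub_cycUnit_mem hz hp5 f hf hℓ P.isPrime rfl hPT ?_⟩
        rwa [show toNZ P.asIdeal = primeNZ K P from Subtype.ext (coe_toNZ P.ne_bot)])
  refine MonoidHom.ext fun c ↦ Multiplicative.toAdd.injective (ZMod.injective_stdAddChar ?_)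
  rw [MonoidHom.one_apply, toAdd_one, AddChar.map_zero_eq_one]
  exact DFunLike.congr_fun hone c

end

end Fermat.Agent.ExtVanishing
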