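import Fermat.Agent.ExtVanishing.ClassSum
import Mathlib.Analysis.SpecificLimits.Normed
import Mathlib.Analysis.Normed.Group.Tannery

/-!
# Euler products for completely multiplicative functions on ideals
-/

set_option autoImplicit false

namespace Fermat.Agent.ExtVanishing

open NumberField Filter IsDedekindDomain UniqueFactorizationMonoid
open scoped nonZeroDivisors Classical Topology

noncomputable section

section Abstract

variable {ι : Type*} {𝕜 : Type*} [NormedField 𝕜] [CompleteSpace 𝕜] (f : ι → 𝕜)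

/-- The completely multiplicative extension of `f` to exponent vectors. -/
def powProd (v : ι →₀ ℕ) : 𝕜 := v.prod fun i n ↦ f i ^ n

omit [CompleteSpace 𝕜] in
lemma powProd_add (v w : ι →₀ ℕ) : powProd f (v + w) = powProd f v * powProd f w :=
  Finsupp.prod_add_index' (fun _ ↦ pow_zero _) fun _ _ _ ↦ pow_add _ _ _

omit [CompleteSpace 𝕜] in
lemma powProd_single (i : ι) (n : ℕ) : powProd f (Finsupp.single i n) = f i ^ n :=
  Finsupp.prod_single_index (pow_zero _)

variable {f}

omit [CompleteSpace 𝕜] in
lemma norm_lt_one_of_summable_powProd (h : Summable fun v ↦ ‖powProd f v‖) (i : ι) : ‖f i‖ < 1 := by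
  have h1 := h.comp_injective (Finsupp.single_injective (M := ℕ) i)
  simp only [Function.comp_def, powProd_single, norm_pow] at h1
  simpa using summable_geometric_iff_norm_lt_one.mp h1

omit [CompleteSpace 𝕜] in
lemma summable_norm_of_powProd (h : Summable fun v ↦ ‖powProd f v‖) : Summable fun i ↦ ‖f i‖ := by
  have h1 := h.comp_injective (i := fun i : ι ↦ Finsupp.single i 1)
    (fun a b hab ↦ Finsupp.single_left_injective one_ne_zero hab)
  simpa [Function.comp_def, powProd_single] using h1

/-- Finite Euler products. -/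
lemma hasSum_powProd_subtype (h : Summable fun v ↦ ‖powProd f v‖) (S : Finset ι) :
    HasSum (fun v : {v : ι →₀ ℕ // v.support ⊆ S} ↦ powProd f v.1) (∏ i ∈ S, (1 - f i)⁻¹) := by
  induction S using Finset.induction_on with
  | empty =>
    rw [Finset.prod_empty]
    let z : {v : ι →₀ ℕ // v.support ⊆ (∅ : Finset ι)} := ⟨0, by simp⟩
    have hu : ∀ v, v = z := fun v ↦ Subtype.ext
      (Finsupp.support_eq_empty.mp (Finset.subset_empty.mp v.2))
    have := hasSum_single (f := fun v : {v : ι →₀ ℕ // v.support ⊆ (∅ : Finset ι)} ↦ powProd f v.1)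
      (L := SummationFilter.unconditional _) z fun v hv ↦ absurd (hu v) hv
    simpa [powProd, z] using this
  | @insert a S ha ih =>
    have hva : ∀ v : ι →₀ ℕ, v.support ⊆ S → v a = 0 := fun v hv ↦
      Finsupp.notMem_support_iff.mp fun hm ↦ ha (hv hm)
    let e : ℕ × {v : ι →₀ ℕ // v.support ⊆ S} ≃
        {v : ι →₀ ℕ // v.support ⊆ insert a S} :=
      { toFun := fun p ↦ ⟨Finsupp.single a p.1 + p.2.1, fun i hi ↦ by
          rcases Finset.mem_union.mp (Finsupp.support_add hi) with h | h
          · exact Finset.mem_insert.mpr (.inl (Finset.mem_singleton.mp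
              (Finsupp.support_single_subset h)))
          · exact Finset.mem_insert.mpr (.inr (p.2.2 h))⟩
        invFun := fun v ↦ (v.1 a, ⟨v.1.erase a, fun i hi ↦ by
          rw [Finsupp.support_erase, Finset.mem_erase] at hi
          exact (Finset.mem_insert.mp (v.2 hi.2)).resolve_left hi.1⟩)
        left_inv := fun p ↦ by
          refine Prod.ext ?_ (Subtype.ext ?_)
          · simp [hva _ p.2.2]
          · simp only [Finsupp.erase_add, Finsupp.erase_single, zero_add]
            exact Finsupp.erase_of_notMem_support fun hm ↦ ha (p.2.2 hm)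
        right_inv := fun v ↦ Subtype.ext (Finsupp.single_add_erase _ _) }
    rw [Finset.prod_insert ha, ← e.hasSum_iff]
    have hsum : Summable fun p : ℕ × {v : ι →₀ ℕ // v.support ⊆ S} ↦ f a ^ p.1 * powProd f p.2.1 := by
      refine Summable.of_norm ?_
      refine (h.comp_injective (Subtype.val_injective.comp e.injective)).congr fun p ↦ ?_
      simp [e, powProd_add, powProd_single]
    refine ((hasSum_geometric_of_norm_lt_one (norm_lt_one_of_summable_powProd h a)).mul ih hsum).congr_fun
      fun p ↦ ?_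
    simp [e, powProd_add, powProd_single]

/-- The Euler product. -/
theorem tendsto_eulerProduct (h : Summable fun v ↦ ‖powProd f v‖) :
    Tendsto (fun S : Finset ι ↦ ∏ i ∈ S, (1 - f i)⁻¹) atTop (𝓝 (∑' v, powProd f v)) := by
  have hrw : ∀ S : Finset ι, ∏ i ∈ S, (1 - f i)⁻¹ =
      ∑' v, Set.indicator {v : ι →₀ ℕ | v.support ⊆ S} (powProd f) v := fun S ↦ by
    rw [← tsum_subtype]
    exact (hasSum_powProd_subtype h S).tsum_eq.symm
  simp only [hrw]
  refine tendsto_tsum_of_dominated_convergence h (fun v ↦ ?_) (.of_forall fun S v ↦ ?_)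
  · refine tendsto_const_nhds.congr' ?_
    filter_upwards [eventually_ge_atTop v.support] with S hS
    exact (Set.indicator_of_mem (show v ∈ {v : ι →₀ ℕ | v.support ⊆ S} from hS) _).symm
  · exact norm_indicator_le_norm_self _ _

end Abstract

section Estimates

variable {ι : Type*}

/-- Lower bound for the absolute value of an Euler product. -/
theorem exp_le_norm_tsum_powProd {f : ι → ℂ} (h : Summable fun v ↦ ‖powProd f v‖) :
    Real.exp ((∑' i, (f i).re) - (∑' i, ‖f i‖ ^ 2)) ≤ ‖∑' v, powProd f v‖ := by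
  have hs := summable_norm_of_powProd h
  have hre : Summable fun i ↦ (f i).re :=
    Summable.of_norm_bounded hs fun i ↦ Complex.abs_re_le_norm _
  have hsq : Summable fun i ↦ ‖f i‖ ^ 2 := hs.of_nonneg_of_le (fun i ↦ sq_nonneg _) fun i ↦ by
    rw [sq]
    exact mul_le_of_le_one_left (norm_nonneg _) (norm_lt_one_of_summable_powProd h i).le
  refine le_of_tendsto_of_tendsto'
    ((Real.continuous_exp.tendsto _).comp (hre.hasSum.sub hsq.hasSum))
    (tendsto_eulerProduct h).norm fun S ↦ ?_
  simp only [Function.comp_apply, norm_prod, Real.exp_sum]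
  refine Finset.prod_le_prod (fun i _ ↦ (Real.exp_pos _).le) fun i _ ↦ ?_
  have hlt := norm_lt_one_of_summable_powProd h i
  have hpos : 0 < ‖1 - f i‖ := norm_pos_iff.mpr fun h0 ↦ by
    rw [sub_eq_zero] at h0
    rw [← h0, norm_one] at hlt
    exact lt_irrefl _ hlt
  rw [norm_inv, le_inv_comm₀ (Real.exp_pos _) hpos, ← Real.exp_neg]
  refine le_of_pow_le_pow_left₀ two_ne_zero (Real.exp_pos _).le ?_
  rw [← Complex.normSq_eq_norm_sq, ← Real.exp_nat_mul, ← Complex.normSq_eq_norm_sq]
  refine le_trans ?_ (Real.add_one_le_exp _)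
  simp only [Complex.normSq_apply, Complex.sub_re, Complex.one_re, Complex.sub_im, Complex.one_im]
  push_cast
  nlinarith [sq_nonneg (f i).im, sq_nonneg (f i).re]

/-- Bounds for a nonnegative Euler product. -/
theorem tsum_powProd_bounds {x : ι → ℝ} (h : Summable fun v ↦ ‖powProd x v‖)
    (hx : ∀ i, 0 ≤ x i) :
    Real.exp (∑' i, x i) ≤ ∑' v, powProd x v ∧
      ((∀ i, x i ≤ 1 / 2) →
        ∑' v, powProd x v ≤ Real.exp ((∑' i, x i) + 2 * ∑' i, x i ^ 2)) := by
  have hs : Summable x := Summable.of_norm (summable_norm_of_powProd h)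
  have hlt : ∀ i, x i < 1 := fun i ↦
    lt_of_le_of_lt (le_abs_self _) (norm_lt_one_of_summable_powProd h i)
  refine ⟨?_, fun hhalf ↦ ?_⟩
  · refine le_of_tendsto_of_tendsto' ((Real.continuous_exp.tendsto _).comp hs.hasSum)
      (tendsto_eulerProduct h) fun S ↦ ?_
    simp only [Function.comp_apply, Real.exp_sum]
    refine Finset.prod_le_prod (fun i _ ↦ (Real.exp_pos _).le) fun i _ ↦ ?_
    rw [le_inv_comm₀ (Real.exp_pos _) (by linarith [hlt i]), ← Real.exp_neg]
    linarith [Real.add_one_le_exp (-x i)]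
  · have hsq : Summable fun i ↦ x i ^ 2 := hs.of_nonneg_of_le (fun i ↦ sq_nonneg _) fun i ↦ by
      rw [sq]; exact mul_le_of_le_one_left (hx i) (hlt i).le
    refine le_of_tendsto_of_tendsto' (tendsto_eulerProduct h)
      ((Real.continuous_exp.tendsto _).comp (hs.hasSum.add (hsq.hasSum.mul_left 2))) fun S ↦ ?_
    simp only [Function.comp_apply, Real.exp_sum]
    refine Finset.prod_le_prod (fun i _ ↦ inv_nonneg.mpr (by linarith [hlt i])) fun i _ ↦ ?_
    refine le_trans ?_ (Real.add_one_le_exp _)
    rw [inv_le_iff_one_le_mul₀ (by linarith [hlt i])]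
    nlinarith [hx i, hhalf i, mul_nonneg (mul_nonneg (hx i) (hx i)) (by linarith [hhalf i] : (0:ℝ) ≤ 1 - 2 * x i)]

end Estimates

variable (K : Type*) [Field K] [NumberField K]

/-- A height one prime as a nonzero ideal. -/
def primeNZ (P : HeightOneSpectrum (𝓞 K)) : (Ideal (𝓞 K))⁰ :=
  ⟨P.asIdeal, mem_nonZeroDivisors_of_ne_zero P.ne_bot⟩

/-- Exponent vectors to ideals. -/
def factorizationMap (v : HeightOneSpectrum (𝓞 K) →₀ ℕ) : (Ideal (𝓞 K))⁰ :=
  v.prod fun P n ↦ primeNZ K P ^ n

lemma factorizationMap_bijective : Function.Bijective (factorizationMap K) := by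
  have hcoe : ∀ v, (factorizationMap K v : Ideal (𝓞 K)) =
      ((Finsupp.toMultiset v).map HeightOneSpectrum.asIdeal).prod := by
    intro v
    rw [Finsupp.toMultiset_map, Finsupp.prod_toMultiset, Finsupp.prod_mapDomain_index
      (fun _ ↦ pow_zero _) (fun _ _ _ ↦ pow_add _ _ _), factorizationMap, Finsupp.prod,
      Submonoid.coe_finsetProd]
    rfl
  refine ⟨fun v w h ↦ ?_, fun I ↦ ?_⟩
  · have hnf : ∀ v : HeightOneSpectrum (𝓞 K) →₀ ℕ,
        normalizedFactors (factorizationMap K v : Ideal (𝓞 K)) =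
          (Finsupp.toMultiset v).map HeightOneSpectrum.asIdeal := fun v ↦ by
      rw [hcoe, normalizedFactors_prod_of_prime]
      intro P hP
      obtain ⟨Q, -, rfl⟩ := Multiset.mem_map.mp hP
      exact Ideal.prime_of_isPrime Q.ne_bot Q.isPrime
    have := hnf v
    rw [h, hnf w] at this
    exact (Multiset.toFinsupp.symm.injective
      (Multiset.map_injective (fun a b hab ↦ HeightOneSpectrum.ext hab) this)).symm
  · have hI : (I : Ideal (𝓞 K)) ≠ 0 := nonZeroDivisors.coe_ne_zero I
    have hp : ∀ P ∈ normalizedFactors (I : Ideal (𝓞 K)), P.IsPrime ∧ P ≠ ⊥ := fun P hP ↦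
      ⟨Ideal.isPrime_of_prime (prime_of_normalized_factor P hP),
        (prime_of_normalized_factor P hP).ne_zero⟩
    let m : Multiset (HeightOneSpectrum (𝓞 K)) :=
      (normalizedFactors (I : Ideal (𝓞 K))).pmap (fun P h ↦ ⟨P, h.1, h.2⟩) hp
    refine ⟨Multiset.toFinsupp m, Subtype.ext ?_⟩
    rw [hcoe, Multiset.toFinsupp_toMultiset, Multiset.map_pmap,
      Multiset.pmap_eq_map _ (fun P ↦ P), Multiset.map_id']
    exact Ideal.prod_normalizedFactors_eq_self hI

variable {K}

omit [NumberField K] in
lemma powProd_monoidHom {M : Type*} [NormedField M] (F : (Ideal (𝓞 K))⁰ →* M)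
    (v : HeightOneSpectrum (𝓞 K) →₀ ℕ) :
    powProd (fun P ↦ F (primeNZ K P)) v = F (factorizationMap K v) := by
  simp only [powProd, factorizationMap, map_finsuppProd, map_pow]

/-- Sums over ideals of completely multiplicative functions as sums over exponent vectors. -/
lemma tsum_powProd_monoidHom {M : Type*} [NormedField M] (F : (Ideal (𝓞 K))⁰ →* M) :
    ∑' v, powProd (fun P ↦ F (primeNZ K P)) v = ∑' I, F I := by
  simp only [powProd_monoidHom]
  exact (Equiv.ofBijective _ (factorizationMap_bijective K)).tsum_eq fun I ↦ F I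

lemma summable_powProd_monoidHom {M : Type*} [NormedField M] (F : (Ideal (𝓞 K))⁰ →* M)
    (h : Summable fun I ↦ ‖F I‖) :
    Summable fun v ↦ ‖powProd (fun P ↦ F (primeNZ K P)) v‖ := by
  simp only [powProd_monoidHom]
  exact h.comp_injective (factorizationMap_bijective K).1

end

end Fermat.Agent.ExtVanishing
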