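import Mathlib.NumberTheory.NumberField.CanonicalEmbedding.FundamentalCone
import Mathlib.NumberTheory.NumberField.Units.Regulator
import Mathlib.Analysis.SpecialFunctions.Pow.Real
import Mathlib.Algebra.Module.ZLattice.Summable
import Mathlib.Topology.Algebra.InfiniteSum.Real

/-!
# A homogeneous Lipschitz cut-off function for the action of units on the mixed space

`cutoff K s x = phi (logMap x) * N(x) ^ (-s)`, where `phi` is a tent partition of unity for
the unit lattice.
-/

set_option autoImplicit false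

namespace Fermat.Agent.ExtVanishing

open NumberField NumberField.InfinitePlace NumberField.mixedEmbedding NumberField.Units
  NumberField.Units.dirichletUnitTheorem Module

open scoped Classical

noncomputable section

/-- The tent function. -/
def tent (t : ℝ) : ℝ := max 0 (1 - |t|)

lemma tent_nonneg (t : ℝ) : 0 ≤ tent t := le_max_left _ _

lemma tent_le_one (t : ℝ) : tent t ≤ 1 := max_le zero_le_one (by linarith [abs_nonneg t])

lemma tent_eq_zero {t : ℝ} (h : 1 ≤ |t|) : tent t = 0 := max_eq_left (by linarith)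

lemma abs_le_one_of_tent_ne_zero {t : ℝ} (h : tent t ≠ 0) : |t| ≤ 1 := by
  by_contra h'; exact h (tent_eq_zero (not_le.mp h').le)

lemma abs_tent_sub_tent_le (a b : ℝ) : |tent a - tent b| ≤ |a - b| := by
  refine (abs_max_sub_max_le_max 0 (1 - |a|) 0 (1 - |b|)).trans ?_
  rw [sub_self, abs_zero]
  refine max_le (abs_nonneg _) ?_
  rw [show (1 - |a|) - (1 - |b|) = |b| - |a| by ring, abs_sub_comm a b]
  exact abs_abs_sub_abs_le_abs_sub b a

lemma sum_tent (t : ℝ) :
    ∑ k ∈ ({-⌊t⌋, -⌊t⌋ - 1} : Finset ℤ), tent (t + (k : ℝ)) = 1 := by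
  rw [Finset.sum_pair (by omega)]
  have h0 : (⌊t⌋ : ℝ) ≤ t := Int.floor_le t
  have h1 : t < (⌊t⌋ : ℝ) + 1 := Int.lt_floor_add_one t
  push_cast
  rw [tent, tent, abs_of_nonneg (by linarith), abs_of_nonpos (by linarith),
    max_eq_right (by linarith), max_eq_right (by linarith)]
  ring

lemma tent_eq_zero_of_notMem {t : ℝ} {k : ℤ} (hk : k ∉ ({-⌊t⌋, -⌊t⌋ - 1} : Finset ℤ)) :
    tent (t + (k : ℝ)) = 0 := by
  apply tent_eq_zero
  simp only [Finset.mem_insert, Finset.mem_singleton, not_or] at hk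
  have h0 : (⌊t⌋ : ℝ) ≤ t := Int.floor_le t
  have h1 : t < (⌊t⌋ : ℝ) + 1 := Int.lt_floor_add_one t
  rcases lt_or_gt_of_ne hk.1 with h | h
  · have : k ≤ -⌊t⌋ - 2 := by omega
    have : (k : ℝ) ≤ -(⌊t⌋ : ℝ) - 2 := by exact_mod_cast this
    rw [abs_of_nonpos (by linarith)]; linarith
  · have : -⌊t⌋ + 1 ≤ k := by omega
    have : -(⌊t⌋ : ℝ) + 1 ≤ (k : ℝ) := by exact_mod_cast this
    rw [abs_of_nonneg (by linarith)]; linarith

variable (K : Type*) [Field K] [NumberField K]

/-- The real basis of the log space attached to a basis of the unit lattice. -/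
def unitBasis : Basis (Fin (rank K)) ℝ (logSpace K) :=
  (basisUnitLattice K).ofZLatticeBasis ℝ (unitLattice K)

lemma unitBasis_repr_coe (l : unitLattice K) (i : Fin (rank K)) :
    (unitBasis K).repr (l : logSpace K) i = ((basisUnitLattice K).repr l i : ℝ) := by
  simp [unitBasis]

/-- The partition of unity on the log space. -/
def phi (v : logSpace K) : ℝ := ∏ i, tent ((unitBasis K).repr v i)

variable {K}

lemma phi_nonneg (v : logSpace K) : 0 ≤ phi K v :=
  Finset.prod_nonneg fun _ _ ↦ tent_nonneg _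

lemma phi_le_one (v : logSpace K) : phi K v ≤ 1 :=
  Finset.prod_le_one (fun _ _ ↦ tent_nonneg _) fun _ _ ↦ tent_le_one _

variable (K)

lemma exists_norm_le_of_phi_ne_zero :
    ∃ R, 0 ≤ R ∧ ∀ v : logSpace K, phi K v ≠ 0 → ‖v‖ ≤ R := by
  refine ⟨∑ i, ‖unitBasis K i‖, Finset.sum_nonneg fun _ _ ↦ norm_nonneg _, fun v hv ↦ ?_⟩
  conv_lhs => rw [← (unitBasis K).sum_repr v]
  refine (norm_sum_le _ _).trans (Finset.sum_le_sum fun i _ ↦ ?_)
  rw [_root_.norm_smul, Real.norm_eq_abs]
  refine mul_le_of_le_one_left (norm_nonneg _) (abs_le_one_of_tent_ne_zero ?_)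
  exact Finset.prod_ne_zero_iff.mp hv i (Finset.mem_univ i)

lemma exists_phi_lipschitz :
    ∃ C, 0 ≤ C ∧ ∀ v w : logSpace K, |phi K v - phi K w| ≤ C * ‖v - w‖ := by
  let L : Fin (rank K) → (logSpace K →L[ℝ] ℝ) := fun i ↦
    LinearMap.toContinuousLinearMap ((unitBasis K).coord i)
  refine ⟨∑ i, ‖L i‖, Finset.sum_nonneg fun _ _ ↦ norm_nonneg _, fun v w ↦ ?_⟩
  rw [Finset.sum_mul]
  have key : ∀ s : Finset (Fin (rank K)),
      |(∏ i ∈ s, tent ((unitBasis K).repr v i)) - ∏ i ∈ s, tent ((unitBasis K).repr w i)|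
        ≤ ∑ i ∈ s, ‖L i‖ * ‖v - w‖ := by
    intro s
    induction s using Finset.induction_on with
    | empty => simp
    | @insert a s ha ih =>
      rw [Finset.prod_insert ha, Finset.prod_insert ha, Finset.sum_insert ha]
      set A := tent ((unitBasis K).repr v a)
      set A' := tent ((unitBasis K).repr w a)
      set P := ∏ i ∈ s, tent ((unitBasis K).repr v i)
      set P' := ∏ i ∈ s, tent ((unitBasis K).repr w i)
      have hA : |A - A'| ≤ ‖L a‖ * ‖v - w‖ := by
        refine (abs_tent_sub_tent_le _ _).trans ?_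
        have := (L a).le_opNorm (v - w)
        simpa [L, map_sub] using this
      have hP : |P| ≤ 1 := by
        rw [abs_of_nonneg (Finset.prod_nonneg fun _ _ ↦ tent_nonneg _)]
        exact Finset.prod_le_one (fun _ _ ↦ tent_nonneg _) fun _ _ ↦ tent_le_one _
      have hA' : |A'| ≤ 1 := by
        rw [abs_of_nonneg (tent_nonneg _)]; exact tent_le_one _
      calc |A * P - A' * P'| = |(A - A') * P + A' * (P - P')| := by ring_nf
        _ ≤ |A - A'| * |P| + |A'| * |P - P'| := by
            rw [← abs_mul, ← abs_mul]; exact abs_add_le _ _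
        _ ≤ |A - A'| * 1 + 1 * |P - P'| := by
            apply add_le_add
            · exact mul_le_mul_of_nonneg_left hP (abs_nonneg _)
            · exact mul_le_mul_of_nonneg_right hA' (abs_nonneg _)
        _ ≤ _ := by rw [mul_one, one_mul]; exact add_le_add hA ih
  exact key Finset.univ

lemma hasSum_phi_add (v : logSpace K) :
    HasSum (fun l : unitLattice K ↦ phi K (v + (l : logSpace K))) 1 := by
  let e : (Fin (rank K) → ℤ) ≃ unitLattice K := (basisUnitLattice K).equivFun.symm.toEquiv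
  rw [← e.hasSum_iff]
  have hval : ∀ k, phi K (v + (e k : logSpace K)) =
      ∏ i, tent ((unitBasis K).repr v i + (k i : ℝ)) := by
    intro k
    refine Finset.prod_congr rfl fun i _ ↦ ?_
    rw [map_add, Finsupp.add_apply, unitBasis_repr_coe]
    have : (basisUnitLattice K).equivFun (e k) i = k i :=
      congrFun ((basisUnitLattice K).equivFun.apply_symm_apply k) i
    rw [Basis.equivFun_apply] at this
    rw [this]
  simp only [Function.comp_def, hval]
  let S : Finset (Fin (rank K) → ℤ) := Fintype.piFinset fun i ↦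
    {-⌊(unitBasis K).repr v i⌋, -⌊(unitBasis K).repr v i⌋ - 1}
  have hz : ∀ k ∉ S, (∏ i, tent ((unitBasis K).repr v i + (k i : ℝ))) = 0 := by
    intro k hk
    simp only [S, Fintype.mem_piFinset, not_forall] at hk
    obtain ⟨i, hi⟩ := hk
    exact Finset.prod_eq_zero (Finset.mem_univ i) (tent_eq_zero_of_notMem hi)
  convert (hasSum_sum_of_ne_finset_zero (L := SummationFilter.unconditional _) hz) using 1
  rw [← Finset.prod_univ_sum
    (t := fun i ↦ ({-⌊(unitBasis K).repr v i⌋, -⌊(unitBasis K).repr v i⌋ - 1} : Finset ℤ))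
    (f := fun i (j : ℤ) ↦ tent ((unitBasis K).repr v i + (j : ℝ)))]
  exact (Finset.prod_eq_one fun i _ ↦ sum_tent _).symm

lemma hasSum_phi_units (v : logSpace K) :
    HasSum (fun u : (𝓞 K)ˣ ↦ phi K (logEmbedding K (Additive.ofMul u) + v))
      (torsionOrder K : ℝ) := by
  let h : ((𝓞 K)ˣ ⧸ torsion K) → ℝ := fun q ↦
    phi K (v + (logEmbeddingEquiv K (Additive.ofMul q) : logSpace K))
  have hh : HasSum h 1 := by
    have := (Equiv.hasSum_iff ((Additive.ofMul).trans (logEmbeddingEquiv K).toEquiv)).mpr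
      (hasSum_phi_add K v)
    simpa [h, Function.comp_def] using this
  let e := Subgroup.groupEquivQuotientProdSubgroup (s := torsion K)
  have : Fintype (torsion K) := Fintype.ofFinite _
  have hg : HasSum (fun x : ((𝓞 K)ˣ ⧸ torsion K) × torsion K ↦ h x.1)
      (torsionOrder K : ℝ) := by
    let g : torsion K → ((𝓞 K)ˣ ⧸ torsion K) × torsion K → ℝ :=
      fun t x ↦ if x.2 = t then h x.1 else 0
    have hgt : ∀ t, HasSum (g t) 1 := by
      intro t
      have hinj : Function.Injective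
          (fun q : (𝓞 K)ˣ ⧸ torsion K ↦ (q, t)) := fun a b hab ↦ by simpa using hab
      rw [← hinj.hasSum_iff]
      · simpa [g, Function.comp_def] using hh
      · rintro ⟨q, t'⟩ hx
        simp only [g]
        rw [if_neg]
        rintro rfl
        exact hx ⟨q, rfl⟩
    have := hasSum_sum (s := (Finset.univ : Finset (torsion K))) (f := g) fun t _ ↦ hgt t
    simpa [g, torsionOrder, Nat.card_eq_fintype_card] using this
  refine (e.hasSum_iff.mpr hg).congr_fun fun u ↦ ?_
  have he : (e u).1 = QuotientGroup.mk u := rfl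
  simp only [Function.comp_apply, h, he, logEmbeddingEquiv_apply, add_comm v]

/-- The cut-off norm function. -/
def cutoff (s : ℝ) (x : mixedSpace K) : ℝ :=
  phi K (logMap x) * mixedEmbedding.norm x ^ (-s)

variable {K}

lemma cutoff_of_norm_eq_zero {s : ℝ} (hs : 0 < s) {x : mixedSpace K}
    (hx : mixedEmbedding.norm x = 0) : cutoff K s x = 0 := by
  rw [cutoff, hx, Real.zero_rpow (by linarith), mul_zero]

lemma cutoff_nonneg (s : ℝ) (x : mixedSpace K) : 0 ≤ cutoff K s x :=
  mul_nonneg (phi_nonneg _) (Real.rpow_nonneg (mixedEmbedding.norm_nonneg x) _)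

lemma cutoff_smul {s : ℝ} (hs : 0 < s) {t : ℝ} (ht : 0 < t) (x : mixedSpace K) :
    cutoff K s (t • x) = t ^ (-((finrank ℚ K : ℝ) * s)) * cutoff K s x := by
  by_cases hx : mixedEmbedding.norm x = 0
  · rw [cutoff_of_norm_eq_zero hs hx, cutoff_of_norm_eq_zero hs, mul_zero]
    rw [mixedEmbedding.norm_smul, hx, mul_zero]
  · rw [cutoff, cutoff, logMap_real_smul hx ht.ne', mixedEmbedding.norm_smul, abs_of_pos ht,
      Real.mul_rpow (pow_nonneg ht.le _) (mixedEmbedding.norm_nonneg x), ← Real.rpow_natCast,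
      ← Real.rpow_mul ht.le, mul_neg]
    ring

lemma cutoff_le_one_add {s : ℝ} (hs : s ∈ Set.Icc (1 : ℝ) 2) (x : mixedSpace K) :
    cutoff K s x ≤ 1 + mixedEmbedding.norm x ^ (-(2 : ℝ)) := by
  have h0 : 0 ≤ mixedEmbedding.norm x ^ (-(2 : ℝ)) :=
    Real.rpow_nonneg (mixedEmbedding.norm_nonneg x) _
  by_cases hx : mixedEmbedding.norm x = 0
  · rw [cutoff_of_norm_eq_zero (by linarith [hs.1]) hx]; linarith
  have hN : 0 < mixedEmbedding.norm x := lt_of_le_of_ne (mixedEmbedding.norm_nonneg x) (Ne.symm hx)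
  refine (mul_le_of_le_one_left (Real.rpow_nonneg hN.le _) (phi_le_one _)).trans ?_
  rcases le_total 1 (mixedEmbedding.norm x) with h | h
  · have := Real.rpow_le_one_of_one_le_of_nonpos h (show -s ≤ 0 by linarith [hs.1])
    linarith
  · have := Real.rpow_le_rpow_of_exponent_ge hN h (show -(2 : ℝ) ≤ -s by linarith [hs.2])
    linarith

lemma normAtPlace_le_norm (w : InfinitePlace K) (x : mixedSpace K) : normAtPlace w x ≤ ‖x‖ := by
  rw [norm_eq_sup'_normAtPlace]
  exact Finset.le_sup' (fun w ↦ normAtPlace w x) (Finset.mem_univ w)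

lemma abs_normAtPlace_sub_le (w : InfinitePlace K) (x y : mixedSpace K) :
    |normAtPlace w x - normAtPlace w y| ≤ ‖x - y‖ := by
  rw [abs_le]
  constructor
  · have h1 := normAtPlace_add_le w x (y - x)
    have h2 := normAtPlace_le_norm w (y - x)
    rw [add_sub_cancel] at h1
    rw [norm_sub_rev] at h2
    linarith
  · have h1 := normAtPlace_add_le w y (x - y)
    have h2 := normAtPlace_le_norm w (x - y)
    rw [add_sub_cancel] at h1
    linarith

lemma log_norm_eq_sum {x : mixedSpace K} (hx : mixedEmbedding.norm x ≠ 0) :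
    Real.log (mixedEmbedding.norm x) = ∑ w, (mult w : ℝ) * Real.log (normAtPlace w x) := by
  rw [mixedEmbedding.norm_apply, Real.log_prod]
  · simp [Real.log_pow]
  · exact fun w _ ↦ pow_ne_zero _ (mixedEmbedding.norm_ne_zero_iff.mp hx w)

variable (K)

lemma exists_norm_ge_of_phi_ne_zero :
    ∃ δ, 0 < δ ∧ ∀ x : mixedSpace K, mixedEmbedding.norm x ≠ 0 → phi K (logMap x) ≠ 0 →
      δ * ‖x‖ ^ finrank ℚ K ≤ mixedEmbedding.norm x := by
  obtain ⟨R, hR0, hR⟩ := exists_norm_le_of_phi_ne_zero K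
  set n := finrank ℚ K with hn
  have hnpos : (0 : ℝ) < n := Nat.cast_pos.mpr finrank_pos
  set R' := R + (Fintype.card (InfinitePlace K) : ℝ) * R
  refine ⟨(Real.exp R' ^ n)⁻¹, by positivity, fun x hN hx ↦ ?_⟩
  have hl := hR _ hx
  have ha : ∀ w, 0 < normAtPlace w x := fun w ↦
    lt_of_le_of_ne (normAtPlace_nonneg w x) (Ne.symm (mixedEmbedding.norm_ne_zero_iff.mp hN w))
  have hNpos : 0 < mixedEmbedding.norm x := lt_of_le_of_ne (mixedEmbedding.norm_nonneg x) (Ne.symm hN)
  set l := Real.log (mixedEmbedding.norm x) * (n : ℝ)⁻¹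
  set D : InfinitePlace K → ℝ := fun w ↦ (mult w : ℝ) * (Real.log (normAtPlace w x) - l)
  have hsum : ∑ w, D w = 0 := by
    simp only [D, mul_sub, Finset.sum_sub_distrib, ← log_norm_eq_sum hN, ← Finset.sum_mul]
    rw [← Nat.cast_sum, sum_mult_eq, ← hn]
    simp only [l]
    field_simp
    ring
  have hDne : ∀ w, w ≠ w₀ → |D w| ≤ R := fun w hw ↦ by
    have := (norm_le_pi_norm (logMap x) ⟨w, hw⟩).trans hl
    simpa [D, l, hn, Real.norm_eq_abs] using this
  have hD : ∀ w, |D w| ≤ R' := by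
    intro w
    by_cases hw : w = w₀
    · subst hw
      have : D w₀ = -∑ w ∈ Finset.univ.erase w₀, D w := by
        rw [← Finset.add_sum_erase _ _ (Finset.mem_univ w₀)] at hsum
        linarith
      rw [this, abs_neg]
      refine (Finset.abs_sum_le_sum_abs _ _).trans ?_
      refine (Finset.sum_le_sum (g := fun _ ↦ R) fun w hw ↦
        hDne w (Finset.ne_of_mem_erase hw)).trans ?_
      rw [Finset.sum_const, nsmul_eq_mul]
      have hc : ((Finset.univ.erase (w₀ : InfinitePlace K)).card : ℝ) ≤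
          Fintype.card (InfinitePlace K) := by
        exact_mod_cast Finset.card_le_univ _
      have := mul_le_mul_of_nonneg_right hc hR0
      simp only [R']
      linarith
    · have : (0:ℝ) ≤ (Fintype.card (InfinitePlace K) : ℝ) * R := by positivity
      exact (hDne w hw).trans (by simp only [R']; linarith)
  have hle : ∀ w, normAtPlace w x ≤ Real.exp (R' + l) := by
    intro w
    rw [← Real.exp_log (ha w), Real.exp_le_exp]
    have h1 := (abs_le.mp (hD w)).2
    have h2 : (1 : ℝ) ≤ mult w := by exact_mod_cast one_le_mult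
    simp only [D] at h1
    rcases le_total 0 (Real.log (normAtPlace w x) - l) with h | h
    · nlinarith
    · have : (0:ℝ) ≤ R' := by positivity
      linarith
  have hx' : ‖x‖ ≤ Real.exp (R' + l) := by
    rw [norm_eq_sup'_normAtPlace]
    exact Finset.sup'_le _ _ fun w _ ↦ hle w
  calc (Real.exp R' ^ n)⁻¹ * ‖x‖ ^ n ≤ (Real.exp R' ^ n)⁻¹ * Real.exp (R' + l) ^ n := by gcongr
    _ = mixedEmbedding.norm x := by
      rw [← Real.exp_nat_mul, ← Real.exp_nat_mul, ← Real.exp_neg, ← Real.exp_add]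
      rw [show -((n : ℝ) * R') + (n : ℝ) * (R' + l) = Real.log (mixedEmbedding.norm x) by
        simp only [l]; field_simp; ring, Real.exp_log hNpos]

lemma exists_lipschitz_sphere :
    ∃ C η, 0 ≤ C ∧ 0 < η ∧ ∀ s ∈ Set.Icc (1 : ℝ) 2, ∀ x d : mixedSpace K, ‖x‖ = 1 → ‖d‖ ≤ η →
      |cutoff K s (x + d) - cutoff K s x| ≤ C * ‖d‖ := by
  obtain ⟨δ, hδ, hsupp⟩ := exists_norm_ge_of_phi_ne_zero K
  obtain ⟨Cφ, hCφ, hφ⟩ := exists_phi_lipschitz K
  set n := finrank ℚ K with hn
  set q := min (δ * ((1 : ℝ) / 2) ^ n * (((2 : ℝ) ^ n))⁻¹) 1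
  have hq : 0 < q := lt_min (by positivity) one_pos
  set m := q / 2
  have hm : 0 < m := by positivity
  have hm1 : m ≤ 1 := by simp only [m]; linarith [min_le_right (δ * ((1 : ℝ) / 2) ^ n * (((2 : ℝ) ^ n))⁻¹) 1]
  set E := Real.exp (-(2 * (n : ℝ) * Real.log m))
  refine ⟨E * Cφ * (4 / m) + E * (2 * n / m), m, by positivity, hm, fun s hs x d hx hd ↦ ?_⟩
  set y := x + d with hy
  have hxy : ‖y - x‖ = ‖d‖ := by simp [hy]
  have hy2 : ‖y‖ ≤ 2 := by
    have := norm_add_le x d
    rw [← hy] at this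
    linarith
  have hy1 : 1 / 2 ≤ ‖y‖ := by
    have h1 := norm_sub_norm_le x y
    rw [norm_sub_rev, hxy] at h1
    have : q ≤ 1 := min_le_right _ _
    simp only [m] at hd
    linarith
  have hspos : 0 < s := by linarith [hs.1]
  by_cases h0 : cutoff K s y = 0 ∧ cutoff K s x = 0
  · rw [h0.1, h0.2, sub_zero, abs_zero]; positivity
  obtain ⟨z, hz, hzne⟩ : ∃ z, (z = x ∨ z = y) ∧ cutoff K s z ≠ 0 := by
    rcases not_and_or.mp h0 with h | h
    · exact ⟨y, .inr rfl, h⟩
    · exact ⟨x, .inl rfl, h⟩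
  have hzN : mixedEmbedding.norm z ≠ 0 := fun h ↦ hzne (cutoff_of_norm_eq_zero hspos h)
  have hz1 : 1 / 2 ≤ ‖z‖ ∧ ‖z‖ ≤ 2 := by
    rcases hz with rfl | rfl
    · rw [hx]; norm_num
    · exact ⟨hy1, hy2⟩
  have hzq : ∀ w, q ≤ normAtPlace w z := by
    intro w
    have h1 := hsupp z hzN (fun h ↦ hzne (by rw [cutoff, h, zero_mul]))
    have h2 : δ * (1 / 2 : ℝ) ^ n ≤ mixedEmbedding.norm z :=
      le_trans (by gcongr; exact hz1.1) h1
    rw [mixedEmbedding.norm_apply, ← Finset.mul_prod_erase _ _ (Finset.mem_univ w)] at h2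
    have h3 : (∏ v ∈ Finset.univ.erase w, normAtPlace v z ^ mult v) ≤ (2 : ℝ) ^ n := by
      calc _ ≤ ∏ v ∈ Finset.univ.erase w, (2 : ℝ) ^ mult v := by
            refine Finset.prod_le_prod (fun v _ ↦ pow_nonneg (normAtPlace_nonneg _ _) _)
              fun v _ ↦ ?_
            exact pow_le_pow_left₀ (normAtPlace_nonneg _ _)
              ((normAtPlace_le_norm v z).trans hz1.2) _
        _ = (2 : ℝ) ^ (∑ v ∈ Finset.univ.erase w, mult v) := Finset.prod_pow_eq_pow_sum _ _ _
        _ ≤ (2 : ℝ) ^ n := by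
            refine pow_le_pow_right₀ one_le_two ?_
            rw [hn, ← sum_mult_eq]
            exact Finset.sum_le_sum_of_subset (Finset.subset_univ _)
    have h4 : δ * (1 / 2 : ℝ) ^ n * ((2 : ℝ) ^ n)⁻¹ ≤ normAtPlace w z ^ mult w := by
      rw [← div_eq_mul_inv, div_le_iff₀ (by positivity)]
      exact h2.trans (mul_le_mul_of_nonneg_left h3 (pow_nonneg (normAtPlace_nonneg _ _) _))
    rcases le_total 1 (normAtPlace w z) with h | h
    · exact (min_le_right _ _).trans h
    · refine (min_le_left _ _).trans (h4.trans ?_)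
      exact pow_le_of_le_one (normAtPlace_nonneg _ _) h mult_ne_zero
  have hlo : ∀ p : mixedSpace K, ‖p - z‖ ≤ m → ∀ w, m ≤ normAtPlace w p := by
    intro p hp w
    have h1 := (abs_le.mp ((abs_normAtPlace_sub_le w p z).trans hp)).1
    have h2 := hzq w
    simp only [m] at *
    linarith
  have hlx : ∀ w, m ≤ normAtPlace w x := hlo x (by
    rcases hz with rfl | rfl
    · simp [hm.le]
    · rw [norm_sub_rev, hxy]; exact hd)
  have hly : ∀ w, m ≤ normAtPlace w y := hlo y (by
    rcases hz with rfl | rfl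
    · rw [hxy]; exact hd
    · simp [hm.le])
  have hlog : ∀ w, |Real.log (normAtPlace w y) - Real.log (normAtPlace w x)| ≤ ‖d‖ / m := by
    intro w
    have hd' : |normAtPlace w y - normAtPlace w x| ≤ ‖d‖ := hxy ▸ abs_normAtPlace_sub_le w y x
    have key : ∀ a b : ℝ, m ≤ a → m ≤ b → |a - b| ≤ ‖d‖ →
        Real.log a - Real.log b ≤ ‖d‖ / m := by
      intro a b ha hb hab
      rw [← Real.log_div (by linarith) (by linarith)]
      refine (Real.log_le_sub_one_of_pos (div_pos (by linarith) (by linarith))).trans ?_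
      rw [div_sub_one (by linarith), div_le_div_iff₀ (by linarith) hm]
      calc (a - b) * m ≤ ‖d‖ * m := mul_le_mul_of_nonneg_right ((le_abs_self _).trans hab) hm.le
        _ ≤ ‖d‖ * b := mul_le_mul_of_nonneg_left hb (norm_nonneg _)
    rw [abs_le]
    constructor
    · have := key _ _ (hlx w) (hly w) (by rwa [abs_sub_comm])
      linarith
    · exact key _ _ (hly w) (hlx w) hd'
  have hNx : mixedEmbedding.norm x ≠ 0 :=
    mixedEmbedding.norm_ne_zero_iff.mpr fun w ↦ (lt_of_lt_of_le hm (hlx w)).ne'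
  have hNy : mixedEmbedding.norm y ≠ 0 :=
    mixedEmbedding.norm_ne_zero_iff.mpr fun w ↦ (lt_of_lt_of_le hm (hly w)).ne'
  have hlogN : |Real.log (mixedEmbedding.norm y) - Real.log (mixedEmbedding.norm x)|
      ≤ n * (‖d‖ / m) := by
    rw [log_norm_eq_sum hNy, log_norm_eq_sum hNx, ← Finset.sum_sub_distrib]
    refine (Finset.abs_sum_le_sum_abs _ _).trans ?_
    calc _ ≤ ∑ w : InfinitePlace K, (mult w : ℝ) * (‖d‖ / m) := by
          refine Finset.sum_le_sum fun w _ ↦ ?_
          rw [← mul_sub, abs_mul, Nat.abs_cast]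
          exact mul_le_mul_of_nonneg_left (hlog w) (Nat.cast_nonneg _)
      _ = _ := by rw [← Finset.sum_mul, ← Nat.cast_sum, sum_mult_eq, hn]
  have hnpos : (0 : ℝ) < n := Nat.cast_pos.mpr finrank_pos
  have hLm : ‖logMap y - logMap x‖ ≤ 4 / m * ‖d‖ := by
    refine (pi_norm_le_iff_of_nonneg (by positivity)).mpr fun w ↦ ?_
    rw [Pi.sub_apply, logMap_apply, logMap_apply, Real.norm_eq_abs, ← mul_sub, abs_mul,
      Nat.abs_cast, ← hn]
    have h2 : (mult w.val : ℝ) ≤ 2 := by
      rw [mult]; split_ifs <;> norm_num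
    have h3 : |Real.log (normAtPlace w.val y) - Real.log (mixedEmbedding.norm y) * (n : ℝ)⁻¹ -
        (Real.log (normAtPlace w.val x) - Real.log (mixedEmbedding.norm x) * (n : ℝ)⁻¹)| ≤
        2 * (‖d‖ / m) := by
      have e1 := abs_le.mp (hlog w.val)
      have e2 : |(Real.log (mixedEmbedding.norm y) - Real.log (mixedEmbedding.norm x))
          * (n : ℝ)⁻¹| ≤ ‖d‖ / m := by
        rw [abs_mul, abs_of_pos (inv_pos.mpr hnpos), ← div_eq_mul_inv, div_le_iff₀ hnpos]
        linarith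
      have e3 := abs_le.mp e2
      rw [sub_mul] at e3
      rw [abs_le]; constructor <;> linarith
    calc _ ≤ 2 * (2 * (‖d‖ / m)) := mul_le_mul h2 h3 (abs_nonneg _) (by norm_num)
      _ = 4 / m * ‖d‖ := by ring
  have hE : ∀ p : mixedSpace K, (∀ w, m ≤ normAtPlace w p) →
      -s * Real.log (mixedEmbedding.norm p) ≤ -(2 * (n : ℝ) * Real.log m) := by
    intro p hp
    have hNp : mixedEmbedding.norm p ≠ 0 :=
      mixedEmbedding.norm_ne_zero_iff.mpr fun w ↦ (lt_of_lt_of_le hm (hp w)).ne'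
    have h1 : (n : ℝ) * Real.log m ≤ Real.log (mixedEmbedding.norm p) := by
      rw [log_norm_eq_sum hNp, hn, ← sum_mult_eq, Nat.cast_sum, Finset.sum_mul]
      exact Finset.sum_le_sum fun w _ ↦
        mul_le_mul_of_nonneg_left (Real.log_le_log hm (hp w)) (Nat.cast_nonneg _)
    have h2 : (n : ℝ) * Real.log m ≤ 0 :=
      mul_nonpos_of_nonneg_of_nonpos hnpos.le (Real.log_nonpos hm.le hm1)
    rcases le_total 0 (Real.log (mixedEmbedding.norm p)) with h | h
    · nlinarith [mul_nonneg hspos.le h]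
    · nlinarith [hs.2]
  have hrpow : ∀ p : mixedSpace K, mixedEmbedding.norm p ≠ 0 →
      mixedEmbedding.norm p ^ (-s) = Real.exp (-s * Real.log (mixedEmbedding.norm p)) := by
    intro p hp
    rw [Real.rpow_def_of_pos (lt_of_le_of_ne (mixedEmbedding.norm_nonneg p) (Ne.symm hp)), mul_comm]
  rw [cutoff, cutoff, hrpow y hNy, hrpow x hNx]
  set A := phi K (logMap y)
  set A' := phi K (logMap x)
  set u := -s * Real.log (mixedEmbedding.norm y) with hu
  set u' := -s * Real.log (mixedEmbedding.norm x) with hu'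
  have hA : |A - A'| ≤ Cφ * (4 / m * ‖d‖) :=
    (hφ _ _).trans (mul_le_mul_of_nonneg_left hLm hCφ)
  have huu : |u - u'| ≤ 2 * (n * (‖d‖ / m)) := by
    rw [hu, hu', ← mul_sub, abs_mul, abs_neg, abs_of_pos hspos]
    exact mul_le_mul hs.2 hlogN (abs_nonneg _) (by norm_num)
  have hexp : |Real.exp u - Real.exp u'| ≤ E * |u - u'| := by
    have key : ∀ a b : ℝ, a ≤ -(2 * (n : ℝ) * Real.log m) →
        Real.exp a - Real.exp b ≤ E * |a - b| := by
      intro a b ha
      calc Real.exp a - Real.exp b = Real.exp a * (1 - Real.exp (b - a)) := by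
            rw [mul_sub, mul_one, ← Real.exp_add, add_sub_cancel]
        _ ≤ Real.exp a * |a - b| :=
            mul_le_mul_of_nonneg_left
              (by linarith [Real.add_one_le_exp (b - a), le_abs_self (a - b)]) (Real.exp_pos _).le
        _ ≤ E * |a - b| :=
            mul_le_mul_of_nonneg_right (Real.exp_le_exp.mpr ha) (abs_nonneg _)
    rw [abs_le]
    constructor
    · have := key u' u (hE x hlx)
      rw [abs_sub_comm] at this
      linarith
    · exact key u u' (hE y hly)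
  calc |A * Real.exp u - A' * Real.exp u'|
      = |(A - A') * Real.exp u + A' * (Real.exp u - Real.exp u')| := by ring_nf
    _ ≤ |A - A'| * Real.exp u + A' * |Real.exp u - Real.exp u'| := by
        refine (abs_add_le _ _).trans (le_of_eq ?_)
        rw [abs_mul, abs_mul, abs_of_pos (Real.exp_pos u), abs_of_nonneg (phi_nonneg _)]
    _ ≤ Cφ * (4 / m * ‖d‖) * E + 1 * (E * (2 * (n * (‖d‖ / m)))) := by
        refine add_le_add (mul_le_mul hA (Real.exp_le_exp.mpr (hE y hly)) (Real.exp_pos u).le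
          (by positivity)) (mul_le_mul (phi_le_one _) ?_ (abs_nonneg _) zero_le_one)
        exact hexp.trans (mul_le_mul_of_nonneg_left huu (Real.exp_pos _).le)
    _ = (E * Cφ * (4 / m) + E * (2 * n / m)) * ‖d‖ := by ring

/-- The translation estimate for the cut-off function. -/
theorem exists_translate_bound :
    ∃ C η, 0 ≤ C ∧ 0 < η ∧ ∀ s ∈ Set.Icc (1 : ℝ) 2, ∀ x d : mixedSpace K, 1 ≤ ‖x‖ →
      ‖d‖ ≤ η * ‖x‖ →
      |cutoff K s (x + d) - cutoff K s x| ≤ C * ‖d‖ * (‖x‖ ^ (finrank ℚ K + 1))⁻¹ := by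
  obtain ⟨C, η, hC, hη, h⟩ := exists_lipschitz_sphere K
  refine ⟨C, η, hC, hη, fun s hs x d hx hd ↦ ?_⟩
  set t := ‖x‖ with ht
  have ht0 : 0 < t := lt_of_lt_of_le one_pos hx
  have hspos : 0 < s := by linarith [hs.1]
  have e1 : x = t • (t⁻¹ • x) := by rw [smul_inv_smul₀ ht0.ne']
  have e2 : x + d = t • (t⁻¹ • x + t⁻¹ • d) := by
    rw [smul_add, smul_inv_smul₀ ht0.ne', smul_inv_smul₀ ht0.ne']
  have hb := h s hs (t⁻¹ • x) (t⁻¹ • d)
    (by rw [_root_.norm_smul, norm_inv, Real.norm_eq_abs, abs_of_pos ht0, ← ht, inv_mul_cancel₀ ht0.ne'])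
    (by rw [_root_.norm_smul, norm_inv, Real.norm_eq_abs, abs_of_pos ht0, inv_mul_le_iff₀ ht0]
        linarith)
  rw [e2, cutoff_smul hspos ht0]
  conv_lhs => arg 1; arg 2; rw [e1, cutoff_smul hspos ht0]
  rw [← mul_sub, abs_mul, abs_of_pos (Real.rpow_pos_of_pos ht0 _)]
  calc t ^ (-((finrank ℚ K : ℝ) * s)) * _
      ≤ t ^ (-(finrank ℚ K : ℝ)) * (C * ‖t⁻¹ • d‖) := by
        refine mul_le_mul ?_ hb (abs_nonneg _) (Real.rpow_pos_of_pos ht0 _).le
        refine Real.rpow_le_rpow_of_exponent_le hx ?_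
        have : (0:ℝ) ≤ (finrank ℚ K : ℝ) := Nat.cast_nonneg _
        nlinarith [hs.1]
    _ = C * ‖d‖ * (t ^ (finrank ℚ K + 1))⁻¹ := by
        rw [_root_.norm_smul, norm_inv, Real.norm_eq_abs, abs_of_pos ht0, Real.rpow_neg ht0.le,
          Real.rpow_natCast, pow_succ, mul_inv]
        ring

lemma exists_cutoff_le :
    ∃ δ, 0 < δ ∧ ∀ s : ℝ, 0 < s → ∀ x : mixedSpace K, x ≠ 0 →
      cutoff K s x ≤ δ ^ (-s) * ‖x‖ ^ (-((finrank ℚ K : ℝ) * s)) := by
  obtain ⟨δ, hδ, h⟩ := exists_norm_ge_of_phi_ne_zero K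
  refine ⟨δ, hδ, fun s hs x hx ↦ ?_⟩
  have hpos : 0 < ‖x‖ := norm_pos_iff.mpr hx
  by_cases h0 : cutoff K s x = 0
  · rw [h0]; positivity
  have hN : mixedEmbedding.norm x ≠ 0 := fun h' ↦ h0 (cutoff_of_norm_eq_zero hs h')
  have hφ : phi K (logMap x) ≠ 0 := fun h' ↦ h0 (by rw [cutoff, h', zero_mul])
  refine (mul_le_of_le_one_left (Real.rpow_nonneg (mixedEmbedding.norm_nonneg x) _)
    (phi_le_one _)).trans ?_
  refine (Real.rpow_le_rpow_of_nonpos (by positivity) (h x hN hφ) (by linarith)).trans (le_of_eq ?_)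
  rw [Real.mul_rpow hδ.le (by positivity), ← Real.rpow_natCast, ← Real.rpow_mul hpos.le, mul_neg]

end

end Fermat.Agent.ExtVanishing
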