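import Fermat.Agent.ExtVanishing.IdealCount
import Mathlib.NumberTheory.NumberField.Basic
import Mathlib.RingTheory.Ideal.Norm.AbsNorm
import Mathlib.RingTheory.Ideal.Pointwise
import Mathlib.FieldTheory.Galois.Basic

/-!
# Completely split primes in a Galois number field
-/

set_option autoImplicit false

namespace Fermat.Agent.ExtVanishing

open NumberField
open scoped Pointwise Classical

noncomputable section

variable {K : Type*} [Field K] [NumberField K]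

lemma smul_isPrime (σ : K ≃ₐ[ℚ] K) {P : Ideal (𝓞 K)} (hP : P.IsPrime) : (σ • P).IsPrime := by
  rw [Ideal.pointwise_smul_eq_comap]
  exact Ideal.IsPrime.comap _

lemma absNorm_smul (σ : K ≃ₐ[ℚ] K) (P : Ideal (𝓞 K)) :
    Ideal.absNorm (σ • P) = Ideal.absNorm P := by
  rw [Ideal.absNorm_apply, Ideal.absNorm_apply, Submodule.cardQuot_apply, Submodule.cardQuot_apply]
  exact Nat.card_congr (Ideal.quotientEquiv P (σ • P)
    (MulSemiringAction.toRingEquiv (K ≃ₐ[ℚ] K) (𝓞 K) σ) rfl).toEquiv.symm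

/-- If a degree one prime over `ℓ` has trivial decomposition group, then `(ℓ)` is the product
of its conjugates. -/
theorem prod_smul_eq_span [IsGalois ℚ K] {ℓ : ℕ} (hℓ : ℓ.Prime) {P : Ideal (𝓞 K)}
    (hP : P.IsPrime) (hnorm : Ideal.absNorm P = ℓ)
    (hinj : ∀ σ : K ≃ₐ[ℚ] K, σ • P = P → σ = 1) :
    Ideal.span {(ℓ : 𝓞 K)} = ∏ σ : K ≃ₐ[ℚ] K, σ • P := by
  have hmem : ∀ σ : K ≃ₐ[ℚ] K, (ℓ : 𝓞 K) ∈ σ • P := fun σ ↦ by
    have h := Ideal.absNorm_mem (σ • P)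
    rwa [absNorm_smul, hnorm] at h
  have hne : ∀ σ : K ≃ₐ[ℚ] K, σ • P ≠ ⊥ := fun σ h ↦ hℓ.ne_zero (by
    have h' := absNorm_smul σ P
    rw [h, Ideal.absNorm_bot, hnorm] at h'
    exact h'.symm)
  have hi : Function.Injective fun σ : K ≃ₐ[ℚ] K ↦ σ • P := fun σ τ h ↦ by
    have := hinj (τ⁻¹ * σ) (by rw [mul_smul]; simp only at h; rw [h, inv_smul_smul])
    exact (inv_mul_eq_one.mp this).symm
  have hdvd : (∏ σ : K ≃ₐ[ℚ] K, σ • P) ∣ Ideal.span {(ℓ : 𝓞 K)} := by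
    have h := Finset.prod_primes_dvd (Ideal.span {(ℓ : 𝓞 K)})
      (s := Finset.univ.image fun σ : K ≃ₐ[ℚ] K ↦ σ • P)
      (fun a ha ↦ by
        obtain ⟨σ, -, rfl⟩ := Finset.mem_image.mp ha
        exact Ideal.prime_of_isPrime (hne σ) (smul_isPrime σ hP))
      (fun a ha ↦ by
        obtain ⟨σ, -, rfl⟩ := Finset.mem_image.mp ha
        exact Ideal.dvd_span_singleton.mpr (hmem σ))
    rwa [Finset.prod_image (fun a _ b _ hab ↦ hi hab)] at h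
  obtain ⟨C, hC⟩ := hdvd
  have h1 := congrArg Ideal.absNorm hC
  rw [map_mul, map_prod, Ideal.absNorm_span_singleton,
    show ((ℓ : 𝓞 K)) = algebraMap ℤ (𝓞 K) ℓ by simp, Algebra.norm_algebraMap, Int.natAbs_pow,
    Int.natAbs_natCast, RingOfIntegers.rank, Finset.prod_congr rfl fun σ _ ↦ (absNorm_smul σ P).trans hnorm,
    Finset.prod_const, Finset.card_univ, ← Nat.card_eq_fintype_card, IsGalois.card_aut_eq_finrank] at h1
  have h2 : Ideal.absNorm C = 1 := by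
    have := Nat.pos_of_ne_zero (pow_ne_zero (Module.finrank ℚ K) hℓ.ne_zero)
    exact ((Nat.mul_eq_left this.ne').mp h1.symm)
  rw [hC, Ideal.absNorm_eq_one_iff.mp h2, Ideal.mul_top]

theorem cnt_smul_span_eq_one [IsGalois ℚ K] {ℓ : ℕ} (hℓ : ℓ.Prime) {P : Ideal (𝓞 K)}
    (hP : P.IsPrime) (hnorm : Ideal.absNorm P = ℓ)
    (hinj : ∀ σ : K ≃ₐ[ℚ] K, σ • P = P → σ = 1) (σ : K ≃ₐ[ℚ] K) :
    cnt (σ • P) (Ideal.span {(ℓ : 𝓞 K)}) = 1 := by
  have hne : ∀ τ : K ≃ₐ[ℚ] K, τ • P ≠ ⊥ := fun τ h ↦ hℓ.ne_zero (by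
    have h' := absNorm_smul τ P
    rw [h, Ideal.absNorm_bot, hnorm] at h'
    exact h'.symm)
  rw [prod_smul_eq_span hℓ hP hnorm hinj, cnt_prod _ _ (fun τ _ ↦ hne τ),
    Finset.sum_eq_single σ]
  · exact cnt_self (smul_isPrime σ hP) (hne σ)
  · intro τ _ hτ
    by_contra h
    have hle : τ • P ≤ σ • P := by
      have := (le_pow_iff_cnt (smul_isPrime σ hP) (hne σ) (hne τ) (k := 1)).mpr (by omega)
      rwa [pow_one] at this
    have heq := ((smul_isPrime τ hP).isMaximal (hne τ)).eq_of_le (smul_isPrime σ hP).ne_top hle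
    exact hτ (inv_mul_eq_one.mp (hinj (σ⁻¹ * τ) (by rw [mul_smul, heq, inv_smul_smul]))).symm
  · simp

theorem exists_smul_eq_of_mem [IsGalois ℚ K] {ℓ : ℕ} (hℓ : ℓ.Prime) {P : Ideal (𝓞 K)}
    (hP : P.IsPrime) (hnorm : Ideal.absNorm P = ℓ)
    (hinj : ∀ σ : K ≃ₐ[ℚ] K, σ • P = P → σ = 1) {Q : Ideal (𝓞 K)} (hQ : Q.IsPrime)
    (hmem : (ℓ : 𝓞 K) ∈ Q) : ∃ σ : K ≃ₐ[ℚ] K, σ • P = Q := by
  have h : (∏ σ : K ≃ₐ[ℚ] K, σ • P) ≤ Q := by
    rw [← prod_smul_eq_span hℓ hP hnorm hinj, Ideal.span_singleton_le_iff_mem]; exact hmem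
  obtain ⟨σ, -, hσ⟩ := (Ideal.IsPrime.prod_le hQ).mp h
  have hne : σ • P ≠ ⊥ := fun h ↦ hℓ.ne_zero (by
    have h' := absNorm_smul σ P
    rw [h, Ideal.absNorm_bot, hnorm] at h'
    exact h'.symm)
  exact ⟨σ, ((smul_isPrime σ hP).isMaximal hne).eq_of_le hQ.ne_top hσ⟩

end

end Fermat.Agent.ExtVanishing
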